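import Fermat.Agent.MW.Germ

/-!
# Integral combinations of heights of vectors depending on a configuration
-/

set_option autoImplicit false
set_option linter.style.haveILetI false

noncomputable section

open Filter

namespace FA.MW

local notation "Qb" => AlgebraicClosure ℚ

/-- An integral combination of heights of nonzero vectors attached to a configuration in `E`. -/
structure HComb (E : Type) where
  κ : Type
  fκ : Fintype κ
  ι : κ → Type
  fι : ∀ k, Fintype (ι k)
  a : κ → ℤ
  x : E → ∀ k, ι k → Qb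
  ne : ∀ e k, x e k ≠ 0

namespace HComb

variable {E : Type}

attribute [instance] HComb.fκ HComb.fι

/-- The value of a combination. -/
def eval (r : HComb E) (H : HeightFn) (e : E) : ℝ := ∑ k, (r.a k : ℝ) * H.h (r.x e k)

/-- The corresponding product of valuations. -/
def vprod (r : HComb E) {w : ℕ → AbsoluteValue Qb ℝ} {s : ℕ → ℝ} {U : Ultrafilter ℕ}
    (hw : IsTame w s) (hU : (U : Filter ℕ) ≤ atTop) (e : ℕ → E) : VG hw hU :=
  ∏ k, vv hw hU (germV U fun n => r.x (e n) k) ^ r.a k

/-- One vector. -/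
def single {ι : Type} [Fintype ι] (x : E → ι → Qb) (hx : ∀ e, x e ≠ 0) : HComb E where
  κ := Unit
  fκ := inferInstance
  ι _ := ι
  fι _ := inferInstance
  a _ := 1
  x e _ := x e
  ne e _ := hx e

/-- Integral multiples. -/
protected def smul (z : ℤ) (r : HComb E) : HComb E where
  κ := r.κ
  fκ := r.fκ
  ι := r.ι
  fι := r.fι
  a k := z * r.a k
  x := r.x
  ne := r.ne

/-- Sums of two. -/
protected def add (r r' : HComb E) : HComb E where
  κ := r.κ ⊕ r'.κ
  fκ := inferInstance
  ι := Sum.elim r.ι r'.ι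
  fι k := match k with
    | .inl k => r.fι k
    | .inr k => r'.fι k
  a := Sum.elim r.a r'.a
  x e k := match k with
    | .inl k => r.x e k
    | .inr k => r'.x e k
  ne e k := match k with
    | .inl k => r.ne e k
    | .inr k => r'.ne e k

/-- Sums of a finite family. -/
protected def sum {τ : Type} [Fintype τ] (r : τ → HComb E) : HComb E where
  κ := (i : τ) × (r i).κ
  fκ := inferInstance
  ι k := (r k.1).ι k.2
  fι k := (r k.1).fι k.2
  a k := (r k.1).a k.2
  x e k := (r k.1).x e k.2
  ne e k := (r k.1).ne e k.2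

variable (H : HeightFn) (e : E)

@[simp]
theorem eval_single {ι : Type} [Fintype ι] (x : E → ι → Qb) (hx : ∀ e, x e ≠ 0) :
    (single x hx).eval H e = H.h (x e) := by
  show ∑ _k : Unit, ((1 : ℤ) : ℝ) * H.h (x e) = _
  simp

@[simp]
theorem eval_smul (z : ℤ) (r : HComb E) : (r.smul z).eval H e = z * r.eval H e := by
  simp only [eval, HComb.smul, Int.cast_mul, Finset.mul_sum, mul_assoc]
  rfl

@[simp]
theorem eval_add (r r' : HComb E) : (r.add r').eval H e = r.eval H e + r'.eval H e := by
  simp only [eval]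
  exact Fintype.sum_sum_type _

@[simp]
theorem eval_sum {τ : Type} [Fintype τ] (r : τ → HComb E) :
    (HComb.sum r).eval H e = ∑ i, (r i).eval H e := by
  simp only [eval]
  exact Fintype.sum_sigma _

variable {w : ℕ → AbsoluteValue Qb ℝ} {s : ℕ → ℝ} {U : Ultrafilter ℕ}
  {hw : IsTame w s} {hU : (U : Filter ℕ) ≤ atTop} (q : ℕ → E)

@[simp]
theorem vprod_single {ι : Type} [Fintype ι] (x : E → ι → Qb) (hx : ∀ e, x e ≠ 0) :
    (single x hx).vprod hw hU q = vv hw hU (germV U fun n => x (q n)) := by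
  show ∏ _k : Unit, vv hw hU (germV U fun n => x (q n)) ^ (1 : ℤ) = _
  simp

@[simp]
theorem vprod_smul (z : ℤ) (r : HComb E) : (r.smul z).vprod hw hU q = r.vprod hw hU q ^ z := by
  simp only [vprod, HComb.smul]
  rw [← Finset.prod_zpow]
  exact Finset.prod_congr rfl fun k _ => by rw [mul_comm, zpow_mul]; rfl

@[simp]
theorem vprod_add (r r' : HComb E) :
    (r.add r').vprod hw hU q = r.vprod hw hU q * r'.vprod hw hU q := by
  simp only [vprod]
  exact Fintype.prod_sum_type _

@[simp]
theorem vprod_sum {τ : Type} [Fintype τ] (r : τ → HComb E) :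
    (HComb.sum r).vprod hw hU q = ∏ i, (r i).vprod hw hU q := by
  simp only [vprod]
  exact Fintype.prod_sigma _

/-- A combination whose valuations are at most one is bounded above. -/
theorem bound_above (r : HComb E)
    (h : ∀ (w : ℕ → AbsoluteValue Qb ℝ) (s : ℕ → ℝ) (hw : IsTame w s) (U : Ultrafilter ℕ)
      (hU : (U : Filter ℕ) ≤ atTop) (q : ℕ → E), r.vprod hw hU q ≤ 1) :
    ∃ C : ℝ, ∀ e, r.eval H e ≤ C :=
  sum_height_le H r.a r.x r.ne h

/-- A combination whose valuations are one is bounded. -/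
theorem bound_abs (r : HComb E)
    (h : ∀ (w : ℕ → AbsoluteValue Qb ℝ) (s : ℕ → ℝ) (hw : IsTame w s) (U : Ultrafilter ℕ)
      (hU : (U : Filter ℕ) ≤ atTop) (q : ℕ → E), r.vprod hw hU q = 1) :
    ∃ C : ℝ, ∀ e, |r.eval H e| ≤ C :=
  abs_sum_height_le H r.a r.x r.ne h

end HComb

/-- Vectors with equal norms at all absolute values have equal heights. -/
theorem HeightFn.h_congr (H : HeightFn) {ι ι' : Type} [Fintype ι] [Fintype ι'] {x : ι → Qb}
    {y : ι' → Qb} (hx : x ≠ 0) (hy : y ≠ 0)
    (h : ∀ (p : ℕ) (w : AbsoluteValue Qb ℝ), IsOver w p → nrm w x = nrm w y) :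
    H.h x = H.h y := by
  have key : ∀ {ι ι' : Type} [Fintype ι] [Fintype ι'] {x : ι → Qb} {y : ι' → Qb}, x ≠ 0 → y ≠ 0 →
      (∀ (p : ℕ) (w : AbsoluteValue Qb ℝ), IsOver w p → nrm w x = nrm w y) →
        H.h x - H.h y ≤ 0 := by
    intro ι ι' _ _ x y hx hy h
    let r : HComb Unit := (HComb.single (fun _ => x) fun _ => hx).add
      ((HComb.single (fun _ => y) fun _ => hy).smul (-1))
    have h1 := H.sum_le (fun k => (r.a k : ℝ)) (r.x ()) (r.ne ()) 0 fun p w hw => by
      rw [Finsupp.coe_zero, Pi.zero_apply]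
      refine le_of_eq ((Fintype.sum_sum_type _).trans ?_)
      show ∑ _k : Unit, ((1 : ℤ) : ℝ) * Real.log (nrm w x) +
        ∑ _k : Unit, (((-1 : ℤ) * 1 : ℤ) : ℝ) * Real.log (nrm w y) = 0
      rw [h p w hw]
      simp
    have h2 : r.eval H () ≤ 0 := h1.trans_eq (by simp)
    simp only [r, HComb.eval_add, HComb.eval_smul, HComb.eval_single] at h2
    push_cast at h2
    linarith
  have h1 := key hx hy h
  have h2 := key hy hx fun p w hw => (h p w hw).symm
  linarith

theorem HeightFn.h_neg (H : HeightFn) {ι : Type} [Fintype ι] {x : ι → Qb} (hx : x ≠ 0) :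
    H.h (-x) = H.h x :=
  H.h_congr (neg_ne_zero.2 hx) hx fun p w _ => by simp [nrm]

theorem wedge_swap {ι : Type} {R : Type*} [CommRing R] (x y : ι → R) : wedge y x = -wedge x y :=
  funext fun q => by simp [wedge]; ring

end FA.MW

end
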