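import Fermat.Agent.MW.LocalLemmas
import Fermat.Agent.MW.Comb

/-!
# The height forms of the local identities
-/

set_option autoImplicit false
set_option linter.unusedSectionVars false
set_option linter.style.haveILetI false

noncomputable section

open Filter

namespace FA.MW

open AlgebraicCurve FA.Curve

local notation "Qb" => AlgebraicClosure ℚ

variable {F : Type} [Field F] [Algebra Qb F] (C : GalCurve F) (H : HeightFn)

namespace GalCurve

/-- The height of a point. -/
def hP (P : Place Qb F) : ℝ := H.h (C.fv P)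

/-- The height of the line through two points. -/
def hW (P Q : Place Qb F) : ℝ := H.h (wedge (C.fv P) (C.fv Q))

open scoped Classical in
/-- The intersection number, with the tangent line on the diagonal. -/
def isect (P Q : Place Qb F) : ℝ :=
  if P = Q then 2 * C.hP H P - H.h (C.tv P) else C.hP H P + C.hP H Q - C.hW H P Q

theorem isect_of_ne {P Q : Place Qb F} (h : P ≠ Q) :
    C.isect H P Q = C.hP H P + C.hP H Q - C.hW H P Q := if_neg h

theorem isect_self (P : Place Qb F) : C.isect H P P = 2 * C.hP H P - H.h (C.tv P) := if_pos rfl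

theorem isect_comm (P Q : Place Qb F) : C.isect H P Q = C.isect H Q P := by
  rcases eq_or_ne P Q with rfl | h
  · rfl
  rw [C.isect_of_ne H h, C.isect_of_ne H h.symm, hW, hW, wedge_swap (C.fv P) (C.fv Q),
    H.h_neg (C.wedge_fv_ne_zero h)]
  ring

/-- A basis of the functions with pole at most `k * m` at infinity. -/
def secBasis (k : ℕ) : Module.Basis (Fin (Module.finrank Qb (C.space (k * C.m)))) Qb
    (C.space (k * C.m)) := Module.finBasis Qb _

/-- The height of a function. -/
def hg (k : ℕ) (g : C.space (k * C.m)) : ℝ := H.h fun l => (C.secBasis k).repr g l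

theorem coord_ne_zero {k : ℕ} {g : C.space (k * C.m)} (hg : g ≠ 0) :
    (fun l => (C.secBasis k).repr g l) ≠ 0 := fun h0 =>
  hg ((C.secBasis k).ext_elem fun l => by simpa using congrFun h0 l)

open scoped Classical in
theorem ord_of_zeros {k : ℕ} {Z : Finset (Place Qb F)} (hcard : Z.card = k * C.m)
    {g : C.space (k * C.m)} (hg : g ≠ 0) (hz : ∀ P ∈ Z, C.gv k P (g : F) = 0) (P : Place Qb F) :
    P.ord (g : F) + C.Dk k P = if P ∈ Z then 1 else 0 := by
  classical
  have hg0 : (g : F) ≠ 0 := fun h => hg (Subtype.ext h)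
  set E := divOf C.hF (g : F) + C.Dk k
  have hpos : ∀ Q, 0 ≤ E Q := fun Q => by
    have := (atLeast_iff hg0).1 (mem_riemannRochSpace.1 (show (g : F) ∈ riemannRochSpace (C.Dk k) from g.2) Q)
    simp only [E, Finsupp.add_apply, divOf_apply]
    omega
  have hone : ∀ Q ∈ Z, 1 ≤ E Q := fun Q hQ => by
    have h1 := hz Q hQ
    rw [gv, C.val_eq_zero_iff (C.atLeast_mul_scale g.2 Q),
      atLeast_iff (mul_ne_zero hg0 (pow_ne_zero _ (C.scale_ne_zero Q))),
      Q.ord_mul hg0 (pow_ne_zero _ (C.scale_ne_zero Q)), C.ord_scale_pow] at h1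
    simpa [E] using h1
  have hdeg : Divisor.degree E = ((k * C.m : ℕ) : ℤ) := by
    rw [map_add, degree_divOf, zero_add, C.degree_Dk]
  set T := insert P (Z ∪ E.support)
  have hsub : Z ⊆ T := fun Q hQ => by simp [T, hQ]
  rw [degree_eq_finset_sum C.hF E (S := T) (fun Q hQ => by simp [T, Finsupp.mem_support_iff.1 hQ])] at hdeg
  have hsum : ∑ Q ∈ T, (E Q - if Q ∈ Z then 1 else 0) = 0 := by
    rw [Finset.sum_sub_distrib, hdeg, Finset.sum_ite_mem, Finset.inter_eq_right.2 hsub,
      Finset.sum_const, hcard]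
    simp
  have := (Finset.sum_eq_zero_iff_of_nonneg fun Q _ => ?_).1 hsum P (Finset.mem_insert_self _ _)
  · simp only [E, Finsupp.add_apply, divOf_apply] at this
    omega
  · split_ifs with hQ
    · have := hone Q hQ; omega
    · simpa using hpos Q

theorem gv_ne_zero_of_notMem {k : ℕ} {Z : Finset (Place Qb F)} (hcard : Z.card = k * C.m)
    {g : C.space (k * C.m)} (hg : g ≠ 0) (hz : ∀ P ∈ Z, C.gv k P (g : F) = 0) {P : Place Qb F}
    (hP : P ∉ Z) : C.gv k P (g : F) ≠ 0 := by
  have hg0 : (g : F) ≠ 0 := fun h => hg (Subtype.ext h)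
  intro h1
  have h2 := C.ord_of_zeros hcard hg hz P
  rw [if_neg hP] at h2
  rw [gv, C.val_eq_zero_iff (C.atLeast_mul_scale g.2 P),
    atLeast_iff (mul_ne_zero hg0 (pow_ne_zero _ (C.scale_ne_zero P))),
    P.ord_mul hg0 (pow_ne_zero _ (C.scale_ne_zero P)), C.ord_scale_pow] at h1
  omega

theorem val_δ_ne_zero_of_mem {k : ℕ} {Z : Finset (Place Qb F)} (hcard : Z.card = k * C.m)
    {g : C.space (k * C.m)} (hg : g ≠ 0) (hz : ∀ P ∈ Z, C.gv k P (g : F) = 0) {P : Place Qb F}
    (hP : P ∈ Z) (hσ : P ∉ C.sigma) : C.val P (C.δ (g : F)) ≠ 0 := by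
  refine C.val_δ_ne_zero hσ ?_
  have h2 := C.ord_of_zeros hcard hg hz P
  rw [if_pos hP] at h2
  simpa [Dk, Finsupp.single_eq_of_ne (C.ne_inf_of_notMem hσ)] using h2

/-- A function with `k * m` zeros off `sigma`. -/
structure ZeroSet (k : ℕ) where
  Z : Fin (k * C.m) → Place Qb F
  inj : Function.Injective Z
  notMem : ∀ i, Z i ∉ C.sigma
  g : C.space (k * C.m)
  ne : g ≠ 0
  zero : ∀ i, C.gv k (Z i) (g : F) = 0

variable {C}

/-- The zeros as a set. -/
def ZeroSet.set {k : ℕ} (e : C.ZeroSet k) : Finset (Place Qb F) :=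
  Finset.univ.map ⟨e.Z, e.inj⟩

theorem ZeroSet.card_set {k : ℕ} (e : C.ZeroSet k) : e.set.card = k * C.m := by
  simp [ZeroSet.set]

theorem ZeroSet.zero' {k : ℕ} (e : C.ZeroSet k) : ∀ P ∈ e.set, C.gv k P (e.g : F) = 0 := by
  simp only [ZeroSet.set, Finset.mem_map, Finset.mem_univ, true_and]
  rintro P ⟨i, rfl⟩
  exact e.zero i

variable (C)

variable {H}

/-- **The global form of Lemma A.** -/
theorem exists_bound_value (k : ℕ) : ∃ B : ℝ, ∀ (e : C.ZeroSet k) (z : Place Qb F),
    (∀ i, e.Z i ≠ z) →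
      |∑ i, C.isect H (e.Z i) z - C.hg H k e.g - k * C.hP H z| ≤ B := by
  classical
  let E : Type := {ez : C.ZeroSet k × Place Qb F // ∀ i, ez.1.Z i ≠ ez.2}
  have hgz : ∀ ez : E, (fun _ : Unit => C.gv k ez.1.2 (ez.1.1.g : F)) ≠ 0 := fun ez h0 =>
    C.gv_ne_zero_of_notMem ez.1.1.card_set ez.1.1.ne ez.1.1.zero' (P := ez.1.2) (by
      simp only [ZeroSet.set, Finset.mem_map, Finset.mem_univ, true_and]
      rintro ⟨i, hi⟩
      exact ez.2 i hi) (congrFun h0 ())
  let rv : HComb E := HComb.single _ hgz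
  let rc : HComb E := HComb.single (fun ez l => (C.secBasis k).repr ez.1.1.g l)
    fun ez => C.coord_ne_zero ez.1.1.ne
  let rz : HComb E := HComb.single (fun ez => C.fv ez.1.2) fun ez => C.fv_ne_zero _
  let ri : Fin (k * C.m) → HComb E := fun i =>
    (HComb.single (fun ez => C.fv (ez.1.1.Z i)) fun ez => C.fv_ne_zero _).add
      ((HComb.single (fun ez => wedge (C.fv (ez.1.1.Z i)) (C.fv ez.1.2))
        fun ez => C.wedge_fv_ne_zero (ez.2 i)).smul (-1))
  let r : HComb E := ((rv.add (rc.smul (-1))).add (rz.smul (((k * C.m : ℕ) : ℤ) - k))).add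
    (HComb.sum ri)
  obtain ⟨B, hB⟩ := r.bound_abs H fun w s hw U hU q => by
    have h := C.vv_value (hw := hw) (hU := hU) (C.secBasis k) (τ := Fin (k * C.m))
      (by simp) (fun n => (q n).1.1.Z) (fun n => (q n).1.1.inj) (fun n => (q n).1.1.g)
      (fun n => (q n).1.1.ne) (fun n i => (q n).1.1.zero i) (fun n => (q n).1.2)
    simp only [r, rv, rc, rz, ri, HComb.vprod_add, HComb.vprod_smul, HComb.vprod_sum,
      HComb.vprod_single]
    rw [vv_single (ι := Unit) _ ()]
    change gval hw hU (UPow.mk U fun n => C.gv k (q n).1.2 ((q n).1.1.g : F)) * _ * _ * _ = _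
    simp only [← germV_wedge]
    change _ * vv hw hU (C.gc U (C.secBasis k) fun n => (q n).1.1.g) ^ (-1 : ℤ) *
      vv hw hU (C.gp U fun n => (q n).1.2) ^ (((k * C.m : ℕ) : ℤ) - k) *
      ∏ i, vv hw hU (C.gp U fun n => (q n).1.1.Z i) *
        vv hw hU (wedge (C.gp U fun n => (q n).1.1.Z i) (C.gp U fun n => (q n).1.2)) ^ (-1 : ℤ) = 1
    rw [h]
    set Y := vv hw hU (C.gp U fun n => (q n).1.2)
    have hY : Y ≠ 0 := C.vv_gp_ne_zero _
    have hc : vv hw hU (C.gc U (C.secBasis k) fun n => (q n).1.1.g) ≠ 0 :=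
      vv_ne_zero (C.gc_ne_zero _ fun n => (q n).1.1.ne)
    have hN : ∀ i, vv hw hU (C.gp U fun n => (q n).1.1.Z i) ≠ 0 := fun i => C.vv_gp_ne_zero _
    have hWn : ∀ i, vv hw hU (wedge (C.gp U fun n => (q n).1.1.Z i) (C.gp U fun n => (q n).1.2)) ≠ 0 :=
      fun i => vv_ne_zero (C.wedge_gp_ne_zero fun n => (q n).2 i)
    simp only [Finset.prod_div_distrib, Finset.prod_mul_distrib, Finset.prod_const, zpow_neg_one,
      Finset.prod_inv_distrib, Finset.card_univ, Fintype.card_fin]
    rw [zpow_sub₀ hY, zpow_natCast, zpow_natCast]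
    have h1 := Finset.prod_ne_zero_iff.2 fun i (_ : i ∈ Finset.univ) => hN i
    have h2 := Finset.prod_ne_zero_iff.2 fun i (_ : i ∈ Finset.univ) => hWn i
    field_simp
  refine ⟨B, fun e z hz => ?_⟩
  have h1 := hB ⟨(e, z), hz⟩
  simp only [r, rv, rc, rz, ri, HComb.eval_add, HComb.eval_smul, HComb.eval_sum,
    HComb.eval_single] at h1
  refine le_of_eq_of_le (congrArg abs ?_) h1
  rw [H.subsingleton]
  simp only [C.isect_of_ne H (hz _), hP, hW, hg, Finset.sum_add_distrib, Finset.sum_sub_distrib,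
    Finset.sum_const, Finset.card_univ, Fintype.card_fin, nsmul_eq_mul, ← Finset.mul_sum]
  push_cast
  ring

/-- **The global form of Lemma A'.** -/
theorem exists_bound_deriv (k : ℕ) : ∃ B : ℝ, ∀ (e : C.ZeroSet k) (j : Fin (k * C.m)),
    |∑ i, C.isect H (e.Z i) (e.Z j) - C.hg H k e.g - k * C.hP H (e.Z j)| ≤ B := by
  classical
  have key : ∀ j : Fin (k * C.m), ∃ B : ℝ, ∀ e : C.ZeroSet k,
      |∑ i, C.isect H (e.Z i) (e.Z j) - C.hg H k e.g - k * C.hP H (e.Z j)| ≤ B := by
    intro j
    have hd : ∀ e : C.ZeroSet k, (fun _ : Unit => C.val (e.Z j) (C.δ (e.g : F))) ≠ 0 := fun e h0 =>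
      C.val_δ_ne_zero_of_mem e.card_set e.ne e.zero' (P := e.Z j)
        (by simp [ZeroSet.set]) (e.notMem j) (congrFun h0 ())
    let rd : HComb (C.ZeroSet k) := HComb.single _ hd
    let rc : HComb (C.ZeroSet k) := HComb.single (fun e l => (C.secBasis k).repr e.g l)
      fun e => C.coord_ne_zero e.ne
    let rt : HComb (C.ZeroSet k) := HComb.single (fun e => C.tv (e.Z j))
      fun e => C.tv_ne_zero (e.notMem j)
    let rj : HComb (C.ZeroSet k) := HComb.single (fun e => C.fv (e.Z j)) fun e => C.fv_ne_zero _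
    let ri : {i // i ∈ Finset.univ.erase j} → HComb (C.ZeroSet k) := fun i =>
      ((HComb.single (fun e => C.fv (e.Z i)) fun e => C.fv_ne_zero _).add rj).add
        ((HComb.single (fun e => wedge (C.fv (e.Z i)) (C.fv (e.Z j)))
          fun e => C.wedge_fv_ne_zero fun he => (Finset.ne_of_mem_erase i.2) (e.inj he)).smul (-1))
    let r : HComb (C.ZeroSet k) := (((rd.add (rc.smul (-1))).add (rt.smul (-1))).add
      (rj.smul (2 - k))).add (HComb.sum ri)
    obtain ⟨B, hB⟩ := r.bound_abs H fun w s hw U hU q => by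
      have h := C.vv_deriv (hw := hw) (hU := hU) (C.secBasis k) (τ := Fin (k * C.m))
        (by simp) (fun n => (q n).Z) (fun n => (q n).inj) (fun n => (q n).g)
        (fun n => (q n).ne) (fun n i => (q n).zero i) j (fun n => (q n).notMem j)
      simp only [r, rd, rc, rt, rj, ri, HComb.vprod_add, HComb.vprod_smul, HComb.vprod_sum,
        HComb.vprod_single]
      rw [vv_single (ι := Unit) _ ()]
      change gval hw hU (UPow.mk U fun n => C.val ((q n).Z j) (C.δ ((q n).g : F))) * _ * _ * _ * _ = _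
      simp only [← germV_wedge]
      rw [h, ← Finset.prod_coe_sort (Finset.univ.erase j)]
      change _ * vv hw hU (C.gc U (C.secBasis k) fun n => (q n).g) ^ (-1 : ℤ) *
        vv hw hU (germV U fun n => C.tv ((q n).Z j)) ^ (-1 : ℤ) *
        vv hw hU (C.gp U fun n => (q n).Z j) ^ (2 - (k : ℤ)) *
        ∏ i : {i // i ∈ Finset.univ.erase j}, vv hw hU (C.gp U fun n => (q n).Z i) *
          vv hw hU (C.gp U fun n => (q n).Z j) *
          vv hw hU (wedge (C.gp U fun n => (q n).Z i) (C.gp U fun n => (q n).Z j)) ^ (-1 : ℤ) = 1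
      set Y := vv hw hU (C.gp U fun n => (q n).Z j)
      have hY : Y ≠ 0 := C.vv_gp_ne_zero _
      have hc : vv hw hU (C.gc U (C.secBasis k) fun n => (q n).g) ≠ 0 :=
        vv_ne_zero (C.gc_ne_zero _ fun n => (q n).ne)
      have ht : vv hw hU (germV U fun n => C.tv ((q n).Z j)) ≠ 0 :=
        vv_ne_zero (germV_ne_zero fun n => C.tv_ne_zero ((q n).notMem j))
      have hN : ∀ i, vv hw hU (C.gp U fun n => (q n).Z i) ≠ 0 := fun i => C.vv_gp_ne_zero _
      have hWn : ∀ i : {i // i ∈ Finset.univ.erase j},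
          vv hw hU (wedge (C.gp U fun n => (q n).Z i) (C.gp U fun n => (q n).Z j)) ≠ 0 :=
        fun i => vv_ne_zero (C.wedge_gp_ne_zero fun n he => Finset.ne_of_mem_erase i.2 ((q n).inj he))
      simp only [zpow_neg_one]
      rw [zpow_sub₀ hY, zpow_natCast, zpow_ofNat]
      simp only [Finset.prod_div_distrib, Finset.prod_mul_distrib, Finset.prod_inv_distrib,
        Finset.prod_const]
      have h1 := Finset.prod_ne_zero_iff.2
        fun (i : {i // i ∈ Finset.univ.erase j}) (_ : i ∈ Finset.univ) => hN i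
      have h2 := Finset.prod_ne_zero_iff.2
        fun (i : {i // i ∈ Finset.univ.erase j}) (_ : i ∈ Finset.univ) => hWn i
      field_simp
    refine ⟨B, fun e => ?_⟩
    have h1 := hB e
    simp only [r, rd, rc, rt, rj, ri, HComb.eval_add, HComb.eval_smul, HComb.eval_sum,
      HComb.eval_single] at h1
    refine le_of_eq_of_le (congrArg abs ?_) h1
    rw [H.subsingleton, ← Finset.add_sum_erase _ _ (Finset.mem_univ j), C.isect_self,
      ← Finset.sum_coe_sort (Finset.univ.erase j)]
    rw [Finset.sum_congr rfl fun (i : {i // i ∈ Finset.univ.erase j}) _ =>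
      C.isect_of_ne H fun he => Finset.ne_of_mem_erase i.2 (e.inj he)]
    simp only [hP, hW, hg, Finset.sum_add_distrib, Finset.sum_sub_distrib, ← Finset.mul_sum]
    push_cast
    ring
  choose B hB using key
  refine ⟨∑ j, |B j|, fun e j => (hB j e).trans ((le_abs_self _).trans ?_)⟩
  exact Finset.single_le_sum (f := fun j => |B j|) (fun _ _ => abs_nonneg _) (Finset.mem_univ j)

/-- **The global form of Lemma K.** -/
theorem exists_bound_tangent : ∃ B : ℝ, ∀ P : Place Qb F, P ∉ C.sigma →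
    |C.isect H P P + ∑ R : C.W.support, (C.W R : ℝ) * C.isect H R P| ≤ B := by
  classical
  let E : Type := {P : Place Qb F // P ∉ C.sigma}
  have hRP : ∀ (R : C.W.support) (P : E), (R : Place Qb F) ≠ P.1 := fun R P he =>
    P.2 (he ▸ Finset.mem_insert_of_mem R.2)
  let rt : HComb E := HComb.single (fun P => C.tv P.1) fun P => C.tv_ne_zero P.2
  let rp : HComb E := HComb.single (fun P => C.fv P.1) fun P => C.fv_ne_zero _
  let ri : C.W.support → HComb E := fun R =>
    (((HComb.single (fun P => wedge (C.fv R) (C.fv P.1))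
        fun P => C.wedge_fv_ne_zero (hRP R P)).add
      ((HComb.single (fun _ => C.fv R) fun _ => C.fv_ne_zero _).smul (-1))).add (rp.smul (-1))).smul (C.W R)
  let r : HComb E := (rt.add (rp.smul (-2))).add (HComb.sum ri)
  obtain ⟨B, hB⟩ := r.bound_abs H fun w s hw U hU q => by
    have h := C.vv_tangent (hw := hw) (hU := hU) (fun n => (q n).1) (fun n => (q n).2)
    simp only [r, rt, rp, ri, HComb.vprod_add, HComb.vprod_smul, HComb.vprod_sum,
      HComb.vprod_single]
    simp only [← germV_wedge]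
    change vv hw hU (germV U fun n => C.tv (q n).1) * vv hw hU (C.gp U fun n => (q n).1) ^ (-2 : ℤ) *
      ∏ R : C.W.support, (vv hw hU (wedge (C.gp U fun _ => (R : Place Qb F)) (C.gp U fun n => (q n).1)) *
        vv hw hU (C.gp U fun _ => (R : Place Qb F)) ^ (-1 : ℤ) *
        vv hw hU (C.gp U fun n => (q n).1) ^ (-1 : ℤ)) ^ (C.W R : ℤ) = 1
    rw [zpow_neg, zpow_ofNat, ← div_eq_mul_inv, h, ← Finset.prod_mul_distrib]
    refine Finset.prod_eq_one fun R _ => ?_
    rw [zpow_neg_one, zpow_neg_one, mul_assoc, ← mul_inv, ← div_eq_mul_inv, zpow_neg,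
      inv_mul_cancel₀ (zpow_ne_zero _ (div_ne_zero
        (vv_ne_zero (C.wedge_gp_ne_zero fun n => hRP R (q n)))
        (mul_ne_zero (C.vv_gp_ne_zero _) (C.vv_gp_ne_zero _))))]
  refine ⟨B, fun P hP => ?_⟩
  have h1 := hB ⟨P, hP⟩
  simp only [r, rt, rp, ri, HComb.eval_add, HComb.eval_smul, HComb.eval_sum,
    HComb.eval_single] at h1
  rw [← abs_neg]
  refine le_of_eq_of_le (congrArg abs ?_) h1
  rw [C.isect_self, Finset.sum_congr rfl fun (R : C.W.support) _ =>
    show (C.W (R : Place Qb F) : ℝ) * C.isect H R P = _ by rw [C.isect_of_ne H (hRP R ⟨P, hP⟩)]]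
  simp only [GalCurve.hP, hW]
  push_cast
  rw [neg_add, ← Finset.sum_neg_distrib]
  congr 1
  · ring
  · exact Finset.sum_congr rfl fun R _ => by ring

/-- The minors of `d` points. -/
def minors {d : ℕ} (P : Fin d → Place Qb F) : (Fin d → Fin C.M) → Qb :=
  fun J => (Matrix.of fun a a' => C.fv (P a) (J a')).det

/-- The pairs `(a, a')` with `a < a'`. -/
abbrev UpperPairs (d : ℕ) : Type :=
  {q : Fin d × Fin d // q ∈ Finset.univ.filter (fun q : Fin d × Fin d => q.1 < q.2)}

/-- **The global form of Lemma DET.** -/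
theorem exists_bound_minors (d : ℕ) : ∃ B : ℝ, ∀ P : Fin d → Place Qb F,
    Function.Injective P → C.minors P ≠ 0 →
      H.h (C.minors P) ≤ ∑ a, C.hP H (P a) -
        ∑ q : UpperPairs d, C.isect H (P q.1.1) (P q.1.2) + B := by
  classical
  let E : Type := {P : Fin d → Place Qb F // Function.Injective P ∧ C.minors P ≠ 0}
  have hne : ∀ (q : UpperPairs d) (P : E), P.1 q.1.1 ≠ P.1 q.1.2 := fun q P he =>
    (Finset.mem_filter.1 q.2).2.ne (P.2.1 he)
  let rm : HComb E := HComb.single (fun P => C.minors P.1) fun P => P.2.2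
  let ra : Fin d → HComb E := fun a => HComb.single (fun P => C.fv (P.1 a)) fun P => C.fv_ne_zero _
  let rq : UpperPairs d → HComb E := fun q =>
    ((ra q.1.1).add (ra q.1.2)).add ((HComb.single (fun P => wedge (C.fv (P.1 q.1.1)) (C.fv (P.1 q.1.2)))
      fun P => C.wedge_fv_ne_zero (hne q P)).smul (-1))
  let r : HComb E := (rm.add ((HComb.sum ra).smul (-1))).add (HComb.sum rq)
  obtain ⟨B, hB⟩ := r.bound_above H fun w s hw U hU q => by
    have h := C.vv_minors_le (hw := hw) (hU := hU) (fun n => (q n).1)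
    simp only [r, rm, ra, rq, HComb.vprod_add, HComb.vprod_smul, HComb.vprod_sum,
      HComb.vprod_single]
    simp only [← germV_wedge]
    change vv hw hU (germV U fun n (J : Fin d → Fin C.M) =>
        (Matrix.of fun a a' => C.fv ((q n).1 a) (J a')).det) *
      (∏ a, vv hw hU (C.gp U fun n => (q n).1 a)) ^ (-1 : ℤ) *
      ∏ p : UpperPairs d, vv hw hU (C.gp U fun n => (q n).1 p.1.1) *
        vv hw hU (C.gp U fun n => (q n).1 p.1.2) *
        vv hw hU (wedge (C.gp U fun n => (q n).1 p.1.1) (C.gp U fun n => (q n).1 p.1.2)) ^ (-1 : ℤ) ≤ 1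
    have e : ∏ p : UpperPairs d, vv hw hU (C.gp U fun n => (q n).1 p.1.1) *
        vv hw hU (C.gp U fun n => (q n).1 p.1.2) *
        vv hw hU (wedge (C.gp U fun n => (q n).1 p.1.1) (C.gp U fun n => (q n).1 p.1.2)) ^ (-1 : ℤ) =
        (∏ a, ∏ a' ∈ Finset.univ.filter (fun a' => a < a'),
          vv hw hU (wedge (C.gp U fun n => (q n).1 a) (C.gp U fun n => (q n).1 a')) /
            (vv hw hU (C.gp U fun n => (q n).1 a) * vv hw hU (C.gp U fun n => (q n).1 a')))⁻¹ := by
      rw [← Finset.prod_inv_distrib]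
      simp only [← Finset.prod_inv_distrib]
      rw [Finset.prod_coe_sort (Finset.univ.filter fun p : Fin d × Fin d => p.1 < p.2) (fun p =>
        vv hw hU (C.gp U fun n => (q n).1 p.1) * vv hw hU (C.gp U fun n => (q n).1 p.2) *
        vv hw hU (wedge (C.gp U fun n => (q n).1 p.1) (C.gp U fun n => (q n).1 p.2)) ^ (-1 : ℤ)),
        Finset.prod_filter, Fintype.prod_prod_type]
      refine Finset.prod_congr rfl fun a _ => ?_
      rw [Finset.prod_filter]
      refine Finset.prod_congr rfl fun a' _ => ?_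
      split_ifs
      · rw [zpow_neg_one, inv_div, div_eq_mul_inv]
      · rfl
    rw [e, zpow_neg_one, mul_assoc, ← mul_inv]
    exact mul_inv_le_one_of_le₀ h zero_le
  refine ⟨B, fun P hinj hm => ?_⟩
  have h1 := hB ⟨P, hinj, hm⟩
  simp only [r, rm, ra, rq, HComb.eval_add, HComb.eval_smul, HComb.eval_sum,
    HComb.eval_single] at h1
  rw [Finset.sum_congr rfl fun (q : UpperPairs d) _ => C.isect_of_ne H fun he =>
    (Finset.mem_filter.1 q.2).2.ne (hinj he)]
  push_cast at h1
  simp only [hP, hW] at h1 ⊢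
  simp only [Finset.sum_sub_distrib, Finset.sum_add_distrib, neg_one_mul, Finset.sum_neg_distrib] at h1 ⊢
  linarith

end GalCurve

end FA.MW

end
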