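import Fermat.Prelude.Def_ModularCurve_ArithmeticGalois
import Mathlib

/-!
# Mordell-Weil for modular Jacobians: interfaces

* `WeakMordellWeil`: the rational points of `J₀(N)` modulo three are finite;
* `UniformBound`: the compactness principle for bounds that hold for every absolute value of the
  algebraic numbers extending one of the rationals, uniform in a family of configurations;
* `HeightFn`: an absolute logarithmic height on vectors of algebraic numbers, which turns local
  inequalities into global ones and has the Northcott property over the rationals.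
-/

set_option autoImplicit false

noncomputable section

open Filter ModularCurve

namespace FA.MW

local notation "Qb" => AlgebraicClosure ℚ

/-- The Galois-fixed points of `J₀(N)` have finitely many classes modulo three. -/
def WeakMordellWeil : Prop :=
  ∀ (N : ℕ) [NeZero N], N.Prime →
    (nsmulAddMonoidHom (α := ↥(FixedPoints.addSubgroup (Qb ≃ₐ[ℚ] Qb) (JZero N)))
      3).range.FiniteIndex

/-- `w` extends the usual absolute value (`p = 0`) or the `p`-adic one (`p` prime). -/
def IsOver (w : AbsoluteValue Qb ℝ) (p : ℕ) : Prop :=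
  (p = 0 ∨ p.Prime) ∧
    ∀ q : ℚ, w (q : Qb) = if p = 0 then |(q : ℝ)| else ((padicNorm p q : ℚ) : ℝ)

/-- The sup norm of a vector at an absolute value. -/
def nrm {ι : Type} (w : AbsoluteValue Qb ℝ) (x : ι → Qb) : ℝ := ⨆ i, w (x i)

/-- The coordinates of `x ∧ y`. -/
def wedge {ι : Type} {R : Type*} [CommRing R] (x y : ι → R) : ι × ι → R :=
  fun q => x q.1 * y q.2 - x q.2 * y q.1

/-- A sequence of rescaled absolute values in the limit of which the bounded elements form a
valuation ring on which the algebraic numbers are units. -/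
structure IsTame (w : ℕ → AbsoluteValue Qb ℝ) (s : ℕ → ℝ) : Prop where
  pos : ∀ n, 0 < s n
  const : ∀ a : Qb, a ≠ 0 → ∃ C : ℝ, ∀ᶠ n in atTop, |s n * Real.log (w n a)| ≤ C
  add : ∃ C : ℝ, ∀ᶠ n in atTop, ∀ x y : Qb,
    w n (x + y) ^ s n ≤ C * max (w n x ^ s n) (w n y ^ s n)

/-- A function of a place and a configuration is bounded above by constants of the places, almost
all zero, as soon as it is bounded along every tame sequence. -/
def UniformBound : Prop :=
  ∀ (E : Type) (L : AbsoluteValue Qb ℝ → E → ℝ),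
    (∀ (w : ℕ → AbsoluteValue Qb ℝ) (s : ℕ → ℝ) (e : ℕ → E), IsTame w s →
      ∀ U : Ultrafilter ℕ, (U : Filter ℕ) ≤ atTop →
        ∃ C : ℝ, ∀ᶠ n in (U : Filter ℕ), s n * L (w n) (e n) ≤ C) →
    ∃ C : ℕ →₀ ℝ, ∀ (p : ℕ) (w : AbsoluteValue Qb ℝ), IsOver w p → ∀ e : E, L w e ≤ C p

/-- An absolute logarithmic height. -/
structure HeightFn where
  /-- The height of a vector. -/
  h : ∀ {ι : Type} [Fintype ι], (ι → Qb) → ℝ
  nonneg : ∀ {ι : Type} [Fintype ι] (x : ι → Qb), 0 ≤ h x
  subsingleton : ∀ {ι : Type} [Fintype ι] [Subsingleton ι] (x : ι → Qb), h x = 0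
  sum_le : ∀ {κ : Type} [Fintype κ] {ι : κ → Type} [∀ k, Fintype (ι k)] (a : κ → ℝ)
    (x : ∀ k, ι k → Qb), (∀ k, x k ≠ 0) → ∀ C : ℕ →₀ ℝ,
    (∀ (p : ℕ) (w : AbsoluteValue Qb ℝ), IsOver w p →
      ∑ k, a k * Real.log (nrm w (x k)) ≤ C p) →
    ∑ k, a k * h (x k) ≤ C.sum fun _ c => max c 0
  northcott : ∀ {ι : Type} [Fintype ι] (i₀ : ι) (B : ℝ),
    {x : ι → ℚ | x i₀ = 1 ∧ h (fun i => (x i : Qb)) ≤ B}.Finite

end FA.MW

end
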