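import Fermat.Agent.MW.FormHeight
import Fermat.Agent.MW.Curve.Fibre
import Mathlib.GroupTheory.Descent
import Mathlib.FieldTheory.Galois.Infinite

/-!
# Descent: fixed classes modulo three finite implies finitely generated
-/

set_option autoImplicit false
set_option linter.unusedSectionVars false
set_option linter.style.haveILetI false

noncomputable section

namespace FA.MW

open AlgebraicCurve FA.Curve

local notation "Qb" => AlgebraicClosure ℚ

/-- The height does not change under scaling. -/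
theorem HeightFn.h_smul (H : HeightFn) {ι : Type} [Fintype ι] {x : ι → Qb} (hx : x ≠ 0) {c : Qb}
    (hc : c ≠ 0) : H.h (fun i => c * x i) = H.h x := by
  have hy : (fun i => c * x i) ≠ 0 := fun h => hx (funext fun i => by simpa [hc] using congrFun h i)
  haveI : Nonempty ι := by
    by_contra h
    rw [not_nonempty_iff] at h
    exact hx (funext fun i => isEmptyElim i)
  have hn : ∀ (w : AbsoluteValue Qb ℝ), nrm w (fun i => c * x i) = w c * nrm w x := fun w => by
    simp only [nrm, map_mul]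
    exact (Real.mul_iSup_of_nonneg (apply_nonneg w c) _).symm
  have hp : ∀ (w : AbsoluteValue Qb ℝ), 0 < nrm w x := fun w => by
    obtain ⟨i, hi⟩ := Function.ne_iff.1 hx
    exact (w.pos hi).trans_le (le_ciSup (f := fun i => w (x i)) (Finite.bddAbove_range _) i)
  have h1 : ∀ w : AbsoluteValue Qb ℝ, nrm w (fun _ : Unit => c) = w c := fun w => ciSup_const
  let r : HComb Unit := ((HComb.single (fun _ => fun i => c * x i) fun _ => hy).add
    ((HComb.single (fun _ => x) fun _ => hx).smul (-1))).add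
    ((HComb.single (fun _ => fun _ : Unit => c) fun _ h => hc (congrFun h ())).smul (-1))
  have key : ∀ z : ℤ, (r.smul z).eval H () ≤ 0 := fun z => by
    refine (H.sum_le (fun k => (((r.smul z).a k : ℤ) : ℝ)) ((r.smul z).x ()) ((r.smul z).ne ()) 0
      fun p w hw => ?_).trans_eq (by simp)
    rw [Finsupp.coe_zero, Pi.zero_apply]
    refine le_of_eq ((Fintype.sum_sum_type _).trans ?_)
    refine (congrArg (· + _) (Fintype.sum_sum_type _)).trans ?_
    show (∑ _k : Unit, ((z * 1 : ℤ) : ℝ) * Real.log (nrm w fun i => c * x i)) +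
      (∑ _k : Unit, ((z * ((-1 : ℤ) * 1) : ℤ) : ℝ) * Real.log (nrm w x)) +
      ∑ _k : Unit, ((z * ((-1 : ℤ) * 1) : ℤ) : ℝ) * Real.log (nrm w fun _ : Unit => c) = 0
    rw [hn, h1, Real.log_mul (w.pos hc).ne' (hp w).ne']
    simp
    ring
  have e : r.eval H () = H.h (fun i => c * x i) - H.h x := by
    simp only [r, HComb.eval_add, HComb.eval_smul, HComb.eval_single]
    rw [H.subsingleton (fun _ : Unit => c)]
    push_cast
    ring
  have a := key 1
  have b := key (-1)
  rw [HComb.eval_smul, e] at a b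
  push_cast at a b
  linarith

theorem mem_range_of_fixed {a : Qb} (h : ∀ σ : Qb ≃ₐ[ℚ] Qb, σ a = a) : ∃ q : ℚ, (q : Qb) = a := by
  haveI : Algebra.IsAlgebraic ℚ Qb := AlgebraicClosure.isAlgebraic ℚ
  haveI : IsAlgClosure ℚ Qb := ⟨inferInstance, inferInstance⟩
  haveI : Normal ℚ Qb := IsAlgClosure.normal ℚ Qb
  haveI : IsGalois ℚ Qb := ⟨⟩
  obtain ⟨q, hq⟩ := (InfiniteGalois.mem_range_algebraMap_iff_fixed a).2 h
  exact ⟨q, by rw [← hq]; exact (eq_ratCast (algebraMap ℚ Qb) q).symm⟩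

variable {F : Type} [Field F] [Algebra Qb F] (C : GalCurve F) (H : HeightFn)

namespace GalCurve

variable {C}

theorem gal_gridPt (σ : Qb ≃ₐ[ℚ] Qb) {r : ℕ} (g : Fin C.M → Fin (r + 1)) :
    (fun i => σ (gridPt (L := Qb) g i)) = gridPt g := funext fun i => map_natCast σ _

/-- The normalised values of the form of a fixed class are rational. -/
theorem exists_rat_vec {x : Pic0 Qb F} (hx : ∀ σ, C.gal σ • x = x) (p : C.Pair x)
    {g₀ : Fin C.M → Fin (C.rr + 1)} (hg₀ : p.vec g₀ ≠ 0) (g : Fin C.M → Fin (C.rr + 1)) :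
    ∃ q : ℚ, (q : Qb) = p.vec g / p.vec g₀ := by
  refine mem_range_of_fixed fun σ => ?_
  obtain ⟨c, hc⟩ := C.exists_form_gal p σ (hx σ)
  have e : ∀ g, σ (p.vec g) = c * p.vec g := fun g => by
    rw [Pair.vec, hc, gal_gridPt]
  have h0 : c ≠ 0 := fun h => hg₀ ((_root_.map_eq_zero σ).1 (by rw [e, h, zero_mul]))
  rw [map_div₀, e, e, mul_div_mul_left _ _ h0]

variable (C)

theorem exists_qh_lower : ∃ B : ℝ, ∀ x, -B ≤ C.qh H x := by
  obtain ⟨B, hB⟩ := C.exists_bound_vec H
  refine ⟨B, fun x => ?_⟩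
  obtain ⟨p, -, -⟩ := C.exists_pair x ∅
  have := hB x p
  have := H.nonneg p.vec
  linarith

/-- **Finitely many fixed classes of bounded height.** -/
theorem finite_fixed_le (B : ℝ) :
    {x : Pic0 Qb F | (∀ σ, C.gal σ • x = x) ∧ C.qh H x ≤ B}.Finite := by
  classical
  obtain ⟨B₀, h₀⟩ := C.exists_bound_vec H
  set N := Fin C.M → Fin (C.rr + 1)
  set S := {x : Pic0 Qb F | (∀ σ, C.gal σ • x = x) ∧ C.qh H x ≤ B}
  have hpair : ∀ x : Pic0 Qb F, Nonempty (C.Pair x) := fun x => ⟨(C.exists_pair x ∅).choose⟩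
  let pr : ∀ x, C.Pair x := fun x => (hpair x).some
  let g₀ : Pic0 Qb F → N := fun x => (pr x).exists_vec_ne_zero.choose
  have hg₀ : ∀ x, (pr x).vec (g₀ x) ≠ 0 := fun x => (pr x).exists_vec_ne_zero.choose_spec
  have hu : ∀ x : S, ∃ u : N → ℚ, ∀ g, (u g : Qb) = (pr x).vec g / (pr x).vec (g₀ x) := fun x =>
    ⟨fun g => (exists_rat_vec x.2.1 (pr x) (hg₀ x) g).choose,
      fun g => (exists_rat_vec x.2.1 (pr x) (hg₀ x) g).choose_spec⟩
  choose u hu using hu
  have hmem : ∀ x : S, u x ∈ ⋃ g : N, {v : N → ℚ | v g = 1 ∧ H.h (fun i => (v i : Qb)) ≤ B + B₀} :=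
    fun x => by
    refine Set.mem_iUnion.2 ⟨g₀ x, ?_, ?_⟩
    · have h := hu x (g₀ x)
      rw [div_self (hg₀ x)] at h
      exact_mod_cast h
    · have e : (fun i => (u x i : Qb)) = fun i => ((pr x).vec (g₀ x))⁻¹ * (pr x).vec i :=
        funext fun i => by rw [hu x i, div_eq_inv_mul]
      rw [e, H.h_smul (fun h => hg₀ x (congrFun h _)) (inv_ne_zero (hg₀ x))]
      exact (h₀ x (pr x)).trans (add_le_add_left x.2.2 _ |>.trans_eq rfl)
  have hfin : (Set.range u).Finite := (Set.finite_iUnion fun g : N => H.northcott g (B + B₀)).subset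
    (Set.range_subset_iff.2 hmem)
  have hfib : ∀ v ∈ Set.range u, {x : Pic0 Qb F | ∃ hx : x ∈ S, u ⟨x, hx⟩ = v}.Finite := by
    rintro _ ⟨x₀, rfl⟩
    obtain ⟨T, hT⟩ := C.exists_finite_fibre (pr x₀)
    refine T.finite_toSet.subset fun y ⟨hy, he⟩ => ?_
    refine hT y (pr y) ((pr y).vec (g₀ y) / (pr x₀).vec (g₀ x₀)) fun g => ?_
    have h1 := hu ⟨y, hy⟩ g
    rw [he, hu x₀ g] at h1
    rw [eq_comm, div_eq_iff (hg₀ y)] at h1
    rw [h1]
    ring
  exact (hfin.biUnion hfib).subset fun x hx =>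
    Set.mem_biUnion (Set.mem_range_self (⟨x, hx⟩ : S)) ⟨hx, rfl⟩

include H in
/-- **Descent.** -/
theorem fg_of_fixed (A : AddSubgroup (Pic0 Qb F)) (hA : ∀ x ∈ A, ∀ σ, C.gal σ • x = x)
    (hfi : (nsmulAddMonoidHom (α := A) 3).range.FiniteIndex) : AddGroup.FG A := by
  classical
  obtain ⟨B, hB⟩ := C.exists_bound_parallelogram H
  obtain ⟨L, hL⟩ := C.exists_qh_lower H
  let h : A → ℝ := fun x => C.qh H x.1 + L
  haveI : Northcott h := ⟨fun b => ((C.finite_fixed_le H (b - L)).preimage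
    Subtype.val_injective.injOn).subset fun x hx => ⟨hA _ x.2, by
      have : C.qh H x.1 + L ≤ b := hx
      linarith⟩⟩
  have hpos : ∀ y : Pic0 Qb F, 0 ≤ C.qh H y + L := fun y => by have := hL y; linarith
  refine AddCommGroup.fg_of_descent (n := 3) (h := h) (a := 2) (b := 9)
    (c := fun g => 2 * (C.qh H g.1 + L) + B + |2 * L|)
    (c₀ := 4 * B + |3 * C.qh H 0| + |8 * L|) (by norm_num) (by norm_num) hfi
    (fun g x => ?_) fun x => ?_
  · show C.qh H x.1 + L ≤ 2 * (C.qh H (g.1 + x.1) + L) + _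
    have h1 := (abs_le.1 (hB (g.1 + x.1) g.1)).2
    rw [add_sub_cancel_left] at h1
    have := hpos (g.1 + x.1 + g.1)
    have := neg_abs_le (2 * L)
    have := le_abs_self (2 * L)
    linarith
  · show 9 * (C.qh H x.1 + L) - _ ≤ C.qh H ((3 • x : A) : Pic0 Qb F) + L
    rw [AddSubgroup.coe_nsmul]
    have h1 := abs_le.1 (hB x.1 x.1)
    rw [sub_self] at h1
    have h2 := abs_le.1 (hB (x.1 + x.1) x.1)
    rw [add_sub_cancel_right, show x.1 + x.1 + x.1 = 3 • x.1 by abel] at h2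
    have := neg_abs_le (3 * C.qh H 0)
    have := le_abs_self (3 * C.qh H 0)
    have := neg_abs_le (8 * L)
    have := le_abs_self (8 * L)
    linarith

end GalCurve

end FA.MW

end
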