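import Fermat.Agent.MW.Relations
import Fermat.Agent.MW.Curve.Reps

/-!
# The pairing on classes of degree zero and the height on the Jacobian
-/

set_option autoImplicit false
set_option linter.unusedSectionVars false
set_option linter.style.haveILetI false

noncomputable section

namespace FA.MW

open AlgebraicCurve FA.Curve

local notation "Qb" => AlgebraicClosure ℚ

variable {F : Type} [Field F] [Algebra Qb F] (C : GalCurve F) (H : HeightFn)

namespace GalCurve

/-- The height of a point per unit of degree. -/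
def uP (P : Place Qb F) : ℝ := C.hP H P / C.m

/-- The normalised intersection. -/
def bb (P Q : Place Qb F) : ℝ := C.isect H P Q - C.uP H P - C.uP H Q

theorem bb_comm (P Q : Place Qb F) : C.bb H P Q = C.bb H Q P := by
  rw [bb, bb, C.isect_comm]; ring

/-- The intersection of a divisor with a point. -/
def Lf (D : Finset (Place Qb F)) (z : Place Qb F) : ℝ := ∑ P ∈ D, C.bb H P z

theorem Lf_union [DecidableEq (Place Qb F)] {A B : Finset (Place Qb F)} (h : Disjoint A B)
    (z : Place Qb F) : C.Lf H (A ∪ B) z = C.Lf H A z + C.Lf H B z :=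
  Finset.sum_union h

/-- `Z` is a reduced divisor of degree `k * m` off `sigma` of class zero. -/
structure IsLin (k : ℕ) (Z : Finset (Place Qb F)) : Prop where
  card : Z.card = k * C.m
  notMem : ∀ P ∈ Z, P ∉ C.sigma
  cls_eq : C.cls (C.divS Z) = 0

variable {C H}

theorem IsLin.exists_zeroSet {k : ℕ} {Z : Finset (Place Qb F)} (h : C.IsLin k Z) :
    ∃ e : C.ZeroSet k, e.set = Z := by
  classical
  obtain ⟨g, hg, hz⟩ := C.exists_zero_fun h.card h.cls_eq
  let φ : Fin (k * C.m) ≃ Z := (Z.equivFinOfCardEq h.card).symm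
  refine ⟨⟨fun i => φ i, fun i j hij => φ.injective (Subtype.ext hij), fun i => h.notMem _ (φ i).2,
    g, hg, fun i => hz _ (φ i).2⟩, ?_⟩
  ext P
  simp only [ZeroSet.set, Finset.mem_map, Finset.mem_univ, true_and]
  refine ⟨fun ⟨i, hi⟩ => hi ▸ (φ i).2, fun hP => ⟨φ.symm ⟨P, hP⟩, ?_⟩⟩
  simp

theorem IsRep.isLin_union [DecidableEq (Place Qb F)] {x y : Pic0 Qb F} {A B : Finset (Place Qb F)}
    (hA : C.IsRep x A) (hB : C.IsRep y B) (h : Disjoint A B) (hxy : x + y = 0) :
    C.IsLin 1 (A ∪ B) where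
  card := by rw [Finset.card_union_of_disjoint h, hA.card, hB.card, one_mul, m, two_mul]
  notMem P hP := (Finset.mem_union.1 hP).elim (hA.notMem P) (hB.notMem P)
  cls_eq := by rw [C.divS_union h, map_add, hA.cls_eq, hB.cls_eq, hxy]

theorem IsRep.isLin_union₄ [DecidableEq (Place Qb F)] {x y z w : Pic0 Qb F}
    {A B D E : Finset (Place Qb F)} (hA : C.IsRep x A) (hB : C.IsRep y B) (hD : C.IsRep z D)
    (hE : C.IsRep w E) (hAB : Disjoint A B) (hDE : Disjoint D E) (h : Disjoint (A ∪ B) (D ∪ E))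
    (hs : x + y + (z + w) = 0) : C.IsLin 2 ((A ∪ B) ∪ (D ∪ E)) where
  card := by
    rw [Finset.card_union_of_disjoint h, Finset.card_union_of_disjoint hAB,
      Finset.card_union_of_disjoint hDE, hA.card, hB.card, hD.card, hE.card, m]
    ring
  notMem P hP := by
    rcases Finset.mem_union.1 hP with h1 | h1 <;> rcases Finset.mem_union.1 h1 with h2 | h2
    · exact hA.notMem P h2
    · exact hB.notMem P h2
    · exact hD.notMem P h2
    · exact hE.notMem P h2
  cls_eq := by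
    rw [C.divS_union h, C.divS_union hAB, C.divS_union hDE, map_add, map_add, map_add, hA.cls_eq,
      hB.cls_eq, hD.cls_eq, hE.cls_eq, hs]

variable (C H)

/-- On the zeros of a function the intersection with a point does not depend on the point. -/
theorem exists_bound_indep (k : ℕ) : ∃ B : ℝ, ∀ Z, C.IsLin k Z →
    ∃ c : ℝ, ∀ z, |C.Lf H Z z - c| ≤ B := by
  obtain ⟨B₁, h₁⟩ := C.exists_bound_value (H := H) k
  obtain ⟨B₂, h₂⟩ := C.exists_bound_deriv (H := H) k
  refine ⟨max B₁ B₂, fun Z hZ => ?_⟩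
  obtain ⟨e, rfl⟩ := hZ.exists_zeroSet
  refine ⟨C.hg H k e.g - ∑ i, C.uP H (e.Z i), fun z => ?_⟩
  have hm : (C.m : ℝ) ≠ 0 := Nat.cast_ne_zero.2 (by have := C.m_pos; omega)
  have e1 : C.Lf H e.set z - (C.hg H k e.g - ∑ i, C.uP H (e.Z i)) =
      ∑ i, C.isect H (e.Z i) z - C.hg H k e.g - k * C.hP H z := by
    rw [Lf, ZeroSet.set, Finset.sum_map]
    simp only [Function.Embedding.coeFn_mk, bb, Finset.sum_sub_distrib, Finset.sum_const,
      Finset.card_univ, Fintype.card_fin, nsmul_eq_mul]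
    rw [uP]
    push_cast
    field_simp
    ring
  rw [e1]
  by_cases hz : ∃ j, e.Z j = z
  · obtain ⟨j, rfl⟩ := hz
    exact (h₂ e j).trans (le_max_right _ _)
  · push Not at hz
    exact (h₁ e z hz).trans (le_max_left _ _)

theorem exists_three_reps (x y z : Pic0 Qb F) : ∃ A B D, C.IsRep x A ∧ C.IsRep y B ∧ C.IsRep z D ∧
    Disjoint A B ∧ Disjoint A D ∧ Disjoint B D := by
  classical
  obtain ⟨A, hA, -⟩ := C.exists_rep x ∅
  obtain ⟨B, hB, hBd⟩ := C.exists_rep y A
  obtain ⟨D, hD, hDd⟩ := C.exists_rep z (A ∪ B)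
  rw [Finset.disjoint_union_right] at hDd
  exact ⟨A, B, D, hA, hB, hD, hBd.symm, hDd.1.symm, hDd.2.symm⟩

/-- On the zeros of a function the intersection with every point is bounded. -/
theorem exists_bound_lin (k : ℕ) : ∃ B : ℝ, ∀ Z, C.IsLin k Z → ∀ z, |C.Lf H Z z| ≤ B := by
  classical
  obtain ⟨B₁, h₁⟩ := C.exists_bound_indep H 1
  obtain ⟨B₂, h₂⟩ := C.exists_bound_indep H k
  obtain ⟨D₄, D₅, D₆, h4, h5, h6, d45, d46, d56⟩ := C.exists_three_reps 0 0 0
  obtain ⟨c45, hc45⟩ := h₁ _ (h4.isLin_union h5 d45 (add_zero 0))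
  obtain ⟨c46, hc46⟩ := h₁ _ (h4.isLin_union h6 d46 (add_zero 0))
  obtain ⟨c56, hc56⟩ := h₁ _ (h5.isLin_union h6 d56 (add_zero 0))
  set β := (c45 + c46 - c56) / 2
  have hβ : ∀ z, |C.Lf H D₄ z - β| ≤ 2 * B₁ := fun z => by
    have a := abs_le.1 (hc45 z)
    have b := abs_le.1 (hc46 z)
    have c := abs_le.1 (hc56 z)
    rw [C.Lf_union H d45] at a
    rw [C.Lf_union H d46] at b
    rw [C.Lf_union H d56] at c
    simp only [β]
    rw [abs_le]
    constructor <;> linarith
  have hn : (0 : ℝ) < C.n := Nat.cast_pos.2 C.n_pos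
  refine ⟨B₂ + B₂ + 2 * k * (|β| + 2 * B₁), fun Z hZ z => ?_⟩
  obtain ⟨c, hc⟩ := h₂ Z hZ
  have hswap : ∑ Q ∈ D₄, C.Lf H Z Q = ∑ P ∈ Z, C.Lf H D₄ P := by
    simp only [Lf]
    rw [Finset.sum_comm]
    exact Finset.sum_congr rfl fun P _ => Finset.sum_congr rfl fun Q _ => C.bb_comm H _ _
  have h3 : |∑ Q ∈ D₄, (C.Lf H Z Q - c)| ≤ C.n * B₂ := by
    refine (Finset.abs_sum_le_sum_abs _ _).trans ((Finset.sum_le_sum fun Q _ => hc Q).trans_eq ?_)
    rw [Finset.sum_const, h4.card, nsmul_eq_mul]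
  have h4' : |∑ P ∈ Z, C.Lf H D₄ P| ≤ (k * C.m : ℕ) * (|β| + 2 * B₁) := by
    refine (Finset.abs_sum_le_sum_abs _ _).trans ((Finset.sum_le_sum (g := fun _ => |β| + 2 * B₁) fun P _ => ?_).trans_eq ?_)
    · exact show |C.Lf H D₄ P| ≤ |β| + 2 * B₁ by
        have := abs_le.1 (hβ P)
        have := neg_abs_le β
        have := le_abs_self β
        rw [abs_le]; constructor <;> linarith
    · rw [Finset.sum_const, hZ.card, nsmul_eq_mul]
  rw [Finset.sum_sub_distrib, Finset.sum_const, h4.card, nsmul_eq_mul, hswap] at h3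
  rw [m] at h4'
  push_cast at h4'
  have h5 := abs_le.1 h3
  have h6 := abs_le.1 h4'
  have h7 := abs_le.1 (hc z)
  rw [abs_le]
  constructor <;> nlinarith

/-- A representative of a class. -/
def rep (x : Pic0 Qb F) : Finset (Place Qb F) := (C.exists_rep x ∅).choose

theorem isRep_rep (x : Pic0 Qb F) : C.IsRep x (C.rep x) := (C.exists_rep x ∅).choose_spec.1

/-- The intersection of a class with a point. -/
def Lx (x : Pic0 Qb F) (z : Place Qb F) : ℝ := C.Lf H (C.rep x) z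

/-- **The choice of the representative does not matter.** -/
theorem exists_bound_rep :
    ∃ B : ℝ, ∀ (x : Pic0 Qb F) (D : Finset (Place Qb F)), C.IsRep x D →
      ∀ z, |C.Lf H D z - C.Lx H x z| ≤ B := by
  classical
  obtain ⟨B, hB⟩ := C.exists_bound_lin H 1
  refine ⟨B + B, fun x D hD z => ?_⟩
  obtain ⟨E, hE, hEd⟩ := C.exists_rep (-x) (D ∪ C.rep x)
  rw [Finset.disjoint_union_right] at hEd
  have h1 := abs_le.1 (hB _ (hD.isLin_union hE hEd.1.symm (add_neg_cancel x)) z)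
  have h2 := abs_le.1 (hB _ ((C.isRep_rep x).isLin_union hE hEd.2.symm (add_neg_cancel x)) z)
  rw [C.Lf_union H hEd.1.symm] at h1
  rw [C.Lf_union H hEd.2.symm] at h2
  rw [Lx, abs_le]
  constructor <;> linarith

/-- The intersection of a class with a point is additive up to a constant. -/
theorem exists_bound_add :
    ∃ B : ℝ, ∀ (x y : Pic0 Qb F) z, |C.Lx H (x + y) z - C.Lx H x z - C.Lx H y z| ≤ B := by
  classical
  obtain ⟨B₁, h₁⟩ := C.exists_bound_lin H 1
  obtain ⟨B₂, h₂⟩ := C.exists_bound_lin H 2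
  obtain ⟨R, hR⟩ := C.exists_bound_rep H
  refine ⟨B₂ + 4 * B₁ + 7 * R, fun x y z => ?_⟩
  have hzero : |C.Lx H 0 z| ≤ 2 * B₁ + 2 * R := by
    obtain ⟨A, B, D, hA, hB, hD, dAB, dAD, dBD⟩ := C.exists_three_reps 0 0 0
    have a := abs_le.1 (h₁ _ (hA.isLin_union hB dAB (add_zero 0)) z)
    rw [C.Lf_union H dAB] at a
    have b := abs_le.1 (hR 0 A hA z)
    have c := abs_le.1 (hR 0 B hB z)
    rw [abs_le]
    constructor <;> linarith
  obtain ⟨A, B, D, hA, hB, hD, dAB, dAD, dBD⟩ := C.exists_three_reps x y (-(x + y))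
  obtain ⟨E, hE, hEd⟩ := C.exists_rep 0 (A ∪ B ∪ D)
  rw [Finset.disjoint_union_right, Finset.disjoint_union_right] at hEd
  obtain ⟨S, hS, hSd⟩ := C.exists_rep (x + y) D
  have h := abs_le.1 (h₂ _ (hA.isLin_union₄ hB hD hE dAB hEd.2.symm
    (Finset.disjoint_union_left.2 ⟨Finset.disjoint_union_right.2 ⟨dAD, hEd.1.1.symm⟩,
      Finset.disjoint_union_right.2 ⟨dBD, hEd.1.2.symm⟩⟩) (by abel)) z)
  rw [C.Lf_union H (Finset.disjoint_union_left.2 ⟨Finset.disjoint_union_right.2 ⟨dAD, hEd.1.1.symm⟩,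
      Finset.disjoint_union_right.2 ⟨dBD, hEd.1.2.symm⟩⟩), C.Lf_union H dAB,
    C.Lf_union H hEd.2.symm] at h
  have hneg := abs_le.1 (h₁ _ (hS.isLin_union hD hSd (add_neg_cancel _)) z)
  rw [C.Lf_union H hSd] at hneg
  have a := abs_le.1 (hR x A hA z)
  have b := abs_le.1 (hR y B hB z)
  have e := abs_le.1 (hR 0 E hE z)
  have s := abs_le.1 (hR (x + y) S hS z)
  have z0 := abs_le.1 hzero
  rw [abs_le]
  constructor <;> linarith

/-- The pairing. -/
def pair (x y : Pic0 Qb F) : ℝ := -∑ Q ∈ C.rep y, C.Lx H x Q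

theorem pair_comm (x y : Pic0 Qb F) : C.pair H x y = C.pair H y x := by
  simp only [pair, Lx, Lf, neg_inj]
  rw [Finset.sum_comm]
  exact Finset.sum_congr rfl fun P _ => Finset.sum_congr rfl fun Q _ => C.bb_comm H _ _

theorem exists_bound_pair_add :
    ∃ B : ℝ, ∀ x y z, |C.pair H (x + y) z - C.pair H x z - C.pair H y z| ≤ B := by
  obtain ⟨B, hB⟩ := C.exists_bound_add H
  refine ⟨C.n * B, fun x y z => ?_⟩
  rw [pair, pair, pair, ← abs_neg]
  have e : -(-∑ Q ∈ C.rep z, C.Lx H (x + y) Q - -∑ Q ∈ C.rep z, C.Lx H x Q -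
      -∑ Q ∈ C.rep z, C.Lx H y Q) =
      ∑ Q ∈ C.rep z, (C.Lx H (x + y) Q - C.Lx H x Q - C.Lx H y Q) := by
    rw [Finset.sum_sub_distrib, Finset.sum_sub_distrib]; ring
  rw [e]
  refine (Finset.abs_sum_le_sum_abs _ _).trans ((Finset.sum_le_sum fun Q _ => hB x y Q).trans_eq ?_)
  rw [Finset.sum_const, (C.isRep_rep z).card, nsmul_eq_mul]

/-- The height of a class. -/
def qh (x : Pic0 Qb F) : ℝ := C.pair H x x

/-- **The parallelogram law up to a constant.** -/
theorem exists_bound_parallelogram : ∃ B : ℝ, ∀ x y,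
    |C.qh H (x + y) + C.qh H (x - y) - 2 * C.qh H x - 2 * C.qh H y| ≤ B := by
  obtain ⟨B, hB⟩ := C.exists_bound_pair_add H
  refine ⟨12 * B, fun x y => ?_⟩
  have h : ∀ a b, |C.qh H (a + b) - C.qh H a - C.qh H b - 2 * C.pair H a b| ≤ 3 * B := fun a b => by
    have h1 := abs_le.1 (hB a b (a + b))
    have h2 := abs_le.1 (hB a b a)
    have h3 := abs_le.1 (hB a b b)
    rw [C.pair_comm H a (a + b), C.pair_comm H b (a + b)] at h1
    rw [C.pair_comm H b a] at h2
    simp only [qh]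
    rw [abs_le]
    constructor <;> linarith
  have h1 := abs_le.1 (h x y)
  have h2 := abs_le.1 (h (x - y) y)
  rw [sub_add_cancel] at h2
  have h3 := abs_le.1 (hB (x - y) y y)
  rw [sub_add_cancel] at h3
  simp only [qh] at *
  rw [abs_le]
  constructor <;> linarith

/-- The height in terms of any representatives of a class and of its opposite. -/
theorem exists_bound_qh_rep : ∃ B : ℝ, ∀ x D, C.IsRep x D →
    |C.qh H x + ∑ Q ∈ D, C.Lf H D Q| ≤ B := by
  obtain ⟨R, hR⟩ := C.exists_bound_rep H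
  refine ⟨C.n * R + C.n * R, fun x D hD => ?_⟩
  have h1 : |∑ Q ∈ D, (C.Lf H D Q - C.Lx H x Q)| ≤ C.n * R := by
    refine (Finset.abs_sum_le_sum_abs _ _).trans ((Finset.sum_le_sum fun Q _ => hR x D hD Q).trans_eq ?_)
    rw [Finset.sum_const, hD.card, nsmul_eq_mul]
  have h2 : |∑ Q ∈ C.rep x, (C.Lf H D Q - C.Lx H x Q)| ≤ C.n * R := by
    refine (Finset.abs_sum_le_sum_abs _ _).trans ((Finset.sum_le_sum fun Q _ => hR x D hD Q).trans_eq ?_)
    rw [Finset.sum_const, (C.isRep_rep x).card, nsmul_eq_mul]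
  have hs : ∑ Q ∈ C.rep x, C.Lf H D Q = ∑ Q ∈ D, C.Lx H x Q := by
    simp only [Lx, Lf]
    rw [Finset.sum_comm]
    exact Finset.sum_congr rfl fun P _ => Finset.sum_congr rfl fun Q _ => C.bb_comm H _ _
  rw [Finset.sum_sub_distrib] at h1 h2
  rw [hs] at h2
  have := abs_le.1 h1
  have := abs_le.1 h2
  simp only [qh, pair]
  rw [abs_le]
  constructor <;> linarith

end GalCurve

end FA.MW

end
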