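import Fermat.Agent.MW.FormLocal
import Fermat.Agent.MW.Pairing

/-!
# The height of the form is at most the height of the class
-/

set_option autoImplicit false
set_option linter.unusedSectionVars false
set_option linter.style.haveILetI false

noncomputable section

open Filter

namespace FA.MW

open AlgebraicCurve FA.Curve

local notation "Qb" => AlgebraicClosure ℚ

variable {F : Type} [Field F] [Algebra Qb F] (C : GalCurve F) (H : HeightFn)

namespace GalCurve

/-- The sum of the heights per degree of a tuple. -/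
def uu {d : ℕ} (P : Fin d → Place Qb F) : ℝ := ∑ a, C.uP H (P a)

theorem uP_nonneg (P : Place Qb F) : 0 ≤ C.uP H P := div_nonneg (H.nonneg _) (Nat.cast_nonneg _)

theorem uu_nonneg {d : ℕ} (P : Fin d → Place Qb F) : 0 ≤ C.uu H P :=
  Finset.sum_nonneg fun _ _ => C.uP_nonneg H _

theorem sum_upper_eq {d : ℕ} (f : Fin d → Fin d → ℝ) (hf : ∀ a b, f a b = f b a) :
    2 * ∑ q : UpperPairs d, f q.1.1 q.1.2 = (∑ a, ∑ b, f a b) - ∑ a, f a a := by
  classical
  rw [Finset.sum_coe_sort (Finset.univ.filter fun q : Fin d × Fin d => q.1 < q.2)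
    (fun q => f q.1 q.2), Finset.sum_filter, Fintype.sum_prod_type]
  have h1 : ∀ a b, f a b = (if a < b then f a b else 0) + (if b < a then f a b else 0) +
      (if a = b then f a b else 0) := fun a b => by
    rcases lt_trichotomy a b with h | h | h
    · simp [h, h.not_gt, h.ne]
    · subst h; simp
    · simp [h, h.not_gt, h.ne']
  have h2 : ∑ a, ∑ b, (if b < a then f a b else 0) = ∑ a, ∑ b, (if a < b then f a b else 0) := by
    rw [Finset.sum_comm]
    exact Finset.sum_congr rfl fun a _ => Finset.sum_congr rfl fun b _ => by rw [hf]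
  conv_rhs => arg 1; arg 2; ext a; arg 2; ext b; rw [h1 a b]
  simp only [Finset.sum_add_distrib, h2, Finset.sum_ite_eq, Finset.mem_univ, if_true]
  ring

theorem Lf_ptSet {d : ℕ} {P : Fin d → Place Qb F} (hP : Function.Injective P) (z : Place Qb F) :
    C.Lf H (C.ptSet P hP) z =
      ∑ a, C.isect H (P a) z - C.uu H P - d * C.uP H z := by
  rw [Lf, ptSet, Finset.sum_map]
  simp only [Function.Embedding.coeFn_mk, bb, Finset.sum_sub_distrib, Finset.sum_const,
    Finset.card_univ, Fintype.card_fin, nsmul_eq_mul]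
  rfl

/-- The minors of a representative in terms of the height of its class. -/
theorem exists_bound_minors_rep : ∃ B : ℝ, ∀ (x : Pic0 Qb F) (P : Fin C.n → Place Qb F)
    (hP : Function.Injective P), C.IsRep x (C.ptSet P hP) →
      H.h (C.minors P) ≤ C.qh H x / 2 +
        ((C.m : ℝ) - C.n - (Divisor.degree C.W : ℝ) / 2) * C.uu H P -
        (∑ R : C.W.support, (C.W R : ℝ) * C.Lf H (C.ptSet P hP) R) / 2 + B := by
  classical
  obtain ⟨B₁, h₁⟩ := C.exists_bound_minors (H := H) C.n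
  obtain ⟨B₂, h₂⟩ := C.exists_bound_qh_rep H
  obtain ⟨B₃, h₃⟩ := C.exists_bound_tangent (H := H)
  set K := ∑ R : C.W.support, (C.W R : ℝ) * C.uP H R
  refine ⟨B₁ + B₂ / 2 + C.n * B₃ / 2 + |C.n * K|, fun x P hP hx => ?_⟩
  have a1 := h₁ P hP (C.minors_ne_zero hP)
  have a2 := (abs_le.1 (h₂ x _ hx)).1
  have hm : (C.m : ℝ) ≠ 0 := Nat.cast_ne_zero.2 (by have := C.m_pos; omega)
  have e1 : ∑ a, C.hP H (P a) = C.m * C.uu H P := by
    rw [uu, Finset.mul_sum]
    exact Finset.sum_congr rfl fun a _ => by rw [uP]; field_simp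
  have e2 := sum_upper_eq (fun a b : Fin C.n => C.isect H (P a) (P b)) fun a b => C.isect_comm H _ _
  have e3 : ∑ Q ∈ C.ptSet P hP, C.Lf H (C.ptSet P hP) Q =
      (∑ a, ∑ b, C.isect H (P a) (P b)) - 2 * C.n * C.uu H P := by
    show ∑ Q ∈ Finset.univ.map ⟨P, hP⟩, _ = _
    rw [Finset.sum_map]
    simp only [Function.Embedding.coeFn_mk, C.Lf_ptSet H hP, Finset.sum_sub_distrib, Finset.sum_const,
      Finset.card_univ, Fintype.card_fin, nsmul_eq_mul, ← Finset.mul_sum]
    rw [Finset.sum_comm, show ∑ a, C.uP H (P a) = C.uu H P from rfl]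
    ring
  have hdeg : (Divisor.degree C.W : ℝ) = ∑ R : C.W.support, (C.W R : ℝ) := by
    rw [degree_eq_finset_sum C.hF C.W subset_rfl, Finset.sum_coe_sort C.W.support
      fun R => (C.W R : ℝ)]
    push_cast
    rfl
  have a3 : |∑ a, (C.isect H (P a) (P a) + ∑ R : C.W.support, (C.W R : ℝ) * C.isect H R (P a))| ≤
      C.n * B₃ := by
    refine (Finset.abs_sum_le_sum_abs _ _).trans ((Finset.sum_le_sum fun a _ =>
      h₃ (P a) (hx.notMem _ (C.mem_ptSet.2 ⟨a, rfl⟩))).trans_eq ?_)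
    simp
  have e4 : ∑ a, ∑ R : C.W.support, (C.W R : ℝ) * C.isect H R (P a) =
      (∑ R : C.W.support, (C.W R : ℝ) * C.Lf H (C.ptSet P hP) R) + C.n * K +
        (Divisor.degree C.W : ℝ) * C.uu H P := by
    rw [hdeg, Finset.sum_mul, Finset.sum_comm, Finset.mul_sum, ← Finset.sum_add_distrib,
      ← Finset.sum_add_distrib]
    refine Finset.sum_congr rfl fun R _ => ?_
    rw [← Finset.mul_sum, C.Lf_ptSet H hP, Finset.sum_congr rfl fun a _ => C.isect_comm H R (P a)]
    ring
  rw [Finset.sum_add_distrib, e4] at a3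
  rw [e3] at a2
  rw [e1] at a1
  have a4 := (abs_le.1 a3).2
  have := neg_abs_le (C.n * K)
  have := le_abs_self (C.n * K)
  have hB₃ : 0 ≤ (C.n : ℝ) * B₃ := le_trans (abs_nonneg _) a3
  nlinarith

theorem exists_bound_neg : ∃ B : ℝ, ∀ x, |C.qh H (-x) - C.qh H x| ≤ B := by
  obtain ⟨B, hB⟩ := C.exists_bound_parallelogram H
  refine ⟨B + |2 * C.qh H 0|, fun x => ?_⟩
  have h := abs_le.1 (hB 0 x)
  rw [zero_add, zero_sub] at h
  have := neg_abs_le (2 * C.qh H 0)
  have := le_abs_self (2 * C.qh H 0)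
  rw [abs_le]
  constructor <;> linarith

variable {C} in
theorem Pair.isLin {x : Pic0 Qb F} (p : C.Pair x) [DecidableEq (Place Qb F)] :
    C.IsLin 1 (C.ptSet p.D p.injD ∪ C.ptSet p.E p.injE) :=
  p.repD.isLin_union p.repE p.disjoint (add_neg_cancel x)

/-- The height of the function with the zeros. -/
theorem exists_bound_hg : ∃ B : ℝ, ∀ (x : Pic0 Qb F) (p : C.Pair x),
    |C.hg H 1 p.q - (C.uu H p.D + C.uu H p.E)| ≤ B := by
  classical
  obtain ⟨B₁, h₁⟩ := C.exists_bound_value (H := H) 1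
  obtain ⟨B₂, h₂⟩ := C.exists_bound_lin H 1
  refine ⟨B₁ + B₂, fun x p => ?_⟩
  obtain ⟨e, he⟩ := p.isLin.exists_zeroSet
  let e' : C.ZeroSet 1 :=
    { e with
      g := p.q
      ne := p.q_ne
      zero := fun i => by
        have h : e.Z i ∈ e.set := by simp [ZeroSet.set]
        rw [he, Finset.mem_union] at h
        rcases h with h | h <;> obtain ⟨a, ha⟩ := C.mem_ptSet.1 h <;> rw [← ha]
        · exact p.q_D a
        · exact p.q_E a }
  have a1 := abs_le.1 (h₁ e' C.inf fun i => C.ne_inf_of_notMem (e.notMem i))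
  have a2 := abs_le.1 (h₂ _ p.isLin C.inf)
  have hm : (C.m : ℝ) ≠ 0 := Nat.cast_ne_zero.2 (by have := C.m_pos; omega)
  have es : ∑ i, C.isect H (e'.Z i) C.inf =
      ∑ a, C.isect H (p.D a) C.inf + ∑ a, C.isect H (p.E a) C.inf := by
    have h : ∑ i, C.isect H (e'.Z i) C.inf = ∑ P ∈ e.set, C.isect H P C.inf := by
      rw [ZeroSet.set, Finset.sum_map]; rfl
    rw [h, he, Finset.sum_union p.disjoint, ptSet, ptSet, Finset.sum_map, Finset.sum_map]
    rfl
  rw [C.Lf_union H p.disjoint, C.Lf_ptSet H, C.Lf_ptSet H] at a2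
  rw [es] at a1
  have e1 : C.hP H C.inf = (2 * C.n : ℝ) * C.uP H C.inf := by
    rw [uP]
    have : (C.m : ℝ) = 2 * C.n := by rw [m]; push_cast; rfl
    field_simp [this]
    rw [this]
    ring
  rw [abs_le]
  simp only [Nat.cast_one, one_mul] at a1
  constructor <;> linarith

/-- The values of the form are bounded by the minors and the function with the zeros. -/
theorem exists_bound_vec_minors : ∃ B : ℝ, ∀ (x : Pic0 Qb F) (p : C.Pair x),
    H.h p.vec ≤ H.h (C.minors p.E) + H.h (C.minors p.D) - C.rr * C.hg H 1 p.q + B := by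
  let E : Type := Σ x : Pic0 Qb F, C.Pair x
  have hv : ∀ e : E, e.2.vec ≠ 0 := fun e h => by
    obtain ⟨g, hg⟩ := e.2.exists_vec_ne_zero
    exact hg (congrFun h g)
  let rv : HComb E := HComb.single (fun e => e.2.vec) hv
  let rE : HComb E := HComb.single (fun e => C.minors e.2.E) fun e => C.minors_ne_zero e.2.injE
  let rD : HComb E := HComb.single (fun e => C.minors e.2.D) fun e => C.minors_ne_zero e.2.injD
  let rq : HComb E := HComb.single (fun e l => (C.secBasis 1).repr e.2.q l)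
    fun e => C.coord_ne_zero e.2.q_ne
  let r : HComb E := ((rv.add (rE.smul (-1))).add (rD.smul (-1))).add (rq.smul C.rr)
  obtain ⟨B, hB⟩ := r.bound_above H fun w s hw U hU q => by
    have h := C.vv_vec_le (hw := hw) (hU := hU) fun n => (q n).2
    simp only [r, rv, rE, rD, rq, HComb.vprod_add, HComb.vprod_smul, HComb.vprod_single]
    change vv hw hU (germV U fun n => (q n).2.vec) *
      vv hw hU (germV U fun n => C.minors (q n).2.E) ^ (-1 : ℤ) *
      vv hw hU (germV U fun n => C.minors (q n).2.D) ^ (-1 : ℤ) *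
      vv hw hU (C.gc U (C.secBasis 1) fun n => (q n).2.q) ^ (C.rr : ℤ) ≤ 1
    set vE := vv hw hU (germV U fun n => C.minors (q n).2.E)
    set vD := vv hw hU (germV U fun n => C.minors (q n).2.D)
    set Q := vv hw hU (C.gc U (C.secBasis 1) fun n => (q n).2.q)
    have hE : vE ≠ 0 := vv_ne_zero (germV_ne_zero fun n => C.minors_ne_zero (q n).2.injE)
    have hD : vD ≠ 0 := vv_ne_zero (germV_ne_zero fun n => C.minors_ne_zero (q n).2.injD)
    have hQ : Q ≠ 0 := vv_ne_zero (C.gc_ne_zero _ fun n => (q n).2.q_ne)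
    rw [zpow_neg_one, zpow_neg_one, zpow_natCast]
    refine (mul_le_mul' (mul_le_mul' (mul_le_mul' h le_rfl) le_rfl) le_rfl).trans (le_of_eq ?_)
    rw [inv_pow]
    field_simp
  refine ⟨B, fun x p => ?_⟩
  have h1 := hB ⟨x, p⟩
  simp only [r, rv, rE, rD, rq, HComb.eval_add, HComb.eval_smul, HComb.eval_single] at h1
  push_cast at h1
  rw [hg]
  linarith

/-- **The height of the form.** -/
theorem exists_bound_vec : ∃ B : ℝ, ∀ (x : Pic0 Qb F) (p : C.Pair x),
    H.h p.vec ≤ C.qh H x + B := by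
  classical
  obtain ⟨B₁, h₁⟩ := C.exists_bound_vec_minors H
  obtain ⟨B₂, h₂⟩ := C.exists_bound_minors_rep H
  obtain ⟨B₃, h₃⟩ := C.exists_bound_hg H
  obtain ⟨B₄, h₄⟩ := C.exists_bound_lin H 1
  obtain ⟨B₅, h₅⟩ := C.exists_bound_neg H
  refine ⟨B₁ + 2 * B₂ + C.rr * B₃ + (∑ R : C.W.support, |(C.W R : ℝ)| * B₄) / 2 + B₅ / 2,
    fun x p => ?_⟩
  have a1 := h₁ x p
  have aD := h₂ x p.D p.injD p.repD
  have aE := h₂ (-x) p.E p.injE p.repE
  have a3 := mul_le_mul_of_nonneg_left (abs_le.1 (h₃ x p)).1 (Nat.cast_nonneg (α := ℝ) C.rr)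
  have a5 := (abs_le.1 (h₅ x)).2
  have a4 : |(∑ R : C.W.support, (C.W R : ℝ) * C.Lf H (C.ptSet p.D p.injD) R) +
      ∑ R : C.W.support, (C.W R : ℝ) * C.Lf H (C.ptSet p.E p.injE) R| ≤
        ∑ R : C.W.support, |(C.W R : ℝ)| * B₄ := by
    rw [← Finset.sum_add_distrib]
    refine (Finset.abs_sum_le_sum_abs _ _).trans (Finset.sum_le_sum fun R _ => ?_)
    rw [← mul_add, abs_mul, ← C.Lf_union H p.disjoint]
    exact mul_le_mul_of_nonneg_left (h₄ _ p.isLin _) (abs_nonneg _)
  have hU : 0 ≤ C.uu H p.D + C.uu H p.E := add_nonneg (C.uu_nonneg H _) (C.uu_nonneg H _)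
  have hcoef : (C.m : ℝ) - C.n - (Divisor.degree C.W : ℝ) / 2 - C.rr ≤ 0 := by
    have e1 : (C.m : ℝ) = 2 * C.n := by rw [m]; push_cast; rfl
    have e2 : (C.n : ℝ) + C.rr = C.M := by exact_mod_cast C.n_add_rr
    have e3 : (C.M : ℝ) = C.m + 1 - genus Qb F := by exact_mod_cast C.M_eq
    have e4 : 2 * (genus Qb F : ℝ) - 2 ≤ (Divisor.degree C.W : ℝ) := by exact_mod_cast C.degree_W
    linarith
  have h6 := mul_nonpos_of_nonpos_of_nonneg hcoef hU
  have := (abs_le.1 a4).1
  nlinarith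

end GalCurve

end FA.MW

end
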