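import Fermat.Agent.MW.Curve.Eval
import Fermat.Agent.MW.Relations

/-!
# The valuations of the form on the grid
-/

set_option autoImplicit false
set_option linter.unusedSectionVars false
set_option linter.style.haveILetI false

noncomputable section

open Filter

namespace FA.MW

open AlgebraicCurve FA.Curve

local notation "Qb" => AlgebraicClosure ℚ

/-- An injection of the columns extends to a bijection with a complement. -/
theorem exists_equiv_extend {n r M : ℕ} (hMn : n + r = M) {J : Fin n → Fin M}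
    (hJ : Function.Injective J) : ∃ e : Fin n ⊕ Fin r ≃ Fin M, (fun b => e (Sum.inl b)) = J := by
  classical
  have hcompl : Fintype.card ((Set.range J)ᶜ : Set (Fin M)) = r := by
    rw [Fintype.card_compl_set, Fintype.card_fin, Set.card_range_of_injective hJ, Fintype.card_fin]
    omega
  exact ⟨(Equiv.sumCongr (Equiv.ofInjective J hJ) (Fintype.equivFinOfCardEq hcompl).symm).trans
    (Equiv.Set.sumCompl (Set.range J)), funext fun b => by simp⟩

variable {w : ℕ → AbsoluteValue Qb ℝ} {s : ℕ → ℝ} {U : Ultrafilter ℕ}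
variable {hw : IsTame w s} {hU : (U : Filter ℕ) ≤ atTop}

theorem gval_mk_sq_one {ε : ℕ → Qb} (h : ∀ᶠ n in (U : Filter ℕ), ε n * ε n = 1) :
    gval hw hU (UPow.mk U ε) = 1 := by
  have h1 : UPow.mk U ε * UPow.mk U ε = 1 := by
    rw [← map_mul, ← map_one (UPow.mk U)]
    exact UPow.mk_eq_mk.2 h
  rcases mul_self_eq_one_iff.1 h1 with h2 | h2 <;> simp [h2]

theorem mk_det {r : ℕ} (A : ℕ → Matrix (Fin r) (Fin r) Qb) :
    (UPow.mk U fun n => (A n).det) = (Matrix.of fun a b => UPow.mk U fun n => A n a b).det := by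
  have e : (fun n => (A n).det) = (Matrix.of fun a b => fun n => A n a b).det := funext fun n => by
    rw [show (Matrix.of fun a b => fun n => A n a b).det n =
      Pi.evalRingHom (fun _ : ℕ => Qb) n (Matrix.of fun a b => fun n => A n a b).det from rfl,
      RingHom.map_det]
    rfl
  rw [e, RingHom.map_det]
  rfl

theorem gval_det_le {r : ℕ} (A : Matrix (Fin r) (Fin r) (UPow U)) {γ : VG hw hU}
    (h : ∀ a b, gval hw hU (A a b) ≤ γ) : gval hw hU A.det ≤ γ ^ r := by
  rw [Matrix.det_apply]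
  refine Valuation.map_sum_le _ fun σ _ => ?_
  have e : gval hw hU (Equiv.Perm.sign σ • ∏ i, A (σ i) i) = ∏ i, gval hw hU (A (σ i) i) := by
    rcases Int.units_eq_one_or (Equiv.Perm.sign σ) with h1 | h1 <;> simp [h1, map_prod]
  rw [e]
  calc ∏ i, gval hw hU (A (σ i) i) ≤ ∏ _i : Fin r, γ :=
        Finset.prod_le_prod' fun i _ => h _ _
    _ = γ ^ r := by simp

variable {F : Type} [Field F] [Algebra Qb F] (C : GalCurve F)

namespace GalCurve

theorem crd_fn (c : Fin C.M → Qb) : C.crd (C.fn c) = c := C.fn_injective (C.fn_crd (C.fn_mem c))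

theorem crd_eq_repr {g : F} (h : g ∈ C.space C.m) :
    C.crd g = fun i => C.basis.repr ⟨g, h⟩ i := by rw [crd, dif_pos h]

theorem minors_ne_zero {P : Fin C.n → Place Qb F} (hP : Function.Injective P) : C.minors P ≠ 0 := by
  obtain ⟨e, he⟩ := C.exists_mdet_ev_ne_zero hP
  exact fun h => he (congrFun h fun b => e (Sum.inl b))

/-- A maximal minor. -/
theorem exists_max_minor (P : ℕ → Fin C.n → Place Qb F) (hP : ∀ n, Function.Injective (P n)) :
    ∃ e : Fin C.n ⊕ Fin C.rr ≃ Fin C.M,
      (∀ᶠ n in (U : Filter ℕ), mdet (C.ev (P n)) e ≠ 0) ∧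
      gval hw hU (UPow.mk U fun n => mdet (C.ev (P n)) e) =
        vv hw hU (germV U fun n => C.minors (P n)) ∧
      ∀ a i, gval hw hU (UPow.mk U fun n => kvec (C.ev (P n)) e a i) ≤ 1 := by
  classical
  obtain ⟨J, hJ0, hJ⟩ := exists_vv_eq_of_ne (hw := hw) (hU := hU)
    (germV_ne_zero (U := U) fun n => C.minors_ne_zero (hP n))
  have hev : ∀ᶠ n in (U : Filter ℕ), C.minors (P n) J ≠ 0 := UPow.mk_ne_zero.1 hJ0
  obtain ⟨n₀, hn₀⟩ := hev.exists
  obtain ⟨e, he⟩ := exists_equiv_extend C.n_add_rr (J := J) fun a b hab => by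
    by_contra hne
    exact hn₀ (Matrix.det_zero_of_column_eq hne fun i => by simp only [Matrix.of_apply, hab])
  have hm : ∀ n, mdet (C.ev (P n)) e = C.minors (P n) J := fun n => by rw [mdet, he]; rfl
  refine ⟨e, by simpa only [hm] using hev, by simp only [hm]; exact hJ, fun a i => ?_⟩
  obtain ⟨q, rfl⟩ := e.surjective i
  rcases q with b | b
  · have e1 : (UPow.mk U fun n => kvec (C.ev (P n)) e a (e (Sum.inl b))) =
        -(germV U (fun n => C.minors (P n)) (Function.update J b (e (Sum.inr a))) *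
          (germV U (fun n => C.minors (P n)) J)⁻¹) := by
      simp only [germV, UPow.mk_inv, ← map_mul, ← map_neg]
      congr 1
      funext n
      rw [kvec_inl, hm, he, div_eq_mul_inv]
      rfl
    rw [e1, Valuation.map_neg, map_mul, map_inv₀, hJ]
    refine mul_inv_le_one_of_le₀ (le_vv _ _) zero_le
  · simp only [kvec_inr]
    split_ifs
    · exact le_of_eq (by rw [show (UPow.mk U fun _ => (1 : Qb)) = 1 from map_one _, map_one])
    · rw [show (UPow.mk U fun _ => (0 : Qb)) = 0 from map_zero _, map_zero]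
      exact zero_le

variable {x : ℕ → Pic0 Qb F} (p : ∀ n, C.Pair (x n))

/-- **The form is bounded by the minors and the function with the zeros.** -/
theorem vv_vec_le :
    vv hw hU (germV U fun n => (p n).vec) ≤
      vv hw hU (germV U fun n => C.minors (p n).E) * vv hw hU (germV U fun n => C.minors (p n).D) *
        ((vv hw hU (C.gc U (C.secBasis 1) fun n => (p n).q))⁻¹) ^ C.rr := by
  classical
  obtain ⟨eE, hE, hEv, hEk⟩ := C.exists_max_minor (hw := hw) (hU := hU) (fun n => (p n).E)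
    fun n => (p n).injE
  obtain ⟨eD, hD, hDv, hDk⟩ := C.exists_max_minor (hw := hw) (hU := hU) (fun n => (p n).D)
    fun n => (p n).injD
  set Q := vv hw hU (C.gc U (C.secBasis 1) fun n => (p n).q)
  have hQ : Q ≠ 0 := vv_ne_zero (C.gc_ne_zero _ fun n => (p n).q_ne)
  set A : Fin C.rr → ℕ → C.space C.m := fun a n => ⟨C.fn (kvec (C.ev (p n).E) eE a), C.fn_mem _⟩
  set B : Fin C.rr → ℕ → C.space C.m := fun b n => ⟨C.fn (kvec (C.ev (p n).D) eD b), C.fn_mem _⟩
  have hne : ∀ {d : ℕ} (P : Matrix (Fin d) (Fin C.M) Qb) (e : Fin d ⊕ Fin C.rr ≃ Fin C.M) a,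
      C.fn (kvec P e a) ≠ 0 := fun P e a h => by
    simpa using congrFun (C.fn_eq_zero.1 h) (e (Sum.inr a))
  have hA : ∀ a, vv hw hU (C.gc U C.basis (A a)) ≤ 1 := fun a => vv_le fun i => by
    refine le_of_eq_of_le (congrArg _ (congrArg (UPow.mk U) (funext fun n => ?_))) (hEk a i)
    rw [← congrFun (C.crd_fn (kvec (C.ev (p n).E) eE a)) i, C.crd_eq_repr (C.fn_mem _)]
  have hB : ∀ b, vv hw hU (C.gc U C.basis (B b)) ≤ 1 := fun b => vv_le fun i => by
    refine le_of_eq_of_le (congrArg _ (congrArg (UPow.mk U) (funext fun n => ?_))) (hDk b i)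
    rw [← congrFun (C.crd_fn (kvec (C.ev (p n).D) eD b)) i, C.crd_eq_repr (C.fn_mem _)]
  have hent : ∀ a b i, gval hw hU (UPow.mk U fun n =>
      (p n).cmat (kvec (C.ev (p n).E) eE) (kvec (C.ev (p n).D) eD) a b i) ≤ Q⁻¹ := by
    intro a b i
    have h2m : ∀ u ∈ C.space C.m, ∀ v ∈ C.space C.m, u * v ∈ C.space (2 * C.m) := fun u hu v hv => by
      rw [two_mul]; exact C.space_mul_le _ _ (Submodule.mul_mem_mul hu hv)
    have h1m : ∀ u ∈ C.space (1 * C.m), ∀ v ∈ C.space C.m, u * v ∈ C.space (2 * C.m) :=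
      fun u hu v hv => by
        rw [show 2 * C.m = 1 * C.m + C.m by ring]
        exact C.space_mul_le _ _ (Submodule.mul_mem_mul hu hv)
    set z : ℕ → C.space (2 * C.m) := fun n => ⟨(A a n : F) * B b n, h2m _ (A a n).2 _ (B b n).2⟩
    have hz := C.vv_mul (hw := hw) (hU := hU) h2m C.basis C.basis (C.secBasis 2) (A a) (B b) z
      (fun n h => hne _ _ a (congrArg Subtype.val h)) (fun n h => hne _ _ b (congrArg Subtype.val h))
      fun n => rfl
    obtain ⟨i₀⟩ : Nonempty (Fin C.M) := ⟨⟨0, by have := C.two_le_M; omega⟩⟩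
    set y : ℕ → C.space C.m := fun n =>
      if h : (A a n : F) * B b n / ((p n).q : F) ∈ C.space C.m then ⟨_, h⟩ else C.basis i₀
    have hy : ∀ n, y n ≠ 0 := fun n h => by
      simp only [y] at h
      split_ifs at h with h'
      · exact div_ne_zero (mul_ne_zero (hne _ _ a) (hne _ _ b)) (p n).q_ne'
          (congrArg Subtype.val h)
      · exact C.basis.ne_zero i₀ h
    set z' : ℕ → C.space (2 * C.m) := fun n =>
      ⟨((p n).q : F) * y n, h1m _ (p n).q.2 _ (y n).2⟩
    have hz' := C.vv_mul (hw := hw) (hU := hU) h1m (C.secBasis 1) C.basis (C.secBasis 2)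
      (fun n => (p n).q) y z' (fun n => (p n).q_ne) hy fun n => rfl
    have hmem : ∀ᶠ n in (U : Filter ℕ), (A a n : F) * B b n / ((p n).q : F) ∈ C.space C.m :=
      (hE.and hD).mono fun n hn => (p n).prod_mem (inKer_kvec _ hn.1 a) (inKer_kvec _ hn.2 b)
    have hgerm : C.gc U (C.secBasis 2) z' = C.gc U (C.secBasis 2) z := by
      funext l
      refine UPow.mk_eq_mk.2 (hmem.mono fun n hn => ?_)
      have e : z' n = z n := Subtype.ext (by
        simp only [z', z, y, dif_pos hn]
        exact mul_div_cancel₀ _ (p n).q_ne')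
      simp only [e]
    rw [hgerm, hz] at hz'
    have hyv : vv hw hU (C.gc U C.basis y) ≤ Q⁻¹ := by
      rw [← mul_inv_cancel_left₀ hQ (vv hw hU (C.gc U C.basis y)), ← mul_assoc, mul_comm Q, mul_assoc,
        ← hz']
      exact mul_le_of_le_one_right' (mul_le_one' (hA a) (hB b))
    refine le_trans (le_of_eq_of_le (congrArg _ ?_) (le_vv (C.gc U C.basis y) i)) hyv
    refine UPow.mk_eq_mk.2 (hmem.mono fun n hn => ?_)
    show C.crd _ i = C.basis.repr (y n) i
    rw [C.crd_eq_repr hn]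
    simp only [y, dif_pos hn, A, B]
  refine vv_le fun g => ?_
  have hsign : ∀ n, ∃ ε : Qb, (mdet (C.ev (p n).E) eE ≠ 0 → mdet (C.ev (p n).D) eD ≠ 0 →
      ε * ε = 1 ∧ (p n).vec g = ε * (mdet (C.ev (p n).E) eE * mdet (C.ev (p n).D) eD *
        (p n).formVal (kvec (C.ev (p n).E) eE) (kvec (C.ev (p n).D) eD) (gridPt g))) := fun n => by
    by_cases h1 : mdet (C.ev (p n).E) eE = 0
    · exact ⟨0, fun h => absurd h1 h⟩
    by_cases h2 : mdet (C.ev (p n).D) eD = 0
    · exact ⟨0, fun _ h => absurd h2 h⟩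
    obtain ⟨ε, hε, h⟩ := (p n).exists_sign eE eD h1 h2
    exact ⟨ε, fun _ _ => ⟨hε, h _⟩⟩
  choose ε hε using hsign
  have e : germV U (fun n => (p n).vec) g = UPow.mk U ε *
      ((UPow.mk U fun n => mdet (C.ev (p n).E) eE) * (UPow.mk U fun n => mdet (C.ev (p n).D) eD) *
        UPow.mk U fun n =>
          (p n).formVal (kvec (C.ev (p n).E) eE) (kvec (C.ev (p n).D) eD) (gridPt g)) := by
    rw [← map_mul, ← map_mul, ← map_mul]
    exact UPow.mk_eq_mk.2 ((hE.and hD).mono fun n hn => (hε n hn.1 hn.2).2)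
  rw [e, map_mul, gval_mk_sq_one ((hE.and hD).mono fun n hn => (hε n hn.1 hn.2).1), one_mul, map_mul,
    map_mul, hEv, hDv]
  refine mul_le_mul_of_nonneg_left ?_ zero_le
  unfold Pair.formVal
  rw [mk_det]
  refine gval_det_le _ fun a b => ?_
  simp only [Matrix.of_apply]
  rw [← Finset.sum_fn, map_sum]
  refine Valuation.map_sum_le _ fun i _ => ?_
  change gval hw hU (UPow.mk U ((fun _ => gridPt g i) * fun n =>
    (p n).cmat (kvec (C.ev (p n).E) eE) (kvec (C.ev (p n).D) eD) a b i)) ≤ _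
  rw [map_mul, map_mul]
  refine (mul_le_mul' ?_ (hent a b i)).trans (one_mul _).le
  rw [show (UPow.mk U fun _ : ℕ => gridPt (L := Qb) g i) = ((g i : ℕ) : UPow U) from
    map_natCast (UPow.mk U) _]
  exact gval_natCast_le _

end GalCurve

end FA.MW

end
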