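import Fermat.Agent.MW.Uniform

/-!
# From equalities of valuations in the ultrapower to inequalities of heights
-/

set_option autoImplicit false
set_option linter.style.haveILetI false

noncomputable section

open Filter

namespace FA.MW

local notation "Qb" => AlgebraicClosure ℚ

variable {w : ℕ → AbsoluteValue Qb ℝ} {s : ℕ → ℝ} {U : Ultrafilter ℕ}

/-- The class of a sequence of vectors. -/
def germV (U : Ultrafilter ℕ) {ι : Type} (x : ℕ → ι → Qb) : ι → UPow U :=
  fun i => UPow.mk U fun n => x n i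

/-- The value group of the bounded elements. -/
abbrev VG (hw : IsTame w s) (hU : (U : Filter ℕ) ≤ atTop) : Type :=
  (valRing hw U hU).ValueGroup

/-- The valuation of the ultrapower. -/
def gval (hw : IsTame w s) (hU : (U : Filter ℕ) ≤ atTop) :
    Valuation (UPow U) (VG hw hU) := (valRing hw U hU).valuation

/-- The largest valuation of a coordinate. -/
def vv (hw : IsTame w s) (hU : (U : Filter ℕ) ≤ atTop) {ι : Type} [Fintype ι]
    (X : ι → UPow U) : VG hw hU :=
  Finset.univ.sup fun i => gval hw hU (X i)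

variable {hw : IsTame w s} {hU : (U : Filter ℕ) ≤ atTop} {ι : Type} [Fintype ι]

theorem le_vv (X : ι → UPow U) (i : ι) : gval hw hU (X i) ≤ vv hw hU X :=
  Finset.le_sup (f := fun i => gval hw hU (X i)) (Finset.mem_univ i)

theorem vv_le {X : ι → UPow U} {γ : VG hw hU} (h : ∀ i, gval hw hU (X i) ≤ γ) :
    vv hw hU X ≤ γ :=
  Finset.sup_le fun i _ => h i

theorem exists_vv_eq [Nonempty ι] (X : ι → UPow U) : ∃ i, gval hw hU (X i) = vv hw hU X := by
  obtain ⟨i, -, hi⟩ := Finset.exists_max_image Finset.univ (fun i => gval hw hU (X i))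
    Finset.univ_nonempty
  exact ⟨i, le_antisymm (le_vv X i) (vv_le fun j => hi j (Finset.mem_univ j))⟩

theorem exists_vv_eq_of_ne {X : ι → UPow U} (h : X ≠ 0) :
    ∃ i, X i ≠ 0 ∧ gval hw hU (X i) = vv hw hU X := by
  obtain ⟨j, hj⟩ := Function.ne_iff.1 h
  haveI : Nonempty ι := ⟨j⟩
  obtain ⟨i, hi⟩ := exists_vv_eq (hw := hw) (hU := hU) X
  refine ⟨i, fun h0 => hj ?_, hi⟩
  have := le_vv (hw := hw) (hU := hU) X j
  rw [← hi, h0, map_zero, le_zero_iff, map_eq_zero] at this
  exact this

theorem vv_ne_zero {X : ι → UPow U} (h : X ≠ 0) : vv hw hU X ≠ 0 := by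
  obtain ⟨i, hi, he⟩ := exists_vv_eq_of_ne (hw := hw) (hU := hU) h
  rw [← he]
  exact (Valuation.ne_zero_iff _).2 hi

theorem vv_mul_left [Nonempty ι] (a : UPow U) (X : ι → UPow U) :
    vv hw hU (fun i => a * X i) = gval hw hU a * vv hw hU X := by
  obtain ⟨i, hi⟩ := exists_vv_eq (hw := hw) (hU := hU) X
  refine le_antisymm (vv_le fun j => ?_) ?_
  · rw [map_mul]
    exact mul_le_mul_of_nonneg_left (le_vv X j) zero_le
  · rw [← hi, ← map_mul]
    exact le_vv (fun j => a * X j) i

theorem vv_single [Subsingleton ι] (X : ι → UPow U) (i : ι) :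
    vv hw hU X = gval hw hU (X i) :=
  le_antisymm (vv_le fun j => le_of_eq (by rw [Subsingleton.elim j i])) (le_vv X i)

theorem germV_ne_zero {x : ℕ → ι → Qb} (h : ∀ n, x n ≠ 0) : germV U x ≠ 0 := by
  intro h0
  have he : ∀ᶠ n in (U : Filter ℕ), ∀ i, x n i = 0 :=
    Filter.eventually_all.2 fun i => UPow.mk_eq_zero.1 (congrFun h0 i)
  obtain ⟨n, hn⟩ := he.exists
  exact h n (funext hn)

/-- Integral powers of a class. -/
theorem mk_zpow (f : ℕ → Qb) (z : ℤ) : UPow.mk U f ^ z = UPow.mk U fun n => f n ^ z := by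
  cases z with
  | ofNat k =>
    simp only [Int.ofNat_eq_natCast, zpow_natCast]
    rw [← map_pow]; rfl
  | negSucc k =>
    simp only [zpow_negSucc]
    rw [← map_pow, UPow.mk_inv]; rfl

theorem exists_log_nrm {x : ℕ → ι → Qb} (i : ι) (hi : germV U x i ≠ 0)
    (hmax : ∀ j, gval hw hU (germV U x j) ≤ gval hw hU (germV U x i)) :
    ∃ C : ℝ, ∀ᶠ n in (U : Filter ℕ),
      0 ≤ s n * (Real.log (nrm (w n) (x n)) - Real.log (w n (x n i))) ∧
        s n * (Real.log (nrm (w n) (x n)) - Real.log (w n (x n i))) ≤ C := by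
  haveI : Nonempty ι := ⟨i⟩
  have h1 : ∀ j, ∃ C : ℝ, ∀ᶠ n in (U : Filter ℕ), w n (x n j / x n i) ^ s n ≤ C := fun j => by
    refine mem_valRing_mk.1 (((valRing hw U hU).valuation_le_one_iff _).1 ?_)
    have e : (UPow.mk U fun n => x n j / x n i) = germV U x j / germV U x i := by
      rw [div_eq_mul_inv]
      show _ = UPow.mk U (fun n => x n j) * (UPow.mk U fun n => x n i)⁻¹
      rw [UPow.mk_inv, ← map_mul]
      rfl
    rw [e, map_div₀]
    exact div_le_one_of_le₀ (hmax j) zero_le
  choose C hC using h1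
  refine ⟨Real.log (1 + ∑ j, |C j|), ?_⟩
  filter_upwards [Filter.eventually_all.2 hC, UPow.mk_ne_zero.1 hi] with n hn hn0
  have hpos : 0 < w n (x n i) := (w n).pos hn0
  obtain ⟨j, hj⟩ := exists_eq_ciSup_of_finite (f := fun j => w n (x n j))
  have hjn : w n (x n j) = nrm (w n) (x n) := hj
  have hle : w n (x n i) ≤ nrm (w n) (x n) :=
    le_ciSup (f := fun j => w n (x n j)) (Finite.bddAbove_range _) i
  have hn' : 0 < nrm (w n) (x n) := hpos.trans_le hle
  have hs := hw.pos n
  refine ⟨mul_nonneg hs.le (sub_nonneg.2 (Real.log_le_log hpos hle)), ?_⟩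
  have h2 := hn j
  rw [map_div₀, hjn] at h2
  rw [← Real.log_div hn'.ne' hpos.ne', ← Real.log_rpow (div_pos hn' hpos)]
  refine Real.log_le_log (Real.rpow_pos_of_pos (div_pos hn' hpos) _) (h2.trans ?_)
  have := Finset.single_le_sum (f := fun j => |C j|) (fun _ _ => abs_nonneg _) (Finset.mem_univ j)
  have := le_abs_self (C j)
  linarith

/-- **Transfer.** An inequality between the valuations of vectors in every ultrapower bounds the
corresponding combination of heights. -/
theorem sum_height_le (H : HeightFn) {E κ : Type} [Fintype κ] {ι' : κ → Type} [∀ k, Fintype (ι' k)]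
    (a : κ → ℤ) (x : E → ∀ k, ι' k → Qb) (hne : ∀ e k, x e k ≠ 0)
    (h : ∀ (w : ℕ → AbsoluteValue Qb ℝ) (s : ℕ → ℝ) (hw : IsTame w s) (U : Ultrafilter ℕ)
      (hU : (U : Filter ℕ) ≤ atTop) (e : ℕ → E),
      ∏ k, vv hw hU (germV U fun n => x (e n) k) ^ a k ≤ 1) :
    ∃ C : ℝ, ∀ e, ∑ k, (a k : ℝ) * H.h (x e k) ≤ C := by
  classical
  obtain ⟨C, hC⟩ := uniformBound E
    (fun w e => ∑ k, (a k : ℝ) * Real.log (nrm w (x e k))) fun w s e hw U hU => by
      have hX : ∀ k, germV U (fun n => x (e n) k) ≠ 0 := fun k => germV_ne_zero fun n => hne _ k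
      choose i hi0 hi using fun k => exists_vv_eq_of_ne (hw := hw) (hU := hU) (hX k)
      choose C hC using fun k => exists_log_nrm (hw := hw) (hU := hU) (i k) (hi0 k)
        fun j => (le_vv _ j).trans (hi k).ge
      have hZ : (UPow.mk U fun n => ∏ k, x (e n) k (i k) ^ a k) ∈ valRing hw U hU := by
        refine ((valRing hw U hU).valuation_le_one_iff _).1 (le_of_eq_of_le ?_ (h w s hw U hU e))
        show gval hw hU _ = _
        have e1 : (UPow.mk U fun n => ∏ k, x (e n) k (i k) ^ a k) =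
            ∏ k, germV U (fun n => x (e n) k) (i k) ^ a k := by
          simp only [germV, mk_zpow]
          rw [← map_prod]
          congr 1
          funext n
          rw [Finset.prod_apply]
        rw [e1, map_prod]
        exact Finset.prod_congr rfl fun k _ => by rw [map_zpow₀, hi k]
      obtain ⟨B, hB⟩ := mem_valRing_mk.1 hZ
      refine ⟨Real.log (max B 1) + ∑ k, |(a k : ℝ)| * |C k|, ?_⟩
      filter_upwards [Filter.eventually_all.2 hC, hB,
        Filter.eventually_all.2 fun k => UPow.mk_ne_zero.1 (hi0 k)] with n hn hBn hn0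
      have hs := hw.pos n
      have hpos : ∀ k, 0 < w n (x (e n) k (i k)) := fun k => (w n).pos (hn0 k)
      have hW : w n (∏ k, x (e n) k (i k) ^ a k) = ∏ k, w n (x (e n) k (i k)) ^ a k := by
        rw [map_prod]
        exact Finset.prod_congr rfl fun k _ => map_zpow₀ _ _ _
      have hprod : 0 < ∏ k, w n (x (e n) k (i k)) ^ a k :=
        Finset.prod_pos fun k _ => zpow_pos (hpos k) _
      rw [hW] at hBn
      have h1 : s n * ∑ k, (a k : ℝ) * Real.log (w n (x (e n) k (i k))) ≤ Real.log (max B 1) := by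
        have : s n * ∑ k, (a k : ℝ) * Real.log (w n (x (e n) k (i k))) =
            Real.log ((∏ k, w n (x (e n) k (i k)) ^ a k) ^ s n) := by
          rw [Real.log_rpow hprod, Real.log_prod fun k _ => (zpow_pos (hpos k) _).ne']
          simp [Real.log_zpow]
        rw [this]
        exact Real.log_le_log (Real.rpow_pos_of_pos hprod _) (hBn.trans (le_max_left _ _))
      have h2 : ∀ k, (a k : ℝ) * (s n * (Real.log (nrm (w n) (x (e n) k)) -
          Real.log (w n (x (e n) k (i k))))) ≤ |(a k : ℝ)| * |C k| := fun k => by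
        refine (le_abs_self _).trans ?_
        rw [abs_mul, abs_of_nonneg (hn k).1]
        exact mul_le_mul_of_nonneg_left ((hn k).2.trans (le_abs_self _)) (abs_nonneg _)
      have h3 := Finset.sum_le_sum fun k (_ : k ∈ Finset.univ) => h2 k
      have h4 : ∑ k, (a k : ℝ) * (s n * (Real.log (nrm (w n) (x (e n) k)) -
          Real.log (w n (x (e n) k (i k))))) =
            s n * ∑ k, (a k : ℝ) * Real.log (nrm (w n) (x (e n) k)) -
              s n * ∑ k, (a k : ℝ) * Real.log (w n (x (e n) k (i k))) := by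
        rw [Finset.mul_sum, Finset.mul_sum, ← Finset.sum_sub_distrib]
        exact Finset.sum_congr rfl fun k _ => by ring
      linarith
  exact ⟨C.sum fun _ c => max c 0, fun e =>
    H.sum_le (fun k => (a k : ℝ)) (x e) (hne e) C fun p w hw => hC p w hw e⟩

/-- The two-sided form. -/
theorem abs_sum_height_le (H : HeightFn) {E κ : Type} [Fintype κ] {ι' : κ → Type}
    [∀ k, Fintype (ι' k)]
    (a : κ → ℤ) (x : E → ∀ k, ι' k → Qb) (hne : ∀ e k, x e k ≠ 0)
    (h : ∀ (w : ℕ → AbsoluteValue Qb ℝ) (s : ℕ → ℝ) (hw : IsTame w s) (U : Ultrafilter ℕ)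
      (hU : (U : Filter ℕ) ≤ atTop) (e : ℕ → E),
      ∏ k, vv hw hU (germV U fun n => x (e n) k) ^ a k = 1) :
    ∃ C : ℝ, ∀ e, |∑ k, (a k : ℝ) * H.h (x e k)| ≤ C := by
  obtain ⟨C, hC⟩ := sum_height_le H a x hne fun w s hw U hU e => (h w s hw U hU e).le
  obtain ⟨C', hC'⟩ := sum_height_le H (fun k => -a k) x hne fun w s hw U hU e => by
    simp only [zpow_neg, Finset.prod_inv_distrib]
    rw [h w s hw U hU e, inv_one]
  refine ⟨max C C', fun e => abs_le.2 ⟨?_, (hC e).trans (le_max_left _ _)⟩⟩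
  have := hC' e
  simp only [Int.cast_neg, neg_mul, Finset.sum_neg_distrib] at this
  have := le_max_right C C'
  linarith

end FA.MW

end
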