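import Fermat.Agent.MW.Places

/-!
# Local heights and the product formula

The mean over the embeddings of a number field of a function of its conjugate absolute values, and
the product formula for algebraic numbers.
-/

set_option autoImplicit false
set_option linter.style.haveILetI false

noncomputable section

open Filter

namespace FA.MW

local notation "Qb" => AlgebraicClosure ℚ

attribute [local instance] AlgebraicClosure.isAlgebraic

instance : Normal ℚ Qb := by
  haveI : Algebra.IsAlgebraic ℚ Qb := AlgebraicClosure.isAlgebraic ℚ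
  haveI : IsAlgClosure ℚ Qb := ⟨inferInstance, AlgebraicClosure.isAlgebraic ℚ⟩
  exact IsAlgClosure.normal ℚ Qb

/-- `p` indexes a place of the rationals. -/
def IsPlace (p : ℕ) : Prop := p = 0 ∨ p.Prime

/-- A chosen absolute value over a place. -/
def plc (p : ℕ) (hp : IsPlace p) : AbsoluteValue Qb ℝ := (exists_isOver hp).choose

theorem plc_isOver (p : ℕ) (hp : IsPlace p) : IsOver (plc p hp) p :=
  (exists_isOver hp).choose_spec

/-- A conjugate of the chosen absolute value. -/
def conjPlc (p : ℕ) (hp : IsPlace p) (σ : Qb →ₐ[ℚ] Qb) : AbsoluteValue Qb ℝ :=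
  (plc p hp).comp σ.toRingHom.injective

theorem conjPlc_apply (p : ℕ) (hp : IsPlace p) (σ : Qb →ₐ[ℚ] Qb) (a : Qb) :
    conjPlc p hp σ a = plc p hp (σ a) := rfl

theorem conjPlc_isOver (p : ℕ) (hp : IsPlace p) (σ : Qb →ₐ[ℚ] Qb) :
    IsOver (conjPlc p hp σ) p :=
  ⟨hp, fun q => by rw [conjPlc_apply, map_ratCast]; exact (plc_isOver p hp).2 q⟩

variable {F : IntermediateField ℚ Qb}

theorem exists_extension (φ : F →ₐ[ℚ] Qb) : ∃ σ : Qb →ₐ[ℚ] Qb, ∀ y : F, σ y = φ y :=
  ⟨φ.liftNormal Qb, fun y => φ.liftNormal_commutes Qb y⟩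

/-- An extension of an embedding. -/
def ext' (φ : F →ₐ[ℚ] Qb) : Qb →ₐ[ℚ] Qb := (exists_extension φ).choose

theorem ext'_apply (φ : F →ₐ[ℚ] Qb) (y : F) : ext' φ y = φ y := (exists_extension φ).choose_spec y

/-- The mean over the embeddings of `F`. -/
def avg (F : IntermediateField ℚ Qb) [FiniteDimensional ℚ F] (g : (Qb →ₐ[ℚ] Qb) → ℝ) : ℝ :=
  (∑ φ : F →ₐ[ℚ] Qb, g (ext' φ)) / (Module.finrank ℚ F : ℝ)

/-- A function of an automorphism which depends on its restriction to `F` only. -/
def DependsOn (F : IntermediateField ℚ Qb) (g : (Qb →ₐ[ℚ] Qb) → ℝ) : Prop :=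
  ∀ σ τ : Qb →ₐ[ℚ] Qb, (∀ y : F, σ y = τ y) → g σ = g τ

variable [FiniteDimensional ℚ F] {g g' : (Qb →ₐ[ℚ] Qb) → ℝ}

theorem finrank_pos_real : (0 : ℝ) < Module.finrank ℚ F := Nat.cast_pos.2 Module.finrank_pos

theorem avg_congr (h : ∀ σ, g σ = g' σ) : avg F g = avg F g' := by
  rw [show g = g' from funext h]

theorem avg_mono (h : ∀ σ, g σ ≤ g' σ) : avg F g ≤ avg F g' :=
  div_le_div_of_nonneg_right (Finset.sum_le_sum fun _ _ => h _) (Nat.cast_nonneg _)

theorem avg_const (c : ℝ) : avg F (fun _ => c) = c := by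
  rw [avg, Finset.sum_const, nsmul_eq_mul, Finset.card_univ, AlgHom.card ℚ F Qb]
  exact mul_div_cancel_left₀ c finrank_pos_real.ne'

theorem avg_sum {κ : Type} [Fintype κ] (a : κ → ℝ) (G : κ → (Qb →ₐ[ℚ] Qb) → ℝ) :
    avg F (fun σ => ∑ k, a k * G k σ) = ∑ k, a k * avg F (G k) := by
  simp only [avg, Finset.sum_div, Finset.mul_sum]
  rw [Finset.sum_comm]
  exact Finset.sum_congr rfl fun k _ => Finset.sum_congr rfl fun φ _ => mul_div_assoc _ _ _

/-- The mean does not depend on the field. -/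
theorem avg_eq_of_le {F' : IntermediateField ℚ Qb} [FiniteDimensional ℚ F'] (h : F ≤ F')
    (hg : DependsOn F g) : avg F' g = avg F g := by
  classical
  let res : (F' →ₐ[ℚ] Qb) → (F →ₐ[ℚ] Qb) := fun φ => φ.comp (IntermediateField.inclusion h)
  have hres : ∀ φ', g (ext' φ') = g (ext' (res φ')) := fun φ' => hg _ _ fun y => by
    rw [ext'_apply]
    exact ext'_apply φ' (IntermediateField.inclusion h y)
  let N : (F →ₐ[ℚ] Qb) → ℕ := fun φ => (Finset.univ.filter fun φ' => res φ' = φ).card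
  have hN : ∀ φ₁ φ₂, N φ₁ ≤ N φ₂ := fun φ₁ φ₂ => by
    let e₁ := AlgEquiv.ofBijective (ext' φ₁) (Algebra.IsAlgebraic.algHom_bijective _)
    let τ : Qb →ₐ[ℚ] Qb := (ext' φ₂).comp (e₁.symm : Qb →ₐ[ℚ] Qb)
    have hτ : ∀ y : F, τ (φ₁ y) = φ₂ y := fun y => by
      show ext' φ₂ (e₁.symm (φ₁ y)) = _
      rw [← ext'_apply φ₁ y, show ext' φ₁ (y : Qb) = e₁ y from rfl, AlgEquiv.symm_apply_apply,
        ext'_apply]
    refine Finset.card_le_card_of_injOn (fun φ' => τ.comp φ') (fun φ' hφ' => ?_)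
      fun a _ b _ hab => AlgHom.ext fun y => τ.toRingHom.injective (DFunLike.congr_fun hab y)
    simp only [Finset.coe_filter, Finset.mem_univ, true_and, Set.mem_setOf_eq] at hφ' ⊢
    refine AlgHom.ext fun y => ?_
    show τ (φ' (IntermediateField.inclusion h y)) = _
    rw [← hτ y, ← hφ']
    rfl
  have hsum : ∑ φ' : F' →ₐ[ℚ] Qb, g (ext' φ') = ∑ φ, (N φ : ℝ) * g (ext' φ) := by
    rw [← Finset.sum_fiberwise Finset.univ res]
    refine Finset.sum_congr rfl fun φ _ => ?_
    rw [Finset.sum_congr rfl fun φ' hφ' => (hres φ').trans (by rw [(Finset.mem_filter.1 hφ').2]),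
      Finset.sum_const, nsmul_eq_mul]
  have hcard : (Module.finrank ℚ F' : ℝ) = ∑ φ, (N φ : ℝ) := by
    rw [← AlgHom.card ℚ F' Qb, ← Finset.card_univ,
      Finset.card_eq_sum_card_fiberwise (f := res) (t := Finset.univ) fun x _ => Finset.mem_univ _]
    push_cast
    rfl
  let φ₀ : F →ₐ[ℚ] Qb := F.val
  have hN0 : ∀ φ, N φ = N φ₀ := fun φ => le_antisymm (hN φ φ₀) (hN φ₀ φ)
  have hpos : (N φ₀ : ℝ) ≠ 0 := by
    intro h0
    have h1 := finrank_pos_real (F := F')
    rw [hcard] at h1
    simp [hN0, h0] at h1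
  rw [avg, avg, hsum, hcard]
  simp only [hN0, ← Finset.mul_sum, Finset.sum_const, Finset.card_univ, nsmul_eq_mul,
    AlgHom.card ℚ F Qb]
  rw [mul_comm (Module.finrank ℚ F : ℝ), mul_div_mul_left _ _ hpos]

/-! ### The product formula -/

/-- The logarithm of the absolute value of a rational number at a place. -/
def ratLoc (p : ℕ) (q : ℚ) : ℝ :=
  if p = 0 then Real.log |(q : ℝ)| else
    if p.Prime then Real.log ((padicNorm p q : ℚ) : ℝ) else 0

theorem ratLoc_eq {p : ℕ} {w : AbsoluteValue Qb ℝ} (hw : IsOver w p) (q : ℚ) :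
    ratLoc p q = Real.log (w (q : Qb)) := by
  rw [ratLoc, hw.2 q]
  rcases hw.1 with rfl | hp
  · rfl
  · rw [if_neg hp.ne_zero, if_pos hp, if_neg hp.ne_zero]

theorem ratLoc_natCast_support (n : ℕ) :
    (Function.support fun p => ratLoc p (n : ℚ)) ⊆ ↑(insert 0 n.primeFactors) := by
  intro p hp
  simp only [Function.mem_support, ratLoc] at hp
  split_ifs at hp with h0 h1
  · simp [h0]
  · haveI : Fact p.Prime := ⟨h1⟩
    rcases eq_or_ne n 0 with rfl | hn
    · simp at hp
    simp only [Finset.coe_insert, Set.mem_insert_iff, Finset.mem_coe, Nat.mem_primeFactors]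
    refine Or.inr ⟨h1, by_contra fun hd => hp ?_, hn⟩
    rw [(padicNorm.nat_eq_one_iff n).2 hd, Rat.cast_one, Real.log_one]
  · exact absurd rfl hp

/-- The product formula for natural numbers. -/
theorem finsum_ratLoc_natCast {n : ℕ} (hn : n ≠ 0) : ∑ᶠ p, ratLoc p (n : ℚ) = 0 := by
  rw [finsum_eq_sum_of_support_subset _ (ratLoc_natCast_support n),
    Finset.sum_insert fun h => Nat.not_prime_zero (Nat.prime_of_mem_primeFactors h)]
  have h1 : ratLoc 0 (n : ℚ) = Real.log n := by simp [ratLoc]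
  have h2 : ∀ p ∈ n.primeFactors,
      ratLoc p (n : ℚ) = -((n.factorization p : ℕ) * Real.log p) := fun p hp => by
    have hpp := Nat.prime_of_mem_primeFactors hp
    haveI : Fact p.Prime := ⟨hpp⟩
    rw [ratLoc, if_neg hpp.ne_zero, if_pos hpp, padicNorm.eq_zpow_of_nonzero (Nat.cast_ne_zero.2 hn),
      padicValRat.of_nat, Nat.factorization_def n hpp]
    push_cast
    rw [Real.log_zpow]
    simp only [padicValRat.of_nat, Int.cast_natCast, Int.cast_neg]
    ring
  rw [Finset.sum_congr rfl h2, Finset.sum_neg_distrib, h1, Real.log_nat_eq_sum_factorization,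
    Finsupp.sum, Nat.support_factorization, add_neg_cancel]

theorem ratLoc_support_finite (q : ℚ) : (Function.support fun p => ratLoc p q).Finite := by
  refine (Finset.finite_toSet
    (insert 0 (q.num.natAbs.primeFactors ∪ q.den.primeFactors))).subset fun p hp => ?_
  simp only [Function.mem_support, ratLoc] at hp
  split_ifs at hp with h0 h1
  · simp [h0]
  · haveI : Fact p.Prime := ⟨h1⟩
    rcases eq_or_ne q 0 with rfl | hq
    · simp at hp
    simp only [Finset.coe_insert, Finset.coe_union, Set.mem_insert_iff, Set.mem_union,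
      Finset.mem_coe, Nat.mem_primeFactors]
    by_contra hc
    push Not at hc
    obtain ⟨-, hn, hd⟩ := hc
    refine hp ?_
    have hn' : ¬ (p : ℤ) ∣ q.num := fun h =>
      Rat.num_ne_zero.2 hq (Int.natAbs_eq_zero.1 (hn h1 (Int.natCast_dvd.1 h)))
    have hd' : ¬ p ∣ q.den := fun h => q.den_nz (hd h1 h)
    rw [← Rat.num_div_den q, padicNorm.div, (padicNorm.int_eq_one_iff q.num).2 hn',
      (padicNorm.nat_eq_one_iff q.den).2 hd', div_one, Rat.cast_one, Real.log_one]
  · exact absurd rfl hp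

/-- **The product formula for rational numbers.** -/
theorem finsum_ratLoc {q : ℚ} (hq : q ≠ 0) : ∑ᶠ p, ratLoc p q = 0 := by
  have hn : q.num.natAbs ≠ 0 := Int.natAbs_ne_zero.2 (Rat.num_ne_zero.2 hq)
  have h : ∀ p, ratLoc p q = ratLoc p (q.num.natAbs : ℚ) - ratLoc p (q.den : ℚ) := fun p => by
    by_cases hp : IsPlace p
    · obtain ⟨w, hw⟩ := exists_isOver hp
      rw [ratLoc_eq hw, ratLoc_eq hw, ratLoc_eq hw]
      rw [← Real.log_div (w.pos (by exact_mod_cast hn)).ne' (w.pos (by exact_mod_cast q.den_nz)).ne',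
        ← map_div₀]
      rcases Int.natAbs_eq q.num with e | e
      · congr 2
        rw [← Rat.cast_div, ← Int.cast_natCast (R := ℚ) q.num.natAbs, ← e, Rat.num_div_den]
      · conv_lhs => rw [← map_neg_eq_map]
        congr 2
        rw [← Rat.cast_div, ← Rat.cast_neg]
        congr 1
        conv_lhs => rw [← Rat.num_div_den q, e]
        rw [Int.cast_neg, Int.cast_natCast, neg_div, neg_neg]
    · simp only [IsPlace, not_or] at hp
      simp [ratLoc, hp.1, hp.2]
  rw [finsum_congr h, finsum_sub_distrib (ratLoc_support_finite _) (ratLoc_support_finite _),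
    finsum_ratLoc_natCast hn, finsum_ratLoc_natCast q.den_nz, sub_zero]

/-- The mean of the logarithms of the conjugates of `c` is that of the norm. -/
theorem avg_log_conj {c : F} (hc : c ≠ 0) (p : ℕ) (hp : IsPlace p) :
    avg F (fun σ => Real.log (conjPlc p hp σ (c : Qb))) =
      ratLoc p (Algebra.norm ℚ c) / (Module.finrank ℚ F : ℝ) := by
  rw [avg]
  congr 1
  rw [ratLoc_eq (plc_isOver p hp), ← eq_ratCast (algebraMap ℚ Qb),
    Algebra.norm_eq_prod_embeddings ℚ Qb, map_prod, Real.log_prod fun φ _ =>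
      ((plc p hp).pos fun h => hc (φ.toRingHom.injective (h.trans (map_zero φ.toRingHom).symm))).ne']
  exact Finset.sum_congr rfl fun φ _ => by rw [conjPlc_apply, ext'_apply]

end FA.MW

end
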