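import Fermat.Agent.MW.LocalSetup

/-!
# The five local identities

In the ultrapower: the value and the derivative of a function with given zeros, the tangent
line through the divisor of `dx`, the minors of the points, and the products of functions.
-/

set_option autoImplicit false
set_option linter.unusedSectionVars false
set_option linter.style.haveILetI false

noncomputable section

open Filter IsLocalRing

namespace FA.MW

open AlgebraicCurve FA.Curve

local notation "Qb" => AlgebraicClosure ℚ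

variable {w : ℕ → AbsoluteValue Qb ℝ} {s : ℕ → ℝ} {U : Ultrafilter ℕ}
variable {hw : IsTame w s} {hU : (U : Filter ℕ) ≤ atTop}
variable {F : Type} [Field F] [Algebra Qb F] (C : GalCurve F)

/-- A nonzero vector of the ultrapower, normalised. -/
theorem exists_saturated {ι : Type} [Fintype ι] {X : ι → UPow U} (h : X ≠ 0) :
    ∃ (a : UPow U) (c : ι → valRing hw U hU), a ≠ 0 ∧ gval hw hU a = vv hw hU X ∧
      (∀ i, X i = a * (c i : UPow U)) ∧ ∃ i, IsUnit (c i) := by
  obtain ⟨i, hi0, hi⟩ := exists_vv_eq_of_ne (hw := hw) (hU := hU) h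
  refine ⟨X i, fun j => ⟨X j / X i, mem_of_gval_le_one (by
      rw [map_div₀, hi]; exact div_le_one_of_le₀ (le_vv X j) zero_le)⟩, hi0, hi,
    fun j => (mul_div_cancel₀ _ hi0).symm, i, isUnit_of_gval_eq_one (by
      show gval hw hU (X i / X i) = 1
      rw [div_self hi0, map_one])⟩

namespace GalCurve

variable (U) in
/-- The germ of the coordinates of a sequence of functions. -/
def gc {k : ℕ} {κ : Type} [Fintype κ] (b : Module.Basis κ Qb (C.space k)) (g : ℕ → C.space k) :
    κ → UPow U := germV U fun n l => b.repr (g n) l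

theorem gc_ne_zero {k : ℕ} {κ : Type} [Fintype κ] (b : Module.Basis κ Qb (C.space k))
    {g : ℕ → C.space k} (h : ∀ n, g n ≠ 0) : C.gc U b g ≠ 0 :=
  germV_ne_zero fun n h0 => h n (b.ext_elem fun l => by simpa using congrFun h0 l)

variable {t k : ℕ} {κ : Type} [Fintype κ] (b : Module.Basis κ Qb (C.space (k * C.m)))

theorem coe_mkPt_chartSec {P : ℕ → Place Qb F} (h : C.Adm hw hU t P) (l : κ) :
    (C.mkPt h (C.chartSec t k b l) : UPow U) * lam t (C.gp U P) ^ k =
      UPow.mk U fun n => C.gv k (P n) (b l : F) := by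
  rw [coe_mkPt, gp, lam_germV, ← map_pow, ← map_mul]
  refine UPow.mk_eq_mk.2 ((Adm.good C h).mono fun n hn => ?_)
  show C.val (P n) ((b l : F) / C.hh t ^ k) * lam t (C.fv (P n)) ^ k = _
  rw [C.val_div hn (b l).2, div_mul_cancel₀ _ (pow_ne_zero k hn)]

theorem sum_gc_mul {P : ℕ → Place Qb F} (g : ℕ → C.space (k * C.m)) :
    ∑ l, C.gc U b g l * (UPow.mk U fun n => C.gv k (P n) (b l : F)) =
      UPow.mk U fun n => C.gv k (P n) (g n : F) := by
  simp only [gc, germV, ← map_mul]
  rw [← map_sum]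
  congr 1
  funext n
  rw [Finset.sum_apply, C.gv_sum b (g n) (P n)]
  rfl

/-- **Lemma A.** The value of a function with `k * m` given zeros. -/
theorem vv_value {τ : Type} [Fintype τ] (hτ : k * C.m ≤ Fintype.card τ)
    (Z : ℕ → τ → Place Qb F) (hinj : ∀ n, Function.Injective (Z n))
    (g : ℕ → C.space (k * C.m)) (hg : ∀ n, g n ≠ 0)
    (hz : ∀ n i, C.gv k (Z n i) (g n : F) = 0) (Q : ℕ → Place Qb F) :
    gval hw hU (UPow.mk U fun n => C.gv k (Q n) (g n : F)) =
      vv hw hU (C.gc U b g) * vv hw hU (C.gp U Q) ^ k *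
        ∏ i, vv hw hU (wedge (C.gp U fun n => Z n i) (C.gp U Q)) /
          (vv hw hU (C.gp U fun n => Z n i) * vv hw hU (C.gp U Q)) := by
  classical
  obtain ⟨t, ht⟩ := C.exists_adm (hw := hw) (hU := hU)
    (fun j : Option τ => (j.elim Q fun i n => Z n i : ℕ → Place Qb F))
  have hQ : C.Adm hw hU t Q := ht none
  have hZ : ∀ i, C.Adm hw hU t fun n => Z n i := fun i => ht (some i)
  obtain ⟨a, c, ha, hav, hc, hunit⟩ := exists_saturated (hw := hw) (hU := hU) (C.gc_ne_zero (U := U) b hg)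
  have hval : ∀ {P : ℕ → Place Qb F} (h : C.Adm hw hU t P),
      a * ((∑ l, c l * C.mkPt h (C.chartSec t k b l) : valRing hw U hU) : UPow U) *
        lam t (C.gp U P) ^ k = UPow.mk U fun n => C.gv k (P n) (g n : F) := fun {P} h => by
    rw [← C.sum_gc_mul b g]
    push_cast
    rw [Finset.mul_sum, Finset.sum_mul]
    refine Finset.sum_congr rfl fun l _ => ?_
    rw [← C.coe_mkPt_chartSec b h l, hc l]
    ring
  have hzero : ∀ i, ∑ l, c l * C.mkPt (hZ i) (C.chartSec t k b l) = 0 := fun i => by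
    have h1 := hval (hZ i)
    rw [UPow.mk_eq_zero.2 (Eventually.of_forall fun n => hz n i)] at h1
    rcases mul_eq_zero.1 h1 with h2 | h2
    · exact Subtype.ext ((mul_eq_zero.1 h2).resolve_left ha)
    · exact absurd h2 (pow_ne_zero _ (Adm.lam_ne_zero C (hZ i)))
  obtain ⟨e, he⟩ := (C.affCurve t).value_eq_prod (C.zeroBound t k b) (fun i => C.mkPt (hZ i))
    (fun i j hij => by
      by_contra hne
      exact C.mkPt_ne (hZ i) (hZ j) (fun n hn => hne (hinj n hn)) hij)
    hτ c hunit hzero (C.mkPt hQ) (fun i => (C.affCurve t).sep (C.mkPt (hZ i)) (C.mkPt hQ))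
    (fun i => (C.affCurve t).gen_sep _ _)
  rw [← hval hQ, he, MulMemClass.coe_mul, map_mul, map_mul, map_mul, map_pow, hav, hQ,
    gval_coe_unit, one_mul, mul_right_comm]
  push_cast
  rw [map_prod]
  congr 1
  exact Finset.prod_congr rfl fun i _ => C.gval_sep (hZ i) hQ

/-- **Lemma A'.** The derivative of a function at one of its `k * m` given zeros. -/
theorem vv_deriv {τ : Type} [Fintype τ] [DecidableEq τ]
    (hτ : k * C.m ≤ Fintype.card τ) (Z : ℕ → τ → Place Qb F) (hinj : ∀ n, Function.Injective (Z n))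
    (g : ℕ → C.space (k * C.m)) (hg : ∀ n, g n ≠ 0)
    (hz : ∀ n i, C.gv k (Z n i) (g n : F) = 0) (j : τ) (hσ : ∀ n, Z n j ∉ C.sigma) :
    gval hw hU (UPow.mk U fun n => C.val (Z n j) (C.δ (g n : F))) =
      vv hw hU (C.gc U b g) * vv hw hU (C.gp U fun n => Z n j) ^ k *
        (vv hw hU (germV U fun n => C.tv (Z n j)) / vv hw hU (C.gp U fun n => Z n j) ^ 2) *
        ∏ i ∈ Finset.univ.erase j, vv hw hU (wedge (C.gp U fun n => Z n i) (C.gp U fun n => Z n j)) /
          (vv hw hU (C.gp U fun n => Z n i) * vv hw hU (C.gp U fun n => Z n j)) := by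
  classical
  obtain ⟨t, ht⟩ := C.exists_adm (hw := hw) (hU := hU) (fun i : τ => fun n => Z n i)
  set Q : ℕ → Place Qb F := fun n => Z n j
  have hQ : C.Adm hw hU t Q := ht j
  have hZ : ∀ i, C.Adm hw hU t fun n => Z n i := ht
  obtain ⟨a, c, ha, hav, hc, hunit⟩ := exists_saturated (hw := hw) (hU := hU) (C.gc_ne_zero (U := U) b hg)
  have hzero : ∀ i, ∑ l, c l * C.mkPt (hZ i) (C.chartSec t k b l) = 0 := fun i => by
    have h1 : a * ((∑ l, c l * C.mkPt (hZ i) (C.chartSec t k b l) : valRing hw U hU) : UPow U) *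
        lam t (C.gp U fun n => Z n i) ^ k = 0 := by
      rw [← UPow.mk_eq_zero.2 (Eventually.of_forall fun n => hz n i : ∀ᶠ n in (U : Filter ℕ),
        C.gv k (Z n i) (g n : F) = 0), ← C.sum_gc_mul b g]
      push_cast
      rw [Finset.mul_sum, Finset.sum_mul]
      refine Finset.sum_congr rfl fun l _ => ?_
      rw [← C.coe_mkPt_chartSec b (hZ i) l, hc l]
      ring
    rcases mul_eq_zero.1 h1 with h2 | h2
    · exact Subtype.ext ((mul_eq_zero.1 h2).resolve_left ha)
    · exact absurd h2 (pow_ne_zero _ (Adm.lam_ne_zero C (hZ i)))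
  have hgen := (C.affCurve t).gen_der (P := C.mkPt hQ) (D := C.derPt hQ hσ) (C.derPt_mul hQ hσ)
  haveI : Module.IsTorsionFree (valRing hw U hU) (UPow U) := inferInstance
  obtain ⟨e, he⟩ := (C.affCurve t).der_eq_prod (C.zeroBound t k b) (fun i => C.mkPt (hZ i))
    (fun i i' hii => by
      by_contra hne
      exact C.mkPt_ne (hZ i) (hZ i') (fun n hn => hne (hinj n hn)) hii)
    hτ c hunit hzero j (D := C.derPt hQ hσ) (C.derPt_mul hQ hσ) _ hgen
    (fun i => (C.affCurve t).sep (C.mkPt (hZ i)) (C.mkPt hQ))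
    (fun i _ => (C.affCurve t).gen_sep _ _)
  have hD : a * (∑ l, c l • C.derPt hQ hσ (C.chartSec t k b l)) * lam t (C.gp U Q) ^ k =
      UPow.mk U fun n => C.val (Q n) (C.δ (g n : F)) := by
    simp only [smul_valRing, Finset.mul_sum, ← mul_assoc, ← hc]
    rw [gp, lam_germV, ← map_pow]
    show (∑ l, UPow.mk U _ * UPow.mk U _) * UPow.mk U _ = _
    simp only [← map_mul]
    rw [← map_sum, ← map_mul]
    refine UPow.mk_eq_mk.2 ((Adm.good C hQ).mono fun n hn => ?_)
    show (∑ l, (fun n => b.repr (g n) l) * fun n => C.val (Q n) (C.δ ((b l : F) / C.hh t ^ k))) n *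
      lam t (C.fv (Q n)) ^ k = _
    simp only [Finset.sum_apply, Pi.mul_apply]
    have hlin : C.val (Q n) (C.δ ((g n : F) / C.hh t ^ k)) =
        ∑ l, b.repr (g n) l * C.val (Q n) (C.δ ((b l : F) / C.hh t ^ k)) := by
      have key : ∀ s : Finset κ, HasValue (Q n)
          (C.δ ((∑ l ∈ s, b.repr (g n) l • (b l : F)) / C.hh t ^ k))
          (∑ l ∈ s, b.repr (g n) l * C.val (Q n) (C.δ ((b l : F) / C.hh t ^ k))) := by
        intro s
        rw [Finset.sum_div, map_sum]
        refine HasValue.finsetSum fun l _ => ?_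
        rw [smul_div_assoc, Derivation.map_smul, Algebra.smul_def]
        exact (C.hasValue_val (C.atLeast_δ_good (hσ n) (C.atLeast_div hn (b l).2))).smul _
      have h := key Finset.univ
      rw [show (∑ l, b.repr (g n) l • (b l : F)) = (g n : F) by
        simpa [-Module.Basis.sum_repr] using congrArg Subtype.val (b.sum_repr (g n))] at h
      exact C.val_eq h
    rw [← hlin, C.val_δ_div_of_zero (hσ n) hn (g n).2 (hz n j),
      div_mul_cancel₀ _ (pow_ne_zero k (show lam t (C.fv (Q n)) ≠ 0 from hn))]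
  rw [← hD, he, smul_valRing, MulMemClass.coe_mul, map_mul, map_mul, map_mul, map_mul, map_pow, hav,
    hQ, gval_coe_unit, one_mul, gval_of_gen hgen, C.vv_derPt hQ hσ]
  push_cast
  rw [map_prod, Finset.prod_congr rfl fun i _ => C.gval_sep (hZ i) hQ]
  simp only [Q]
  ac_rfl

/-- **Lemma DET.** The minors of `d` points. -/
theorem vv_minors_le {d : ℕ} (P : ℕ → Fin d → Place Qb F) :
    vv hw hU (germV U fun n (J : Fin d → Fin C.M) =>
        (Matrix.of fun a a' => C.fv (P n a) (J a')).det) ≤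
      (∏ a, vv hw hU (C.gp U fun n => P n a)) *
        ∏ a, ∏ a' ∈ Finset.univ.filter (fun a' => a < a'),
          vv hw hU (wedge (C.gp U fun n => P n a) (C.gp U fun n => P n a')) /
            (vv hw hU (C.gp U fun n => P n a) * vv hw hU (C.gp U fun n => P n a')) := by
  classical
  obtain ⟨t, ht⟩ := C.exists_adm (hw := hw) (hU := hU) (fun a : Fin d => fun n => P n a)
  refine vv_le fun J => ?_
  set Φ : (C.chartRing t →ₐ[Qb] ResidueField (valRing hw U hU)) → Fin d →
      TensorProduct Qb (valRing hw U hU) (C.chartRing t) := fun _ a' => 1 ⊗ₜ C.chartGen t (J a')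
  obtain ⟨q, hq⟩ := (C.affCurve t).sep_dvd_det d (fun a => C.mkPt (ht a)) Φ
  have e : germV U (fun n (J : Fin d → Fin C.M) =>
      (Matrix.of fun a a' => C.fv (P n a) (J a')).det) J =
      (∏ a, lam t (C.gp U fun n => P n a)) *
        ((Matrix.of fun a a' => evT (C.mkPt (ht a)) (Φ (redPt (C.mkPt (ht a))) a')).det :
          valRing hw U hU) := by
    have hmap := (valRing hw U hU).subtype.map_det
      (Matrix.of fun a a' => evT (C.mkPt (ht a)) (Φ (redPt (C.mkPt (ht a))) a'))
    rw [show (((Matrix.of fun a a' => evT (C.mkPt (ht a)) (Φ (redPt (C.mkPt (ht a))) a')).det :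
      valRing hw U hU) : UPow U) = _ from hmap, ← Matrix.det_mul_column]
    show UPow.mk U _ = _
    rw [show (fun n => (Matrix.of fun a a' => C.fv (P n a) (J a')).det) =
      (Matrix.of fun a a' => fun n => C.fv (P n a) (J a')).det from funext fun n => by
        rw [show (Matrix.of fun a a' => fun n => C.fv (P n a) (J a')).det n =
          Pi.evalRingHom (fun _ : ℕ => Qb) n (Matrix.of fun a a' => fun n => C.fv (P n a) (J a')).det
          from rfl, RingHom.map_det]
        rfl,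
      RingHom.map_det]
    congr 1
    ext a a'
    simp only [RingHom.mapMatrix_apply, Matrix.map_apply, Matrix.of_apply, Φ, evT_tmul, one_mul]
    rw [show (valRing hw U hU).subtype (C.mkPt (ht a) (C.chartGen t (J a'))) =
      (C.mkPt (ht a) (C.chartGen t (J a')) : UPow U) from rfl, C.coe_mkPt_chartGen (ht a),
      mul_div_cancel₀ _ (Adm.lam_ne_zero C (ht a))]
    rfl
  rw [e, map_mul, map_prod, hq, MulMemClass.coe_mul, map_mul]
  push_cast
  rw [map_prod]
  refine mul_le_mul' (le_of_eq (Finset.prod_congr rfl fun a _ => ht a)) ?_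
  refine (mul_le_mul' (le_of_eq (Finset.prod_congr rfl fun a _ => ?_)) (gval_coe_le_one q)).trans
    (mul_one _).le
  rw [map_prod]
  exact Finset.prod_congr rfl fun a' _ => C.gval_sep (ht a) (ht a')

/-- **Lemma MUL.** Products of functions. -/
theorem vv_mul {p q r : ℕ} (hpq : ∀ x ∈ C.space p, ∀ y ∈ C.space q, x * y ∈ C.space r)
    {κ' μ : Type} [Fintype κ'] [Fintype μ] {κ₀ : Type} [Fintype κ₀]
    (b₁ : Module.Basis κ₀ Qb (C.space p)) (b₂ : Module.Basis κ' Qb (C.space q))
    (b₃ : Module.Basis μ Qb (C.space r)) (x : ℕ → C.space p) (y : ℕ → C.space q)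
    (z : ℕ → C.space r) (hx : ∀ n, x n ≠ 0) (hy : ∀ n, y n ≠ 0)
    (hz : ∀ n, (z n : F) = x n * y n) :
    vv hw hU (C.gc U b₃ z) = vv hw hU (C.gc U b₁ x) * vv hw hU (C.gc U b₂ y) := by
  classical
  set str : κ₀ → κ' → μ → Qb := fun l l' o =>
    b₃.repr ⟨(b₁ l : F) * b₂ l', hpq _ (b₁ l).2 _ (b₂ l').2⟩ o
  have hbil : ∀ (c : κ₀ → Qb) (c' : κ' → Qb) (v : C.space r),
      (v : F) = (∑ l, c l • (b₁ l : F)) * ∑ l', c' l' • (b₂ l' : F) →
        ∀ o, b₃.repr v o = ∑ l, ∑ l', c l * c' l' * str l l' o := by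
    intro c c' v hv o
    have hv' : v = ∑ l, ∑ l', (c l * c' l') •
        (⟨(b₁ l : F) * b₂ l', hpq _ (b₁ l).2 _ (b₂ l').2⟩ : C.space r) := Subtype.ext (by
      rw [hv, Finset.sum_mul_sum]
      simp [smul_smul, mul_comm])
    rw [hv', map_sum]
    simp only [map_sum, map_smul, Finsupp.finsetSum_apply, Finsupp.smul_apply, smul_eq_mul, str]
  have hstr : ∀ (c : κ₀ → Qb) (c' : κ' → Qb), c ≠ 0 → c' ≠ 0 →
      ∃ o, ∑ l, ∑ l', c l * c' l' * str l l' o ≠ 0 := by
    intro c c' hc hc'
    by_contra hall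
    push Not at hall
    set v₁ : C.space p := ∑ l, c l • b₁ l
    set v₂ : C.space q := ∑ l', c' l' • b₂ l'
    have h1 : v₁ ≠ 0 := fun h => hc (funext (Fintype.linearIndependent_iff.1 b₁.linearIndependent c h))
    have h2 : v₂ ≠ 0 := fun h => hc' (funext (Fintype.linearIndependent_iff.1 b₂.linearIndependent c' h))
    set v : C.space r := ⟨(v₁ : F) * v₂, hpq _ v₁.2 _ v₂.2⟩
    have : v = 0 := b₃.ext_elem fun o => by
      rw [hbil c c' v (by simp [v, v₁, v₂]) o, hall o]; simp
    exact mul_ne_zero (fun h => h1 (Subtype.ext h)) (fun h => h2 (Subtype.ext h))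
      (congrArg Subtype.val this)
  obtain ⟨a, c, ha, hav, hc, hcu⟩ := exists_saturated (hw := hw) (hU := hU) (C.gc_ne_zero (U := U) b₁ hx)
  obtain ⟨a', c', ha', hav', hc', hcu'⟩ := exists_saturated (hw := hw) (hU := hU) (C.gc_ne_zero (U := U) b₂ hy)
  have e : ∀ o, C.gc U b₃ z o = a * a' *
      ((∑ l, ∑ l', c l * c' l' * algebraMap Qb (valRing hw U hU) (str l l' o) : valRing hw U hU) :
        UPow U) := fun o => by
    push_cast
    simp only [Finset.mul_sum, coe_algebraMap_valRing]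
    rw [show (∑ l, ∑ l', a * a' * ((c l : UPow U) * (c' l' : UPow U) *
        algebraMap Qb (UPow U) (str l l' o))) = ∑ l, ∑ l', C.gc U b₁ x l * C.gc U b₂ y l' *
        algebraMap Qb (UPow U) (str l l' o) from Finset.sum_congr rfl fun l _ =>
      Finset.sum_congr rfl fun l' _ => by rw [hc, hc']; ring]
    simp only [gc, germV, UPow.algebraMap_eq, ← map_mul, ← map_sum]
    congr 1
    funext n
    simp only [Finset.sum_apply, Pi.mul_apply]
    refine hbil _ _ _ ?_ o
    rw [hz n]
    congr 1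
    · simpa [-Module.Basis.sum_repr] using (congrArg Subtype.val (b₁.sum_repr (x n))).symm
    · simpa [-Module.Basis.sum_repr] using (congrArg Subtype.val (b₂.sum_repr (y n))).symm
  obtain ⟨o, ho⟩ := exists_isUnit_bilin (L := Qb) str hstr c hcu c' hcu'
  refine le_antisymm (vv_le fun o' => ?_) ?_
  · rw [e, map_mul, map_mul, hav, hav']
    exact mul_le_of_le_one_right' (gval_coe_le_one _)
  · refine le_of_eq_of_le ?_ (le_vv (C.gc U b₃ z) o)
    rw [e, map_mul, map_mul, hav, hav', ← ho.unit_spec, gval_coe_unit, mul_one]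

/-- **Lemma K.** The tangent line through the divisor of `dx`. -/
theorem vv_tangent (P : ℕ → Place Qb F) (hσ : ∀ n, P n ∉ C.sigma) :
    vv hw hU (germV U fun n => C.tv (P n)) / vv hw hU (C.gp U P) ^ 2 =
      ∏ R : C.W.support, (vv hw hU (wedge (C.gp U fun _ => (R : Place Qb F)) (C.gp U P)) /
        (vv hw hU (C.gp U fun _ => (R : Place Qb F)) * vv hw hU (C.gp U P))) ^ (-C.W R) := by
  classical
  set S := C.W.support
  obtain ⟨t, ht⟩ := C.exists_adm (hw := hw) (hU := hU)
    (fun j : Option S => (j.elim P fun R _ => (R : Place Qb F) : ℕ → Place Qb F))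
  have hP : C.Adm hw hU t P := ht none
  have hR : ∀ R : S, C.Adm hw hU t fun _ => (R : Place Qb F) := fun R => ht (some R)
  have hRg : ∀ R ∈ S, C.Good t R := fun R hR' => (Adm.good C (hR ⟨R, hR'⟩)).exists.choose_spec
  obtain ⟨n₀, hn₀⟩ := (Adm.good C hP).exists
  set Ep : Place Qb F → ℕ := fun R => (C.W R).toNat
  set Em : Place Qb F → ℕ := fun R => (-C.W R).toNat
  -- the functions vanishing on the positive part
  set D₀ : Divisor Qb F := Finsupp.mapRange (fun z : ℤ => max z 0) (by simp) C.W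
  have hD₀ : ∀ R, D₀ R = Ep R := fun R => by simp [D₀, Ep]
  have hD₀0 : 0 ≤ D₀ := Finsupp.le_def.2 fun R => by
    rw [hD₀, Finsupp.coe_zero, Pi.zero_apply]; exact Int.natCast_nonneg _
  set K : ℕ := (Divisor.degree D₀).toNat + C.thr + 2 with hK
  set D : Divisor Qb F := C.Dk K - D₀
  have hdeg : (C.thr : ℤ) + 1 ≤ Divisor.degree D := by
    rw [map_sub, C.degree_Dk]
    have h1 := degree_nonneg C.hF hD₀0
    have h2 : (K : ℤ) ≤ ((K * C.m : ℕ) : ℤ) := by exact_mod_cast Nat.le_mul_of_pos_right K C.m_pos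
    omega
  haveI := finite_riemannRochSpace C.hF D
  let bD := Module.finBasis Qb (riemannRochSpace D)
  have hbD : ∀ l, (bD l : F) ∈ C.space (K * C.m) := fun l =>
    riemannRochSpace_mono (sub_le_self _ hD₀0) (bD l).2
  let N : Fin (Module.finrank Qb (riemannRochSpace D)) → C.chartRing t := fun l =>
    ⟨_, C.div_mem_chartRing (t := t) (hbD l)⟩
  have hordN : ∀ {Q : Place Qb F}, C.Good t Q → ∀ {g : F}, g ≠ 0 →
      Q.ord (g / C.hh t ^ K) = Q.ord g + C.Dk K Q := fun {Q} hQ {g} hg => by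
    rw [div_eq_mul_inv, Q.ord_mul hg (inv_ne_zero (pow_ne_zero _ (C.hh_ne_zero t))), Q.ord_inv,
      C.ord_hh_pow hQ, neg_neg]
  have hle : ∀ Q, C.Good t Q → ∀ l, AtLeast Q (Ep Q : ℤ) (N l : F) := fun Q hQ l => by
    show AtLeast Q _ ((bD l : F) / C.hh t ^ K)
    rcases eq_or_ne (bD l : F) 0 with h0 | h0
    · rw [h0, zero_div]; exact atLeast_zero
    refine Or.inr ?_
    have h1 := (atLeast_iff h0).1 (mem_riemannRochSpace.1 (bD l).2 Q)
    rw [hordN hQ h0]
    simp only [D, Finsupp.sub_apply, hD₀] at h1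
    omega
  have heq : ∀ Q, C.Good t Q → ∃ l, N l ≠ 0 ∧ Q.ord (N l : F) = Ep Q := fun Q hQ => by
    obtain ⟨g, hg, hg0, hgQ⟩ := C.exists_exact D {Q} hdeg
    by_contra hno
    push Not at hno
    have hall : ∀ l, (bD l : F) ∈ riemannRochSpace (D - Finsupp.single Q 1) := fun l => by
      rw [mem_riemannRochSpace]
      intro v
      rcases eq_or_ne v Q with rfl | hv
      · rcases eq_or_ne (bD l : F) 0 with h0 | h0
        · exact Or.inl h0
        refine Or.inr ?_
        have hN0 : N l ≠ 0 := fun h => div_ne_zero h0 (pow_ne_zero _ (C.hh_ne_zero t))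
          (congrArg Subtype.val h)
        have h1 := (atLeast_iff h0).1 (mem_riemannRochSpace.1 (bD l).2 v)
        have h2 : v.ord ((bD l : F) / C.hh t ^ K) ≠ Ep v := hno l hN0
        rw [hordN hQ h0] at h2
        simp only [D, Finsupp.sub_apply, hD₀, Finsupp.single_eq_same] at h1 ⊢
        omega
      · simpa [Finsupp.single_eq_of_ne hv] using mem_riemannRochSpace.1 (bD l).2 v
    have hgmem : g ∈ riemannRochSpace (D - Finsupp.single Q 1) := by
      have h1 := congrArg Subtype.val (bD.sum_repr ⟨g, hg⟩)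
      rw [show g = ((⟨g, hg⟩ : riemannRochSpace D) : F) from rfl, ← h1,
        Submodule.coe_sum]
      exact Submodule.sum_mem _ fun l _ => Submodule.smul_mem _ _ (hall l)
    have := (atLeast_iff hg0).1 (mem_riemannRochSpace.1 hgmem Q)
    rw [hgQ Q (Finset.mem_singleton_self _), Finsupp.sub_apply, Finsupp.single_eq_same] at this
    omega
  have hW0 : ∀ Q, Q ∉ S → C.W Q = 0 := fun Q h => Finsupp.notMem_support_iff.1 h
  have hmem' : ∀ li : Fin (Module.finrank Qb (riemannRochSpace D)) × Fin C.M,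
      ∀ Q, C.Good t Q → AtLeast Q (Em Q : ℤ) ((N li.1 : F) * C.δ (C.chartFun t li.2)) :=
    fun li Q hQ =>
      ((hle Q hQ li.1).mul (C.atLeast_δ (C.atLeast_chartRing hQ (C.chartGen t li.2)))).mono
        (by simp only [Ep, Em]; omega)
  let N' : Fin (Module.finrank Qb (riemannRochSpace D)) × Fin C.M → C.chartRing t := fun li =>
    ⟨_, C.mem_chartRing (t := t) fun Q hQ => (hmem' li Q hQ).mono (Int.natCast_nonneg _)⟩
  have heq' : ∀ Q, C.Good t Q → ∃ li, N' li ≠ 0 ∧ Q.ord (N' li : F) = Em Q := fun Q hQ => by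
    obtain ⟨l, hl0, hl⟩ := heq Q hQ
    obtain ⟨i, hi0, hi⟩ := C.exists_δ_chartGen_exact hQ
    have hl0' : (N l : F) ≠ 0 := fun h => hl0 (Subtype.ext h)
    refine ⟨(l, i), fun h => mul_ne_zero hl0' hi0 (congrArg Subtype.val h), ?_⟩
    show Q.ord ((N l : F) * C.δ (C.chartFun t i)) = _
    rw [Q.ord_mul hl0' hi0, hl, hi]
    simp only [Ep, Em]
    omega
  set δ : S → valRing hw U hU := fun R => (C.affCurve t).sep (C.mkPt (hR R)) (C.mkPt hP)
  have hδ : ∀ R : S, Gen (valRing hw U hU) (fun i => C.mkPt hP (C.chartGen t i) -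
      algebraMap Qb (valRing hw U hU) (C.pt (hRg R R.2) (C.chartGen t i))) (δ R) := fun R => by
    have := (C.affCurve t).gen_sep (C.mkPt (hR R)) (C.mkPt hP)
    simpa only [C.mkPt_const (hR R) (hRg R R.2)] using this
  have h1 := gval_of_gen' (C.gen_chart_family N Ep S hRg hle heq
    (fun Q _ h => by simp [Ep, hW0 Q h]) hn₀ (C.mkPt hP) δ hδ)
  have h2 := gval_of_gen' (C.gen_chart_family N' Em S hRg (fun Q hQ li => hmem' li Q hQ) heq'
    (fun Q _ h => by simp [Em, hW0 Q h]) hn₀ (C.mkPt hP) δ hδ)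
  have hprod : vv hw hU (fun li => (C.mkPt hP (N' li) : UPow U)) =
      vv hw hU (fun l => (C.mkPt hP (N l) : UPow U)) *
        vv hw hU (fun j => C.derPt hP hσ (C.chartGen t j)) := by
    have e : ∀ li, (C.mkPt hP (N' li) : UPow U) =
        (C.mkPt hP (N li.1) : UPow U) * C.derPt hP hσ (C.chartGen t li.2) := fun li => by
      show UPow.mk U _ = UPow.mk U _ * UPow.mk U _
      rw [← map_mul]
      refine UPow.mk_eq_mk.2 ((Adm.good C hP).mono fun n hn => ?_)
      exact C.val_mul (C.atLeast_chartRing hn (N li.1))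
        (C.atLeast_δ_good (hσ n) (C.atLeast_chartRing hn (C.chartGen t li.2)))
    haveI : Nonempty (Fin C.M) := ⟨⟨0, by have := C.two_le_M; omega⟩⟩
    haveI : Nonempty (Fin (Module.finrank Qb (riemannRochSpace D))) := ⟨(heq _ hn₀).choose⟩
    refine le_antisymm (vv_le fun li => ?_) ?_
    · rw [e, map_mul]
      exact mul_le_mul' (le_vv (fun l => (C.mkPt hP (N l) : UPow U)) li.1)
        (le_vv (fun j => C.derPt hP hσ (C.chartGen t j)) li.2)
    · obtain ⟨l, hl⟩ := exists_vv_eq (hw := hw) (hU := hU) fun l => (C.mkPt hP (N l) : UPow U)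
      obtain ⟨j, hj⟩ := exists_vv_eq (hw := hw) (hU := hU) fun j => C.derPt hP hσ (C.chartGen t j)
      rw [← hl, ← hj, ← map_mul, ← e (l, j)]
      exact le_vv (fun li => (C.mkPt hP (N' li) : UPow U)) (l, j)
  set d : S → VG hw hU := fun R =>
    vv hw hU (wedge (C.gp U fun _ => (R : Place Qb F)) (C.gp U P)) /
      (vv hw hU (C.gp U fun _ => (R : Place Qb F)) * vv hw hU (C.gp U P))
  have hd : ∀ R, gval hw hU (δ R : UPow U) = d R := fun R => C.gval_sep (hR R) hP
  have hd0 : ∀ R, d R ≠ 0 := fun R => div_ne_zero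
    (vv_ne_zero (C.wedge_gp_ne_zero fun n he => hσ n (he ▸ Finset.mem_insert_of_mem R.2)))
    (mul_ne_zero (C.vv_gp_ne_zero _) (C.vv_gp_ne_zero _))
  rw [hprod] at h2
  push_cast at h1 h2
  simp only [map_prod, map_pow, hd] at h1 h2
  rw [← h1, C.vv_derPt hP hσ] at h2
  have hne : ∏ R : S, d R ^ Ep R ≠ 0 := Finset.prod_ne_zero_iff.2 fun R _ => pow_ne_zero _ (hd0 R)
  refine mul_left_cancel₀ hne ?_
  rw [← h2, ← Finset.prod_mul_distrib]
  refine Finset.prod_congr rfl fun R _ => ?_
  rw [← zpow_natCast, ← zpow_natCast, ← zpow_add₀ (hd0 R)]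
  congr 1
  simp only [Ep, Em]
  omega

end GalCurve

end FA.MW

end
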