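import Fermat.Agent.MW.Germ
import Fermat.Agent.MW.Curve.Deriv

/-!
# Sequences of places as points of the chart with values in the bounded elements
-/

set_option autoImplicit false
set_option linter.unusedSectionVars false
set_option linter.style.haveILetI false

noncomputable section

open Filter IsLocalRing

namespace FA.MW

open AlgebraicCurve FA.Curve

local notation "Qb" => AlgebraicClosure ℚ

variable {w : ℕ → AbsoluteValue Qb ℝ} {s : ℕ → ℝ} {U : Ultrafilter ℕ}
variable {hw : IsTame w s} {hU : (U : Filter ℕ) ≤ atTop}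

/-- The constants in the bounded elements. -/
instance algebraValRing : Algebra Qb (valRing hw U hU) :=
  ((algebraMap Qb (UPow U)).codRestrict (valRing hw U hU).toSubring
    fun c => algebraMap_mem_valRing c).toAlgebra

instance towerValRing : IsScalarTower Qb (valRing hw U hU) (UPow U) :=
  IsScalarTower.of_algebraMap_eq fun _ => rfl

theorem coe_algebraMap_valRing (c : Qb) :
    ((algebraMap Qb (valRing hw U hU) c : valRing hw U hU) : UPow U) =
      algebraMap Qb (UPow U) c := rfl

theorem smul_valRing (c : valRing hw U hU) (x : UPow U) : c • x = (c : UPow U) * x := rfl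

theorem gval_coe_le_one (x : valRing hw U hU) : gval hw hU (x : UPow U) ≤ 1 :=
  (valRing hw U hU).valuation_le_one x

theorem gval_coe_unit (e : (valRing hw U hU)ˣ) :
    gval hw hU ((e : valRing hw U hU) : UPow U) = 1 :=
  ((valRing hw U hU).valuation_eq_one_iff _).1 e.isUnit

theorem mem_of_gval_le_one {x : UPow U} (h : gval hw hU x ≤ 1) : x ∈ valRing hw U hU :=
  ((valRing hw U hU).valuation_le_one_iff x).1 h

theorem isUnit_of_gval_eq_one {x : valRing hw U hU} (h : gval hw hU (x : UPow U) = 1) : IsUnit x :=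
  ((valRing hw U hU).valuation_eq_one_iff x).2 h

theorem gval_algebraMap {c : Qb} (hc : c ≠ 0) : gval hw hU (algebraMap Qb (UPow U) c) = 1 :=
  valuation_algebraMap hc

theorem gval_algebraMap_le (c : Qb) : gval hw hU (algebraMap Qb (UPow U) c) ≤ 1 :=
  ((valRing hw U hU).valuation_le_one_iff _).2 (algebraMap_mem_valRing c)

theorem gval_natCast_le (t : ℕ) : gval hw hU ((t : UPow U)) ≤ 1 := by
  rw [← map_natCast (algebraMap Qb (UPow U))]
  exact gval_algebraMap_le _

/-- Generators have the largest valuation. -/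
theorem gval_of_gen {ι : Type} [Fintype ι] {x : ι → UPow U} {d : UPow U}
    (h : Gen (valRing hw U hU) x d) : gval hw hU d = vv hw hU x := by
  refine le_antisymm ?_ (vv_le fun i => ?_)
  · obtain ⟨c, hc⟩ := (Submodule.mem_span_range_iff_exists_fun _).1 h.2
    rw [← hc]
    refine Valuation.map_sum_le _ fun i _ => ?_
    rw [smul_valRing, map_mul]
    exact le_trans (mul_le_mul_of_nonneg_right (gval_coe_le_one _) zero_le) (by
      rw [one_mul]; exact le_vv x i)
  · obtain ⟨c, hc⟩ := h.1 i
    rw [hc, smul_valRing, map_mul]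
    exact (mul_le_mul_of_nonneg_right (gval_coe_le_one _) zero_le).trans (one_mul _).le

theorem gval_of_gen' {ι : Type} [Fintype ι] {x : ι → valRing hw U hU} {d : valRing hw U hU}
    (h : Gen (valRing hw U hU) x d) :
    gval hw hU (d : UPow U) = vv hw hU fun i => (x i : UPow U) := by
  refine gval_of_gen ⟨fun i => ?_, ?_⟩
  · obtain ⟨c, hc⟩ := h.1 i
    refine ⟨c, ?_⟩
    show (x i : UPow U) = _
    rw [hc, smul_eq_mul, smul_valRing, MulMemClass.coe_mul]
  · obtain ⟨c, hc⟩ := (Submodule.mem_span_range_iff_exists_fun _).1 h.2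
    refine (Submodule.mem_span_range_iff_exists_fun _).2 ⟨c, ?_⟩
    rw [← hc]
    push_cast
    simp [smul_valRing]

/-! ### Normalised vectors -/

theorem lam_sub {R : Type*} [CommRing R] {M : ℕ} (t : ℕ) (x y : Fin M → R) :
    lam t (fun i => x i - y i) = lam t x - lam t y := by
  simp [lam, mul_sub, Finset.sum_sub_distrib]

theorem lam_smul {R : Type*} [CommRing R] {M : ℕ} (t : ℕ) (a : R) (x : Fin M → R) :
    lam t (fun i => a * x i) = a * lam t x := by
  simp [lam, Finset.mul_sum, mul_left_comm]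

theorem gval_lam_le {M : ℕ} (t : ℕ) (x : Fin M → UPow U) :
    gval hw hU (lam t x) ≤ vv hw hU x := by
  refine Valuation.map_sum_le _ fun i _ => ?_
  rw [map_mul, map_pow]
  exact (mul_le_mul_of_nonneg_right (pow_le_one₀ zero_le (gval_natCast_le t)) zero_le).trans
    ((one_mul _).le.trans (le_vv x i))

theorem vv_wedge_normalised {M : ℕ} (t : ℕ) {a D : Fin M → UPow U}
    (ha : ∀ i, gval hw hU (a i) ≤ 1) (h1 : lam t a = 1) (h0 : lam t D = 0) :
    vv hw hU (wedge a D) = vv hw hU D := by
  refine le_antisymm (vv_le fun q => ?_) (vv_le fun j => ?_)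
  · refine (Valuation.map_sub _ _ _).trans (max_le ?_ ?_) <;>
    · rw [map_mul]
      exact (mul_le_mul_of_nonneg_right (ha _) zero_le).trans ((one_mul _).le.trans (le_vv D _))
  · have e : D j = ∑ i : Fin M, (t : UPow U) ^ (i : ℕ) * wedge a D (i, j) := by
      calc D j = lam t a * D j - a j * lam t D := by rw [h1, h0]; ring
        _ = _ := by
          rw [lam, lam, Finset.sum_mul, Finset.mul_sum, ← Finset.sum_sub_distrib]
          exact Finset.sum_congr rfl fun i _ => by simp only [wedge]; ring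
    rw [e]
    refine Valuation.map_sum_le _ fun i _ => ?_
    rw [map_mul, map_pow]
    exact (mul_le_mul_of_nonneg_right (pow_le_one₀ zero_le (gval_natCast_le t)) zero_le).trans
      ((one_mul _).le.trans (le_vv (wedge a D) (i, j)))

theorem germV_wedge {ι : Type} (x y : ℕ → ι → Qb) :
    wedge (germV U x) (germV U y) = germV U fun n => wedge (x n) (y n) := by
  funext q
  simp only [wedge, germV]
  rw [← map_mul, ← map_mul, ← map_sub]
  rfl

theorem lam_germV {M : ℕ} (t : ℕ) (x : ℕ → Fin M → Qb) :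
    lam t (germV U x) = UPow.mk U fun n => lam t (x n) := by
  have := map_lam (UPow.mk U) t (fun i => fun n => x n i)
  show lam t (fun i => UPow.mk U fun n => x n i) = _
  rw [← this]
  congr 1
  funext n
  simp [lam, Finset.sum_apply]

/-- Finitely many nonzero vectors have a common linear form of full valuation. -/
theorem exists_lam {τ : Type} [Finite τ] {M : ℕ} (X : τ → Fin M → UPow U) (h : ∀ j, X j ≠ 0) :
    ∃ t : ℕ, ∀ j, gval hw hU (lam t (X j)) = vv hw hU (X j) := by
  classical
  haveI := Fintype.ofFinite τ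
  choose i hi0 hi using fun j => exists_vv_eq_of_ne (hw := hw) (hU := hU) (h j)
  have hmem : ∀ j l, X j l / X j (i j) ∈ valRing hw U hU := fun j l => mem_of_gval_le_one (by
    rw [map_div₀, hi]
    exact div_le_one_of_le₀ (le_vv (X j) l) zero_le)
  haveI : CharZero (ResidueField (valRing hw U hU)) :=
    charZero_of_injective_algebraMap
      (algebraMap Qb (ResidueField (valRing hw U hU))).injective
  let r : τ → Fin M → ResidueField (valRing hw U hU) := fun j l =>
    residue (valRing hw U hU) ⟨X j l / X j (i j), hmem j l⟩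
  let p : τ → Polynomial (ResidueField (valRing hw U hU)) := fun j =>
    ∑ l : Fin M, Polynomial.C (r j l) * Polynomial.X ^ (l : ℕ)
  have hp : ∀ j, p j ≠ 0 := fun j h0 => by
    have h1 := congrArg (fun q => q.coeff (i j : ℕ)) h0
    simp only [p, Polynomial.finsetSum_coeff, Polynomial.coeff_C_mul, Polynomial.coeff_X_pow,
      Polynomial.coeff_zero] at h1
    rw [Finset.sum_eq_single (i j) (fun l _ hl => by
      rw [if_neg fun he => hl (Fin.ext he.symm), mul_zero]) (fun h => absurd (Finset.mem_univ _) h),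
      if_pos rfl, mul_one] at h1
    refine one_ne_zero (α := ResidueField (valRing hw U hU)) ?_
    rw [← h1, ← map_one (residue (valRing hw U hU))]
    exact congrArg _ (Subtype.ext (div_self (hi0 j)).symm)
  obtain ⟨t, ht⟩ : ∃ t : ℕ, ∀ j, (p j).eval (t : ResidueField (valRing hw U hU)) ≠ 0 := by
    have hfin : {t : ℕ | ∃ j, (p j).eval (t : ResidueField (valRing hw U hU)) = 0}.Finite := by
      refine ((Set.finite_iUnion fun j => Polynomial.finite_setOfPred_isRoot (hp j)).preimage
        Nat.cast_injective.injOn).subset fun t ht => ?_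
      obtain ⟨j, hj⟩ := ht
      exact Set.mem_iUnion.2 ⟨j, hj⟩
    obtain ⟨t, ht⟩ := hfin.infinite_compl.nonempty
    exact ⟨t, fun j hj => ht ⟨j, hj⟩⟩
  refine ⟨t, fun j => ?_⟩
  set z : valRing hw U hU := lam t fun l => ⟨X j l / X j (i j), hmem j l⟩
  have hz : IsUnit z := by
    by_contra hu
    refine ht j ?_
    have h0 := (residue_eq_zero_iff z).2 ((mem_maximalIdeal z).2 hu)
    rw [map_lam] at h0
    simp only [p, Polynomial.eval_finsetSum, Polynomial.eval_mul, Polynomial.eval_C,
      Polynomial.eval_pow, Polynomial.eval_X]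
    rw [← h0, lam]
    exact Finset.sum_congr rfl fun l _ => mul_comm _ _
  have e : lam t (X j) = X j (i j) * (z : UPow U) := by
    have hc := map_lam (valRing hw U hU).subtype t fun l => (⟨X j l / X j (i j), hmem j l⟩ : valRing hw U hU)
    rw [show (z : UPow U) = (valRing hw U hU).subtype z from rfl, hc, ← lam_smul]
    congr 1
    funext l
    show X j l = X j (i j) * (X j l / X j (i j))
    rw [mul_div_cancel₀ _ (hi0 j)]
  rw [e, map_mul, hi, ← hz.unit_spec, gval_coe_unit, mul_one]

namespace GalCurve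

variable {F : Type} [Field F] [Algebra Qb F] (C : GalCurve F)

variable (U) in
/-- The projective vector of a sequence of places. -/
def gp (P : ℕ → Place Qb F) : Fin C.M → UPow U := germV U fun n => C.fv (P n)

theorem gp_ne_zero (P : ℕ → Place Qb F) : C.gp U P ≠ 0 := germV_ne_zero fun n => C.fv_ne_zero _

theorem vv_gp_ne_zero (P : ℕ → Place Qb F) : vv hw hU (C.gp U P) ≠ 0 :=
  vv_ne_zero (C.gp_ne_zero P)

variable (hw hU) in
/-- The chart of `t` sees the sequence as an integral point. -/
def Adm (t : ℕ) (P : ℕ → Place Qb F) : Prop :=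
  gval hw hU (lam t (C.gp U P)) = vv hw hU (C.gp U P)

theorem exists_adm {τ : Type} [Finite τ] (P : τ → ℕ → Place Qb F) :
    ∃ t, ∀ j, C.Adm hw hU t (P j) :=
  exists_lam (fun j => C.gp U (P j)) fun j => C.gp_ne_zero (P j)

variable {t : ℕ} {P : ℕ → Place Qb F}

theorem Adm.lam_ne_zero (h : C.Adm hw hU t P) : lam t (C.gp U P) ≠ 0 := fun h0 => by
  have := h.symm
  rw [h0, map_zero] at this
  exact C.vv_gp_ne_zero P this

theorem Adm.good (h : C.Adm hw hU t P) : ∀ᶠ n in (U : Filter ℕ), C.Good t (P n) := by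
  have := Adm.lam_ne_zero C h
  rw [gp, lam_germV] at this
  exact UPow.mk_ne_zero.1 this

/-- Values along the sequence. -/
def gvalPt (h : C.Adm hw hU t P) : C.chartRing t →ₐ[Qb] UPow U where
  toFun a := UPow.mk U fun n => C.val (P n) (a : F)
  map_one' := by
    rw [← map_one (UPow.mk U)]
    congr 1
    funext n
    simpa using C.val_algebraMap (P n) 1
  map_mul' a b := by
    rw [← map_mul]
    exact UPow.mk_eq_mk.2 ((Adm.good C h).mono fun n hn =>
      C.val_mul (C.atLeast_chartRing hn a) (C.atLeast_chartRing hn b))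
  map_zero' := by
    rw [← map_zero (UPow.mk U)]
    congr 1
    funext n
    simpa using C.val_algebraMap (P n) 0
  map_add' a b := by
    rw [← map_add]
    exact UPow.mk_eq_mk.2 ((Adm.good C h).mono fun n hn =>
      C.val_add (C.atLeast_chartRing hn a) (C.atLeast_chartRing hn b))
  commutes' c := by
    rw [UPow.algebraMap_eq]
    congr 1
    funext n
    exact C.val_algebraMap (P n) c

theorem gvalPt_chartGen (h : C.Adm hw hU t P) (i : Fin C.M) :
    C.gvalPt h (C.chartGen t i) = C.gp U P i / lam t (C.gp U P) := by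
  rw [eq_div_iff (Adm.lam_ne_zero C h), gp, lam_germV]
  show UPow.mk U _ * UPow.mk U _ = UPow.mk U _
  rw [← map_mul]
  refine UPow.mk_eq_mk.2 ((Adm.good C h).mono fun n hn => ?_)
  show C.val (P n) (C.chartFun t i) * lam t (C.fv (P n)) = _
  rw [C.val_chartFun hn, div_mul_cancel₀ _ (show lam t (C.fv (P n)) ≠ 0 from hn)]

theorem gval_gvalPt_chartGen_le (h : C.Adm hw hU t P) (i : Fin C.M) :
    gval hw hU (C.gvalPt h (C.chartGen t i)) ≤ 1 := by
  rw [C.gvalPt_chartGen h, map_div₀, h]
  exact div_le_one_of_le₀ (le_vv _ i) zero_le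

theorem gvalPt_mem (h : C.Adm hw hU t P) (a : C.chartRing t) :
    C.gvalPt h a ∈ valRing hw U hU := by
  have ha : a ∈ Algebra.adjoin Qb (Set.range (C.chartGen t)) := C.adjoin_chartGen ▸ Algebra.mem_top
  induction ha using Algebra.adjoin_induction with
  | mem x hx => obtain ⟨i, rfl⟩ := hx; exact mem_of_gval_le_one (C.gval_gvalPt_chartGen_le h i)
  | algebraMap c => rw [AlgHom.commutes]; exact algebraMap_mem_valRing c
  | add x y _ _ hx hy => rw [map_add]; exact add_mem hx hy
  | mul x y _ _ hx hy => rw [map_mul]; exact mul_mem hx hy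

/-- The integral point of the chart. -/
def mkPt (h : C.Adm hw hU t P) : C.chartRing t →ₐ[Qb] valRing hw U hU where
  toFun a := ⟨C.gvalPt h a, C.gvalPt_mem h a⟩
  map_one' := Subtype.ext (map_one _)
  map_mul' a b := Subtype.ext (map_mul _ a b)
  map_zero' := Subtype.ext (map_zero _)
  map_add' a b := Subtype.ext (map_add _ a b)
  commutes' c := Subtype.ext ((C.gvalPt h).commutes c)

theorem coe_mkPt (h : C.Adm hw hU t P) (a : C.chartRing t) :
    (C.mkPt h a : UPow U) = UPow.mk U fun n => C.val (P n) (a : F) := rfl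

theorem coe_mkPt_chartGen (h : C.Adm hw hU t P) (i : Fin C.M) :
    (C.mkPt h (C.chartGen t i) : UPow U) = C.gp U P i / lam t (C.gp U P) :=
  C.gvalPt_chartGen h i

theorem mkPt_const {R : Place Qb F} (h : C.Adm hw hU t fun _ => R) (hR : C.Good t R)
    (a : C.chartRing t) : C.mkPt h a = algebraMap Qb (valRing hw U hU) (C.pt hR a) :=
  Subtype.ext (by rw [coe_mkPt, coe_algebraMap_valRing, UPow.algebraMap_eq]; rfl)

theorem lam_normalised (h : C.Adm hw hU t P) :
    lam t (fun i => (C.mkPt h (C.chartGen t i) : UPow U)) = 1 := by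
  simp only [C.coe_mkPt_chartGen h]
  rw [show (fun i => C.gp U P i / lam t (C.gp U P)) =
    fun i => (lam t (C.gp U P))⁻¹ * C.gp U P i from funext fun i => by rw [div_eq_inv_mul],
    lam_smul, inv_mul_cancel₀ (Adm.lam_ne_zero C h)]

variable {Q : ℕ → Place Qb F}

/-- The distance of two integral points. -/
theorem gval_sep (hP : C.Adm hw hU t P) (hQ : C.Adm hw hU t Q) :
    gval hw hU (((C.affCurve t).sep (C.mkPt hP) (C.mkPt hQ) : valRing hw U hU) : UPow U) =
      vv hw hU (wedge (C.gp U P) (C.gp U Q)) / (vv hw hU (C.gp U P) * vv hw hU (C.gp U Q)) := by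
  rw [gval_of_gen' ((C.affCurve t).gen_sep (C.mkPt hP) (C.mkPt hQ))]
  push_cast
  rw [← vv_wedge_normalised (hw := hw) (hU := hU) t
    (a := fun i => (C.mkPt hP (C.chartGen t i) : UPow U))
    (fun i => gval_coe_le_one _) (C.lam_normalised hP)
    (by rw [lam_sub, C.lam_normalised hQ, C.lam_normalised hP, sub_self])]
  have hP0 := Adm.lam_ne_zero C hP
  have hQ0 := Adm.lam_ne_zero C hQ
  haveI : Nonempty (Fin C.M × Fin C.M) := ⟨(⟨0, by have := C.two_le_M; omega⟩, ⟨0, by have := C.two_le_M; omega⟩)⟩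
  rw [show wedge (fun i => (C.mkPt hP (C.chartGen t i) : UPow U))
      (fun i => (C.mkPt hQ (C.chartGen t i) : UPow U) - C.mkPt hP (C.chartGen t i)) =
      fun q => (lam t (C.gp U P) * lam t (C.gp U Q))⁻¹ * wedge (C.gp U P) (C.gp U Q) q from
    funext fun q => by
      simp only [wedge, C.coe_mkPt_chartGen]
      field_simp
      ring,
    vv_mul_left, map_inv₀, map_mul, hP, hQ, div_eq_inv_mul]

theorem wedge_gp_ne_zero (h : ∀ n, P n ≠ Q n) : wedge (C.gp U P) (C.gp U Q) ≠ 0 := by
  rw [gp, gp, germV_wedge]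
  exact germV_ne_zero fun n => C.wedge_fv_ne_zero (h n)

theorem mkPt_ne (hP : C.Adm hw hU t P) (hQ : C.Adm hw hU t Q) (h : ∀ n, P n ≠ Q n) :
    C.mkPt hP ≠ C.mkPt hQ := by
  classical
  intro he
  refine C.wedge_gp_ne_zero (U := U) h ?_
  have hP0 := Adm.lam_ne_zero C hP
  have hQ0 := Adm.lam_ne_zero C hQ
  have e : ∀ i, C.gp U P i * lam t (C.gp U Q) = C.gp U Q i * lam t (C.gp U P) := fun i => by
    have h1 := congrArg (fun z : valRing hw U hU => (z : UPow U))
      (AlgHom.congr_fun he (C.chartGen t i))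
    simp only [C.coe_mkPt_chartGen] at h1
    rwa [div_eq_div_iff hP0 hQ0] at h1
  funext q
  simp only [wedge, Pi.zero_apply]
  refine (mul_left_inj' hQ0).1 ?_
  linear_combination C.gp U Q q.2 * e q.1 - C.gp U Q q.1 * e q.2

/-- Derivatives along the sequence. -/
def derPt (h : C.Adm hw hU t P) (hσ : ∀ n, P n ∉ C.sigma) : C.chartRing t →ₗ[Qb] UPow U where
  toFun a := UPow.mk U fun n => C.val (P n) (C.δ (a : F))
  map_add' a b := by
    rw [← map_add]
    refine UPow.mk_eq_mk.2 ((Adm.good C h).mono fun n hn => ?_)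
    show C.val (P n) (C.δ ((a : F) + (b : F))) = _
    rw [map_add]
    exact C.val_add (C.atLeast_δ_good (hσ n) (C.atLeast_chartRing hn a))
      (C.atLeast_δ_good (hσ n) (C.atLeast_chartRing hn b))
  map_smul' c a := by
    rw [RingHom.id_apply]
    conv_rhs => rw [Algebra.smul_def, UPow.algebraMap_eq, ← map_mul]
    refine UPow.mk_eq_mk.2 ((Adm.good C h).mono fun n hn => ?_)
    show C.val (P n) (C.δ (((c • a : C.chartRing t) : F))) = c * C.val (P n) (C.δ (a : F))
    rw [SetLike.val_smul, Derivation.map_smul]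
    exact C.val_smul (C.atLeast_δ_good (hσ n) (C.atLeast_chartRing hn a)) c

theorem derPt_mul (h : C.Adm hw hU t P) (hσ : ∀ n, P n ∉ C.sigma) (a b : C.chartRing t) :
    C.derPt h hσ (a * b) =
      algebraMap (valRing hw U hU) (UPow U) (C.mkPt h a) * C.derPt h hσ b +
        algebraMap (valRing hw U hU) (UPow U) (C.mkPt h b) * C.derPt h hσ a := by
  show UPow.mk U _ = UPow.mk U _ * UPow.mk U _ + UPow.mk U _ * UPow.mk U _
  rw [← map_mul, ← map_mul, ← map_add]
  refine UPow.mk_eq_mk.2 ((Adm.good C h).mono fun n hn => ?_)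
  show C.val (P n) (C.δ ((a : F) * (b : F))) = _
  have ha := C.atLeast_chartRing hn a
  have hb := C.atLeast_chartRing hn b
  have hda := C.atLeast_δ_good (hσ n) ha
  have hdb := C.atLeast_δ_good (hσ n) hb
  rw [Derivation.leibniz, smul_eq_mul, smul_eq_mul,
    C.val_add (by simpa using ha.mul hdb) (by simpa using hb.mul hda), C.val_mul ha hdb,
    C.val_mul hb hda]
  rfl

theorem derPt_chartGen (h : C.Adm hw hU t P) (hσ : ∀ n, P n ∉ C.sigma) (j : Fin C.M) :
    C.derPt h hσ (C.chartGen t j) =
      (lam t (C.gp U P) * germV U (fun n => C.dv (P n)) j -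
        C.gp U P j * lam t (germV U fun n => C.dv (P n))) / lam t (C.gp U P) ^ 2 := by
  rw [eq_div_iff (pow_ne_zero 2 (Adm.lam_ne_zero C h)), gp, lam_germV, lam_germV]
  show UPow.mk U _ * UPow.mk U _ ^ 2 = UPow.mk U _ * UPow.mk U _ - UPow.mk U _ * UPow.mk U _
  rw [← map_pow, ← map_mul, ← map_mul, ← map_mul, ← map_sub]
  refine UPow.mk_eq_mk.2 ((Adm.good C h).mono fun n hn => ?_)
  show C.val (P n) (C.δ (C.chartFun t j)) * lam t (C.fv (P n)) ^ 2 = _
  rw [C.val_δ_chartFun (hσ n) hn, div_mul_cancel₀ _ (pow_ne_zero 2 (show lam t (C.fv (P n)) ≠ 0 from hn))]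
  rfl

/-- The derivatives of the coordinates measure the tangent line. -/
theorem vv_derPt (h : C.Adm hw hU t P) (hσ : ∀ n, P n ∉ C.sigma) :
    vv hw hU (fun j => C.derPt h hσ (C.chartGen t j)) =
      vv hw hU (germV U fun n => C.tv (P n)) / vv hw hU (C.gp U P) ^ 2 := by
  have h0 := Adm.lam_ne_zero C h
  have e : (germV U fun n => C.tv (P n)) = wedge (C.gp U P) (germV U fun n => C.dv (P n)) := by
    rw [gp, germV_wedge]; rfl
  rw [e, ← vv_wedge_normalised (hw := hw) (hU := hU) t
    (a := fun i => (C.mkPt h (C.chartGen t i) : UPow U))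
    (fun i => gval_coe_le_one _) (C.lam_normalised h) (by
      simp only [C.derPt_chartGen h hσ, div_eq_inv_mul]
      rw [lam_smul, lam_sub]
      simp only [mul_comm (C.gp U P _)]
      rw [lam_smul, lam_smul]
      ring)]
  haveI : Nonempty (Fin C.M × Fin C.M) := ⟨(⟨0, by have := C.two_le_M; omega⟩, ⟨0, by have := C.two_le_M; omega⟩)⟩
  rw [show wedge (fun i => (C.mkPt h (C.chartGen t i) : UPow U))
      (fun j => C.derPt h hσ (C.chartGen t j)) =
      fun q => (lam t (C.gp U P) ^ 2)⁻¹ * wedge (C.gp U P) (germV U fun n => C.dv (P n)) q from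
    funext fun q => by
      simp only [wedge, C.coe_mkPt_chartGen, C.derPt_chartGen h hσ]
      field_simp
      ring,
    vv_mul_left, map_inv₀, map_pow, h, div_eq_inv_mul]

end GalCurve

end FA.MW

end
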