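import Mathlib

/-!
# Kernels of a matrix in the coordinates of a complement of a minor
-/

set_option autoImplicit false
set_option linter.unusedSectionVars false
set_option linter.style.haveILetI false

noncomputable section

open Matrix

namespace FA.MW

section Kernel

variable {L : Type} [Field L] {n r M : ℕ} (A : Matrix (Fin n) (Fin M) L)

/-- The square minor of the columns on the left of `e`. -/
def mdet (e : Fin n ⊕ Fin r ≃ Fin M) : L := (A.submatrix id (fun b => e (Sum.inl b))).det

/-- Being in the kernel. -/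
def InKer (c : Fin M → L) : Prop := ∀ a, ∑ i, A a i * c i = 0

/-- The columns on the right of `e` of a family. -/
def rdet (e : Fin n ⊕ Fin r ≃ Fin M) (T : Fin r → Fin M → L) : L :=
  (Matrix.of fun a b => T a (e (Sum.inr b))).det

/-- The kernel vectors dual to the complement of the minor. -/
def kvec (e : Fin n ⊕ Fin r ≃ Fin M) (a : Fin r) : Fin M → L := fun i =>
  match e.symm i with
  | Sum.inl b => -((A.submatrix id (fun b => e (Sum.inl b))).cramer (fun p => A p (e (Sum.inr a))) b /
      mdet A e)
  | Sum.inr c => if c = a then 1 else 0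

@[simp]
theorem kvec_inr (e : Fin n ⊕ Fin r ≃ Fin M) (a c : Fin r) :
    kvec A e a (e (Sum.inr c)) = if c = a then 1 else 0 := by
  simp [kvec]

theorem kvec_inl (e : Fin n ⊕ Fin r ≃ Fin M) (a : Fin r) (b : Fin n) :
    kvec A e a (e (Sum.inl b)) =
      -((A.submatrix id (Function.update (fun b => e (Sum.inl b)) b (e (Sum.inr a)))).det /
        mdet A e) := by
  simp only [kvec, Equiv.symm_apply_apply, Matrix.cramer_apply, neg_inj]
  congr 2
  ext p q
  rcases eq_or_ne q b with rfl | h
  · simp
  · simp [Matrix.updateCol_ne h, Function.update_of_ne h]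

theorem inKer_kvec {e : Fin n ⊕ Fin r ≃ Fin M} (he : mdet A e ≠ 0) (a : Fin r) :
    InKer A (kvec A e a) := by
  intro p
  rw [← e.sum_comp, Fintype.sum_sum_type]
  simp only [kvec_inr, mul_ite, mul_one, mul_zero, Finset.sum_ite_eq', Finset.mem_univ, if_true]
  have h := congrFun (Matrix.mulVec_cramer (A.submatrix id (fun b => e (Sum.inl b)))
    (fun q => A q (e (Sum.inr a)))) p
  simp only [Matrix.mulVec, dotProduct, Matrix.submatrix_apply, id_eq, Pi.smul_apply, smul_eq_mul] at h
  rw [Finset.sum_congr rfl (fun b _ => show A p (e (Sum.inl b)) * kvec A e a (e (Sum.inl b)) =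
    -(A p (e (Sum.inl b)) * (A.submatrix id (fun b => e (Sum.inl b))).cramer
      (fun q => A q (e (Sum.inr a))) b) / mdet A e by
    simp only [kvec, Equiv.symm_apply_apply]; ring),
    ← Finset.sum_div, Finset.sum_neg_distrib, h]
  rw [show (A.submatrix id fun b => e (Sum.inl b)).det = mdet A e from rfl, neg_div,
    mul_div_cancel_left₀ _ he, neg_add_cancel]

/-- A kernel family is determined by its right coordinates. -/
theorem eq_sum_kvec {e : Fin n ⊕ Fin r ≃ Fin M} (he : mdet A e ≠ 0) {c : Fin M → L}
    (hc : InKer A c) : c = fun i => ∑ a, c (e (Sum.inr a)) * kvec A e a i := by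
  set d : Fin M → L := fun i => c i - ∑ a, c (e (Sum.inr a)) * kvec A e a i with hd
  have hker : InKer A d := fun p => by
    simp only [hd, mul_sub, Finset.sum_sub_distrib, hc p, Finset.mul_sum, zero_sub, neg_eq_zero]
    rw [Finset.sum_comm]
    refine Finset.sum_eq_zero fun a _ => ?_
    rw [Finset.sum_congr rfl fun i _ => show A p i * (c (e (Sum.inr a)) * kvec A e a i) =
      c (e (Sum.inr a)) * (A p i * kvec A e a i) by ring, ← Finset.mul_sum, inKer_kvec A he a p,
      mul_zero]
  have hr : ∀ b, d (e (Sum.inr b)) = 0 := fun b => by simp [hd]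
  have hl : (fun b => d (e (Sum.inl b))) = 0 := by
    refine Matrix.eq_zero_of_mulVec_eq_zero he (funext fun p => ?_)
    have h := hker p
    rw [← e.sum_comp, Fintype.sum_sum_type] at h
    simp only [hr, mul_zero, Finset.sum_const_zero, add_zero] at h
    exact h
  funext i
  rw [← sub_eq_zero]
  show d i = 0
  obtain ⟨q, rfl⟩ := e.surjective i
  rcases q with b | b
  · exact congrFun hl b
  · exact hr b

/-- **Change of the minor.** -/
theorem exists_mdet_mul_rdet (e e' : Fin n ⊕ Fin r ≃ Fin M) :
    ∃ ε : L, ε * ε = 1 ∧ ∀ T : Fin r → Fin M → L, (∀ a, InKer A (T a)) →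
      mdet A e * rdet e' T = ε * (mdet A e' * rdet e T) := by
  set π : Equiv.Perm (Fin n ⊕ Fin r) := e.trans e'.symm
  refine ⟨((Equiv.Perm.sign π : ℤ) : L), ?_, fun T hT => ?_⟩
  · rw [← Int.cast_mul, ← Units.val_mul, Int.units_mul_self, Units.val_one, Int.cast_one]
  let X : Matrix (Fin n ⊕ Fin r) (Fin M) L := Matrix.of fun q i =>
    Sum.elim (fun p => A p i) (fun b => if i = e (Sum.inr b) then 1 else 0) q
  let Y : Matrix (Fin M) (Fin n ⊕ Fin r) L := Matrix.of fun i q =>
    Sum.elim (fun b => if i = e' (Sum.inl b) then 1 else 0) (fun a => T a i) q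
  have hX : (X.submatrix id e).det = mdet A e := by
    have h : X.submatrix id e = fromBlocks (A.submatrix id (fun b => e (Sum.inl b)))
        (A.submatrix id (fun b => e (Sum.inr b))) 0 1 := by
      ext (p | p) (q | q) <;> simp [X, Matrix.one_apply, eq_comm]
    rw [h, det_fromBlocks_zero₂₁, det_one, mul_one, mdet]
  have hY : (Y.submatrix e' id).det = rdet e' T := by
    have h : Y.submatrix e' id = fromBlocks 1 (Matrix.of fun b a => T a (e' (Sum.inl b))) 0
        (Matrix.of fun b a => T a (e' (Sum.inr b))) := by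
      ext (p | p) (q | q) <;> simp [Y, Matrix.one_apply]
    rw [h, det_fromBlocks_zero₂₁, det_one, one_mul, rdet, ← det_transpose]
    rfl
  have hYe : (Y.submatrix e id).det = ((Equiv.Perm.sign π : ℤ) : L) * rdet e' T := by
    have h : Y.submatrix e id = (Y.submatrix e' id).submatrix π id := by
      ext i j
      simp [π]
    rw [h, det_permute, hY]
  have hXY : (X * Y).det = mdet A e' * rdet e T := by
    have h : X * Y = fromBlocks (A.submatrix id (fun b => e' (Sum.inl b))) 0
        (Matrix.of fun b b' => if e' (Sum.inl b') = e (Sum.inr b) then 1 else 0)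
        (Matrix.of fun b a => T a (e (Sum.inr b))) := by
      ext (p | p) (q | q)
      · simp [X, Y, Matrix.mul_apply]
      · simpa [X, Y, Matrix.mul_apply] using hT q p
      · simp [X, Y, Matrix.mul_apply, eq_comm]
      · simp [X, Y, Matrix.mul_apply]
    rw [h, det_fromBlocks_zero₁₂, mdet, rdet]
    congr 1
    rw [← det_transpose]
    rfl
  have e1 : X * Y = X.submatrix id e * Y.submatrix e id :=
    (Matrix.submatrix_mul_equiv X Y id e id).symm
  rw [← hXY, e1, det_mul, hX, hYe]
  have : ((Equiv.Perm.sign π : ℤ) : L) * ((Equiv.Perm.sign π : ℤ) : L) = 1 := by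
    rw [← Int.cast_mul, ← Units.val_mul, Int.units_mul_self, Units.val_one, Int.cast_one]
  linear_combination -(mdet A e * rdet e' T) * this

/-- Independent rows have a nonzero minor. -/
theorem exists_mdet_ne_zero (hMn : n + r = M) (h : ∀ a, ∃ c : Fin M → L, ∀ b,
    ∑ i, A b i * c i = if b = a then 1 else 0) :
    ∃ e : Fin n ⊕ Fin r ≃ Fin M, mdet A e ≠ 0 := by
  classical
  choose c hc using h
  have hspan : Submodule.span L (Set.range fun i => fun b => A b i) = ⊤ := by
    refine eq_top_iff.2 fun v _ => ?_
    rw [Submodule.mem_span_range_iff_exists_fun]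
    refine ⟨fun i => ∑ a, v a * c a i, funext fun b => ?_⟩
    simp only [Finset.sum_apply, Pi.smul_apply, smul_eq_mul, Finset.sum_mul]
    rw [Finset.sum_comm, Finset.sum_congr rfl fun a _ => show
      ∑ i, v a * c a i * A b i = v a * if b = a then 1 else 0 by
        rw [← hc a b, Finset.mul_sum]; exact Finset.sum_congr rfl fun i _ => by ring]
    simp
  obtain ⟨κ, φ, hφ, hκspan, hli⟩ := exists_linearIndependent' L fun i => fun b => A b i
  haveI : Fintype κ := Fintype.ofInjective φ hφ
  have hcard : Fintype.card κ = n := by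
    rw [← Module.finrank_fin_fun (R := L) (n := n)]
    exact (Module.finrank_eq_card_basis (Module.Basis.mk hli (by rw [hκspan, hspan]))).symm
  let σ : Fin n ≃ κ := (Fintype.equivFinOfCardEq hcard).symm
  let J : Fin n → Fin M := φ ∘ σ
  have hJ : Function.Injective J := hφ.comp σ.injective
  have hcompl : Fintype.card ((Set.range J)ᶜ : Set (Fin M)) = r := by
    rw [Fintype.card_compl_set, Fintype.card_fin, Set.card_range_of_injective hJ, Fintype.card_fin]
    omega
  let e : Fin n ⊕ Fin r ≃ Fin M :=
    (Equiv.sumCongr (Equiv.ofInjective J hJ) (Fintype.equivFinOfCardEq hcompl).symm).trans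
      (Equiv.Set.sumCompl (Set.range J))
  refine ⟨e, ?_⟩
  have he : ∀ b, e (Sum.inl b) = J b := fun b => by simp [e]
  rw [mdet, show (fun b => e (Sum.inl b)) = J from funext he, ← isUnit_iff_ne_zero,
    ← Matrix.isUnit_iff_isUnit_det, ← Matrix.linearIndependent_cols_iff_isUnit]
  exact hli.comp σ σ.injective

theorem exists_rdet_eq (e : Fin n ⊕ Fin r ≃ Fin M) :
    rdet e (kvec A e) = 1 := by
  rw [rdet, show (Matrix.of fun a b => kvec A e a (e (Sum.inr b))) = 1 from
    Matrix.ext fun a b => by simp [Matrix.one_apply, eq_comm]]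
  exact det_one

theorem rdet_ne_zero {e : Fin n ⊕ Fin r ≃ Fin M} (he : mdet A e ≠ 0) {T : Fin r → Fin M → L}
    (hT : ∀ a, InKer A (T a)) (hli : LinearIndependent L T) : rdet e T ≠ 0 := by
  rw [rdet, ← isUnit_iff_ne_zero, ← Matrix.isUnit_iff_isUnit_det,
    ← Matrix.linearIndependent_rows_iff_isUnit]
  rw [Fintype.linearIndependent_iff] at hli ⊢
  intro g hg
  refine hli g ?_
  have hker : InKer A (∑ a, g a • T a) := fun p => by
    simp only [Finset.sum_apply, Pi.smul_apply, smul_eq_mul, Finset.mul_sum]
    rw [Finset.sum_comm]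
    refine Finset.sum_eq_zero fun a _ => ?_
    rw [Finset.sum_congr rfl fun i _ => show A p i * (g a * T a i) = g a * (A p i * T a i) by ring,
      ← Finset.mul_sum, hT a p, mul_zero]
  refine funext fun i => ?_
  rw [eq_sum_kvec A he hker]
  refine Finset.sum_eq_zero fun b _ => ?_
  have := congrFun hg b
  simp only [Finset.sum_apply, Pi.smul_apply, smul_eq_mul, Matrix.row_apply, Matrix.of_apply,
    Pi.zero_apply] at this ⊢
  rw [this, zero_mul]

theorem mdet_map {L' : Type} [Field L'] (σ : L →+* L') (e : Fin n ⊕ Fin r ≃ Fin M) :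
    mdet (A.map σ) e = σ (mdet A e) := by
  rw [mdet, mdet, RingHom.map_det]
  rfl

theorem kvec_map {L' : Type} [Field L'] (σ : L →+* L') (e : Fin n ⊕ Fin r ≃ Fin M) (a : Fin r)
    (i : Fin M) : kvec (A.map σ) e a i = σ (kvec A e a i) := by
  obtain ⟨q, rfl⟩ := e.surjective i
  rcases q with b | b
  · rw [kvec_inl, kvec_inl, map_neg, map_div₀, mdet_map, RingHom.map_det]
    rfl
  · rw [kvec_inr, kvec_inr]
    split_ifs <;> simp

end Kernel

/-! ### Determinants of linear forms -/

section Poly

variable {L : Type} [Field L] [CharZero L] {M r : ℕ}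

/-- The polynomial `det (∑ φ i * c a b i)`. -/
def linDet (c : Fin r → Fin r → Fin M → L) : MvPolynomial (Fin M) L :=
  (Matrix.of fun a b => ∑ i, MvPolynomial.C (c a b i) * MvPolynomial.X i).det

theorem eval_linDet (c : Fin r → Fin r → Fin M → L) (φ : Fin M → L) :
    MvPolynomial.eval φ (linDet c) = (Matrix.of fun a b => ∑ i, φ i * c a b i).det := by
  rw [linDet, RingHom.map_det]
  congr 1
  ext a b
  simp [mul_comm]

theorem degreeOf_linDet_le (c : Fin r → Fin r → Fin M → L) (i : Fin M) :
    (linDet c).degreeOf i ≤ r := by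
  classical
  rw [linDet, Matrix.det_apply']
  refine (MvPolynomial.degreeOf_sum_le _ _ _).trans (Finset.sup_le fun σ _ => ?_)
  refine (MvPolynomial.degreeOf_mul_le _ _ _).trans ?_
  rw [← map_intCast (MvPolynomial.C (σ := Fin M) (R := L)), MvPolynomial.degreeOf_C, zero_add]
  refine (MvPolynomial.degreeOf_prod_le _ _ _).trans ((Finset.sum_le_card_nsmul _ _ 1 fun a _ => ?_).trans
    (by simp))
  rw [Matrix.of_apply]
  refine (MvPolynomial.degreeOf_sum_le _ _ _).trans (Finset.sup_le fun j _ => ?_)
  refine (MvPolynomial.degreeOf_C_mul_le _ _ _).trans ?_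
  rw [MvPolynomial.degreeOf_X]
  split_ifs <;> simp

/-- The points of the grid `{0, …, r}`. -/
def gridPt (g : Fin M → Fin (r + 1)) : Fin M → L := fun i => ((g i : ℕ) : L)

/-- Determinants of linear forms proportional on the grid are proportional everywhere. -/
theorem eval_eq_of_grid {c c' : Fin r → Fin r → Fin M → L} {a : L}
    (h : ∀ g : Fin M → Fin (r + 1), MvPolynomial.eval (gridPt g) (linDet c) = a * MvPolynomial.eval (gridPt g) (linDet c'))
    (φ : Fin M → L) :
    MvPolynomial.eval φ (linDet c) = a * MvPolynomial.eval φ (linDet c') := by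
  classical
  have hz : linDet c - MvPolynomial.C a * linDet c' = 0 := by
    refine MvPolynomial.eq_zero_of_eval_zero_at_prod_finset _
      (fun _ => Finset.univ.image fun k : Fin (r + 1) => ((k : ℕ) : L)) (fun i => ?_) fun x hx => ?_
    · rw [Finset.card_image_of_injective _ (fun k k' hk => Fin.ext (Nat.cast_injective hk)),
        Finset.card_univ, Fintype.card_fin, Nat.lt_succ_iff]
      rw [sub_eq_add_neg]
      refine (MvPolynomial.degreeOf_add_le _ _ _).trans (max_le (degreeOf_linDet_le c i) ?_)
      rw [← neg_mul, ← map_neg]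
      exact (MvPolynomial.degreeOf_C_mul_le _ _ _).trans (degreeOf_linDet_le c' i)
    · have hx' : ∀ i, ∃ k : Fin (r + 1), ((k : ℕ) : L) = x i := fun i => by simpa using hx i
      choose g hg using hx'
      have : gridPt g = x := funext hg
      rw [map_sub, map_mul, MvPolynomial.eval_C, ← this, h g, sub_self]
  have := congrArg (MvPolynomial.eval φ) hz
  rw [map_sub, map_mul, MvPolynomial.eval_C, map_zero, sub_eq_zero] at this
  exact this

end Poly

end FA.MW

end
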