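import Fermat.Agent.MW.Defs

/-!
# Absolute values of the algebraic numbers over those of the rationals

Existence, the ultrametric inequality at a prime, and bounds for the absolute values of a fixed
algebraic number.
-/

set_option autoImplicit false
set_option linter.style.haveILetI false

noncomputable section

open Filter Polynomial

namespace FA.MW

local notation "Qb" => AlgebraicClosure ℚ

variable {w : AbsoluteValue Qb ℝ} {p : ℕ}

theorem IsOver.natCast_le_one (h : IsOver w p) (hp : p.Prime) (n : ℕ) : w (n : Qb) ≤ 1 := by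
  have h1 := h.2 (n : ℚ)
  rw [if_neg hp.ne_zero] at h1
  push_cast at h1
  rw [h1]
  haveI : Fact p.Prime := ⟨hp⟩
  exact_mod_cast padicNorm.of_nat n

/-- At a prime the absolute value is ultrametric. -/
theorem IsOver.add_le_max (h : IsOver w p) (hp : p.Prime) (x y : Qb) :
    w (x + y) ≤ max (w x) (w y) := by
  haveI : IsUltrametricDist (WithAbs w) :=
    IsUltrametricDist.isUltrametricDist_of_forall_norm_natCast_le_one fun n => by
      rw [WithAbs.norm_eq_apply_ofAbs, ← WithAbs.equiv_apply, map_natCast]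
      exact h.natCast_le_one hp n
  have h1 := IsUltrametricDist.norm_add_le_max (WithAbs.toAbs w x) (WithAbs.toAbs w y)
  rw [← WithAbs.toAbs_add, WithAbs.norm_eq_apply_ofAbs, WithAbs.norm_eq_apply_ofAbs,
    WithAbs.norm_eq_apply_ofAbs, WithAbs.ofAbs_toAbs, WithAbs.ofAbs_toAbs,
    WithAbs.ofAbs_toAbs] at h1
  exact h1

theorem IsOver.isNonarchimedean (h : IsOver w p) (hp : p.Prime) : IsNonarchimedean w :=
  h.add_le_max hp

/-- The absolute value of a rational number depends on the place below only. -/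
theorem IsOver.rat_eq {w' : AbsoluteValue Qb ℝ} (h : IsOver w p) (h' : IsOver w' p) (q : ℚ) :
    w (algebraMap ℚ Qb q) = w' (algebraMap ℚ Qb q) := by
  rw [eq_ratCast, h.2 q, h'.2 q]

/-- A monic rational relation of an algebraic number bounds its absolute value. -/
theorem exists_relation (a : Qb) : ∃ (d : ℕ) (c : Fin d → ℚ),
    a ^ d = ∑ i : Fin d, algebraMap ℚ Qb (c i) * a ^ (i : ℕ) := by
  haveI : Algebra.IsAlgebraic ℚ Qb := AlgebraicClosure.isAlgebraic ℚ
  have ha : IsIntegral ℚ a := Algebra.IsIntegral.isIntegral a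
  let P := minpoly ℚ a
  refine ⟨P.natDegree, fun i => -P.coeff i, ?_⟩
  have h := minpoly.aeval ℚ a
  rw [Polynomial.aeval_def, (minpoly.monic ha).as_sum, eval₂_add, eval₂_pow, eval₂_X,
    eval₂_finsetSum] at h
  rw [eq_neg_of_add_eq_zero_left h, ← Finset.sum_neg_distrib, Finset.sum_range]
  refine Finset.sum_congr rfl fun i _ => ?_
  rw [eval₂_mul, eval₂_C, eval₂_pow, eval₂_X, map_neg, neg_mul]

/-- The absolute values of an algebraic number at the places over `p` are bounded. -/
theorem exists_le_of_isOver (a : Qb) (p : ℕ) :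
    ∃ B : ℝ, ∀ w : AbsoluteValue Qb ℝ, IsOver w p → w a ≤ B := by
  obtain ⟨d, c, hc⟩ := exists_relation a
  let M : ℝ := ∑ i : Fin d, if p = 0 then |(c i : ℝ)| else ((padicNorm p (c i) : ℚ) : ℝ)
  refine ⟨max 1 M, fun w hw => ?_⟩
  rcases le_or_gt (w a) 1 with h1 | h1
  · exact h1.trans (le_max_left _ _)
  rcases Nat.eq_zero_or_pos d with rfl | hd
  · simp at hc
  refine le_trans ?_ (le_max_right _ _)
  have h2 : w a ^ d ≤ M * w a ^ (d - 1) := by
    calc w a ^ d = w (a ^ d) := (map_pow w a d).symm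
      _ ≤ ∑ i : Fin d, w (algebraMap ℚ Qb (c i) * a ^ (i : ℕ)) := by
        rw [hc]; exact w.sum_le _ _
      _ ≤ ∑ i : Fin d, w (algebraMap ℚ Qb (c i)) * w a ^ (d - 1) := by
        refine Finset.sum_le_sum fun i _ => ?_
        rw [map_mul, map_pow]
        exact mul_le_mul_of_nonneg_left (pow_le_pow_right₀ h1.le (by omega)) (apply_nonneg w _)
      _ = M * w a ^ (d - 1) := by
        rw [← Finset.sum_mul]
        congr 1
        exact Finset.sum_congr rfl fun i _ => by rw [eq_ratCast, hw.2]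
  obtain ⟨e, rfl⟩ : ∃ e, d = e + 1 := ⟨d - 1, by omega⟩
  rw [Nat.add_sub_cancel, pow_succ'] at h2
  exact le_of_mul_le_mul_right h2 (pow_pos (one_pos.trans h1) _)

/-- The logarithms of the absolute values over `p` of a nonzero algebraic number are bounded. -/
theorem exists_abs_log_le {a : Qb} (ha : a ≠ 0) (p : ℕ) :
    ∃ B : ℝ, ∀ w : AbsoluteValue Qb ℝ, IsOver w p → |Real.log (w a)| ≤ B := by
  obtain ⟨B, hB⟩ := exists_le_of_isOver a p
  obtain ⟨B', hB'⟩ := exists_le_of_isOver a⁻¹ p
  refine ⟨|Real.log B| + |Real.log B'|, fun w hw => ?_⟩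
  have hpos : 0 < w a := w.pos ha
  have h1 := Real.log_le_log hpos (hB w hw)
  have h2 := Real.log_le_log (w.pos (inv_ne_zero ha)) (hB' w hw)
  rw [map_inv₀, Real.log_inv] at h2
  have := le_abs_self (Real.log B)
  have := le_abs_self (Real.log B')
  have := abs_nonneg (Real.log B)
  have := abs_nonneg (Real.log B')
  rw [abs_le]
  constructor <;> linarith

theorem padicNorm_le_one_of_den {p : ℕ} (hp : p.Prime) {q : ℚ} (hq : q.den < p) :
    padicNorm p q ≤ 1 := by
  haveI : Fact p.Prime := ⟨hp⟩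
  rcases eq_or_ne q 0 with rfl | h0
  · simp
  have hd : ¬ p ∣ q.den := fun h => absurd (Nat.le_of_dvd q.den_pos h) (not_le.2 hq)
  rw [← Rat.num_div_den q, padicNorm.div, (padicNorm.nat_eq_one_iff q.den).2 hd, div_one]
  exact padicNorm.of_int q.num

/-- An algebraic number has absolute value at most one at almost all places. -/
theorem exists_forall_le_one (a : Qb) :
    ∃ P : ℕ, ∀ p, P ≤ p → p.Prime → ∀ w : AbsoluteValue Qb ℝ, IsOver w p → w a ≤ 1 := by
  obtain ⟨d, c, hc⟩ := exists_relation a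
  refine ⟨(∑ i : Fin d, (c i).den) + 1, fun p hp hpp w hw => ?_⟩
  by_contra hlt
  push Not at hlt
  rcases Nat.eq_zero_or_pos d with rfl | hd
  · simp at hc
  have hterm : ∀ i : Fin d, w (algebraMap ℚ Qb (c i) * a ^ (i : ℕ)) < w a ^ d := fun i => by
    rw [map_mul, map_pow]
    calc w (algebraMap ℚ Qb (c i)) * w a ^ (i : ℕ) ≤ 1 * w a ^ (i : ℕ) := by
          refine mul_le_mul_of_nonneg_right ?_ (pow_nonneg (apply_nonneg w a) _)
          rw [eq_ratCast, hw.2, if_neg hpp.ne_zero]
          have : (c i).den < p := lt_of_le_of_lt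
            (Finset.single_le_sum (f := fun i => (c i).den) (fun _ _ => Nat.zero_le _)
              (Finset.mem_univ i)) (by omega)
          exact_mod_cast padicNorm_le_one_of_den hpp this
      _ < w a ^ d := by rw [one_mul]; exact pow_lt_pow_right₀ hlt i.2
  have : Nonempty (Fin d) := ⟨⟨0, hd⟩⟩
  obtain ⟨i, -, hi⟩ := IsNonarchimedean.finset_image_add_of_nonempty (f := w)
    (hw.isNonarchimedean hpp) (fun i : Fin d => algebraMap ℚ Qb (c i) * a ^ (i : ℕ))
    Finset.univ_nonempty
  rw [← hc, map_pow] at hi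
  exact absurd hi (not_le.2 (hterm i))

/-- A nonzero algebraic number has absolute value one at almost all places. -/
theorem exists_forall_eq_one {a : Qb} (ha : a ≠ 0) :
    ∃ P : ℕ, ∀ p, P ≤ p → p.Prime → ∀ w : AbsoluteValue Qb ℝ, IsOver w p → w a = 1 := by
  obtain ⟨P, hP⟩ := exists_forall_le_one a
  obtain ⟨P', hP'⟩ := exists_forall_le_one a⁻¹
  refine ⟨max P P', fun p hp hpp w hw => le_antisymm (hP p ((le_max_left _ _).trans hp) hpp w hw) ?_⟩
  have h := hP' p ((le_max_right _ _).trans hp) hpp w hw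
  rwa [map_inv₀, inv_le_one₀ (w.pos ha)] at h

/-- Every place of the rationals extends to the algebraic numbers. -/
theorem exists_isOver {p : ℕ} (hp : p = 0 ∨ p.Prime) : ∃ w : AbsoluteValue Qb ℝ, IsOver w p := by
  haveI : Algebra.IsAlgebraic ℚ Qb := AlgebraicClosure.isAlgebraic ℚ
  rcases hp with rfl | hp
  · let φ : Qb →+* ℂ := (IsAlgClosed.lift (R := ℚ) (S := Qb) (M := ℂ)).toRingHom
    refine ⟨(NormedField.toAbsoluteValue ℂ).comp φ.injective, Or.inl rfl, fun q => ?_⟩
    rw [if_pos rfl]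
    show ‖φ (q : Qb)‖ = _
    rw [map_ratCast]
    exact Complex.norm_ratCast q
  · haveI : Fact p.Prime := ⟨hp⟩
    let φ : Qb →+* PadicAlgCl p :=
      (IsAlgClosed.lift (R := ℚ) (S := Qb) (M := PadicAlgCl p)).toRingHom
    refine ⟨(NormedField.toAbsoluteValue (PadicAlgCl p)).comp φ.injective, Or.inr hp, fun q => ?_⟩
    rw [if_neg hp.ne_zero]
    show ‖φ (q : Qb)‖ = _
    rw [map_ratCast, ← map_ratCast (algebraMap ℚ_[p] (PadicAlgCl p))]
    exact (PadicAlgCl.norm_extends p (q : ℚ_[p])).trans (Padic.eq_padicNorm q)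

end FA.MW

end
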