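import Fermat.Agent.MW.HeightLocal

/-!
# An absolute logarithmic height

The sum over the places of the rationals of the mean logarithm of the sup norm over the conjugate
absolute values.
-/

set_option autoImplicit false
set_option linter.style.haveILetI false

noncomputable section

open Filter

namespace FA.MW

local notation "Qb" => AlgebraicClosure ℚ

set_option linter.unusedSectionVars false

variable {ι : Type} [Fintype ι]

theorem le_nrm (w : AbsoluteValue Qb ℝ) (x : ι → Qb) (i : ι) : w (x i) ≤ nrm w x :=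
  le_ciSup (Finite.bddAbove_range fun i => w (x i)) i

theorem nrm_eq_of_forall {w : AbsoluteValue Qb ℝ} {x : ι → Qb} {i₀ : ι} (h : ∀ i, w (x i) ≤ w (x i₀)) :
    nrm w x = w (x i₀) :=
  haveI : Nonempty ι := ⟨i₀⟩
  le_antisymm (ciSup_le h) (le_nrm w x i₀)

theorem nrm_zero (w : AbsoluteValue Qb ℝ) : nrm w (0 : ι → Qb) = 0 := by
  rcases isEmpty_or_nonempty ι with h | h
  · exact Real.iSup_of_isEmpty _
  · simp [nrm]

theorem nrm_pos (w : AbsoluteValue Qb ℝ) {x : ι → Qb} {i : ι} (hi : x i ≠ 0) : 0 < nrm w x :=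
  (w.pos hi).trans_le (le_nrm w x i)

/-- The field of the coordinates. -/
def fieldOf (x : ι → Qb) : IntermediateField ℚ Qb := IntermediateField.adjoin ℚ (Set.range x)

theorem mem_fieldOf (x : ι → Qb) (i : ι) : x i ∈ fieldOf x :=
  IntermediateField.subset_adjoin ℚ _ ⟨i, rfl⟩

instance (x : ι → Qb) : FiniteDimensional ℚ (fieldOf x) :=
  haveI : Algebra.IsAlgebraic ℚ Qb := AlgebraicClosure.isAlgebraic ℚ
  IntermediateField.finiteDimensional_adjoin fun a _ => (Algebra.IsIntegral.isIntegral a)

/-- The logarithm of the sup norm at a conjugate of the chosen absolute value. -/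
def locTerm (p : ℕ) (x : ι → Qb) (σ : Qb →ₐ[ℚ] Qb) : ℝ :=
  open scoped Classical in
  if hp : IsPlace p then Real.log (nrm (conjPlc p hp σ) x) else 0

theorem dependsOn_locTerm (p : ℕ) (x : ι → Qb) : DependsOn (fieldOf x) (locTerm p x) := by
  intro σ τ h
  unfold locTerm
  split_ifs with hp
  · congr 1
    unfold nrm
    congr 1
    funext i
    rw [conjPlc_apply, conjPlc_apply]
    exact congrArg _ (h ⟨x i, mem_fieldOf x i⟩)
  · rfl

/-- The local height. -/
def locHeight (p : ℕ) (x : ι → Qb) : ℝ := avg (fieldOf x) (locTerm p x)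

/-- The height. -/
def absHeight (x : ι → Qb) : ℝ := ∑ᶠ p, locHeight p x

theorem locHeight_eq (p : ℕ) (x : ι → Qb) {F : IntermediateField ℚ Qb} [FiniteDimensional ℚ F]
    (h : fieldOf x ≤ F) : locHeight p x = avg F (locTerm p x) :=
  (avg_eq_of_le h (dependsOn_locTerm p x)).symm

theorem locHeight_of_not_place {p : ℕ} (hp : ¬ IsPlace p) (x : ι → Qb) : locHeight p x = 0 :=
  (avg_congr fun σ => dif_neg hp).trans (avg_const 0)

theorem locTerm_eq {p : ℕ} (hp : IsPlace p) (x : ι → Qb) (σ : Qb →ₐ[ℚ] Qb) :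
    locTerm p x σ = Real.log (nrm (conjPlc p hp σ) x) := dif_pos hp

theorem locHeight_zero (p : ℕ) : locHeight p (0 : ι → Qb) = 0 := by
  refine (avg_congr fun σ => ?_).trans (avg_const 0)
  rw [locTerm]
  split_ifs
  · rw [nrm_zero, Real.log_zero]
  · rfl

/-- Almost all places do not contribute. -/
theorem locHeight_support_finite (x : ι → Qb) :
    (Function.support fun p => locHeight p x).Finite := by
  classical
  by_cases hx : x = 0
  · subst hx
    simp [locHeight_zero]
  obtain ⟨i₀, hi₀⟩ := Function.ne_iff.1 hx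
  choose P hP using fun i : {i // x i ≠ 0} => exists_forall_eq_one i.2
  refine (Set.finite_le_nat (∑ i, P i)).subset fun p hp => ?_
  by_contra hlt
  simp only [Set.mem_setOf_eq, not_le] at hlt
  by_cases hpl : IsPlace p
  swap
  · exact hp (locHeight_of_not_place hpl x)
  have hpp : p.Prime := hpl.resolve_left (by omega)
  refine hp ((avg_congr fun σ => ?_).trans (avg_const 0))
  rw [locTerm_eq hpl]
  have h1 : ∀ i, x i ≠ 0 → conjPlc p hpl σ (x i) = 1 := fun i hi =>
    hP ⟨i, hi⟩ p ((Finset.single_le_sum (fun j _ => Nat.zero_le (P j)) (Finset.mem_univ _)).trans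
      hlt.le) hpp _ (conjPlc_isOver p hpl σ)
  rw [nrm_eq_of_forall (i₀ := i₀) fun i => ?_, h1 i₀ hi₀, Real.log_one]
  rcases eq_or_ne (x i) 0 with h | h
  · rw [h, map_zero]; exact apply_nonneg _ _
  · rw [h1 i h, h1 i₀ hi₀]

/-- The mean of the logarithm of the absolute value of one coordinate. -/
theorem avg_log_coord (x : ι → Qb) {i : ι} (hi : x i ≠ 0) {p : ℕ} (hp : IsPlace p) :
    avg (fieldOf x) (fun σ => Real.log (conjPlc p hp σ (x i))) =
      ratLoc p (Algebra.norm ℚ (⟨x i, mem_fieldOf x i⟩ : fieldOf x)) /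
        (Module.finrank ℚ (fieldOf x) : ℝ) :=
  avg_log_conj (c := (⟨x i, mem_fieldOf x i⟩ : fieldOf x))
    (fun h => hi (congrArg Subtype.val h)) p hp

theorem norm_coord_ne_zero (x : ι → Qb) {i : ι} (hi : x i ≠ 0) :
    Algebra.norm ℚ (⟨x i, mem_fieldOf x i⟩ : fieldOf x) ≠ 0 :=
  Algebra.norm_ne_zero_iff.2 fun h => hi (congrArg Subtype.val h)

/-- The product formula for one coordinate. -/
theorem finsum_avg_log_coord (x : ι → Qb) {i : ι} (hi : x i ≠ 0) :
    ∑ᶠ p, ratLoc p (Algebra.norm ℚ (⟨x i, mem_fieldOf x i⟩ : fieldOf x)) /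
        (Module.finrank ℚ (fieldOf x) : ℝ) = 0 := by
  simp only [div_eq_mul_inv]
  rw [← finsum_mul _ _, finsum_ratLoc (norm_coord_ne_zero x hi), zero_mul]

theorem ratLoc_of_not_place {p : ℕ} (hp : ¬ IsPlace p) (q : ℚ) : ratLoc p q = 0 := by
  simp only [IsPlace, not_or] at hp
  simp [ratLoc, hp.1, hp.2]

theorem absHeight_nonneg (x : ι → Qb) : 0 ≤ absHeight x := by
  by_cases hx : x = 0
  · subst hx
    simp [absHeight, locHeight_zero]
  obtain ⟨i₀, hi₀⟩ := Function.ne_iff.1 hx
  rw [← finsum_avg_log_coord x hi₀]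
  refine finsum_le_finsum' ?_ (locHeight_support_finite x) fun p => ?_
  · exact (ratLoc_support_finite
      (Algebra.norm ℚ (⟨x i₀, mem_fieldOf x i₀⟩ : fieldOf x))).subset fun p hp => fun h' => hp (by
        show ratLoc p _ / _ = 0
        rw [show ratLoc p (Algebra.norm ℚ (⟨x i₀, mem_fieldOf x i₀⟩ : fieldOf x)) = 0 from h',
          zero_div])
  by_cases hp : IsPlace p
  · rw [← avg_log_coord x hi₀ hp]
    refine avg_mono fun σ => ?_
    rw [locTerm_eq hp]
    exact Real.log_le_log ((conjPlc p hp σ).pos hi₀) (le_nrm _ x i₀)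
  · rw [ratLoc_of_not_place hp, zero_div, locHeight_of_not_place hp]

theorem absHeight_subsingleton [Subsingleton ι] (x : ι → Qb) : absHeight x = 0 := by
  by_cases hx : x = 0
  · subst hx
    simp [absHeight, locHeight_zero]
  obtain ⟨i₀, hi₀⟩ := Function.ne_iff.1 hx
  rw [← finsum_avg_log_coord x hi₀]
  refine finsum_congr fun p => ?_
  by_cases hp : IsPlace p
  · rw [← avg_log_coord x hi₀ hp]
    refine avg_congr fun σ => ?_
    rw [locTerm_eq hp, nrm_eq_of_forall (i₀ := i₀) fun i => by rw [Subsingleton.elim i i₀]]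
  · rw [ratLoc_of_not_place hp, zero_div, locHeight_of_not_place hp]

theorem absHeight_sum_le {κ : Type} [Fintype κ] {ι : κ → Type} [∀ k, Fintype (ι k)] (a : κ → ℝ)
    (x : ∀ k, ι k → Qb) (C : ℕ →₀ ℝ)
    (h : ∀ (p : ℕ) (w : AbsoluteValue Qb ℝ), IsOver w p →
      ∑ k, a k * Real.log (nrm w (x k)) ≤ C p) :
    ∑ k, a k * absHeight (x k) ≤ C.sum fun _ c => max c 0 := by
  classical
  let S : Finset ℕ := C.support ∪ Finset.univ.biUnion fun k => (locHeight_support_finite (x k)).toFinset
  have hk : ∀ k, absHeight (x k) = ∑ p ∈ S, locHeight p (x k) := fun k =>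
    finsum_eq_sum_of_support_subset _ fun p hp => by
      simp only [S, Finset.coe_union, Finset.coe_biUnion, Set.mem_union, Set.mem_iUnion]
      exact Or.inr ⟨k, Finset.mem_coe.2 (Finset.mem_univ k), by simpa using hp⟩
  have hC : (C.sum fun _ c => max c 0) = ∑ p ∈ S, max (C p) 0 :=
    Finset.sum_subset Finset.subset_union_left fun p _ hp => by
      show max (C p) 0 = 0
      rw [Finsupp.notMem_support_iff.1 hp, max_self]
  simp only [hk, Finset.mul_sum]
  rw [Finset.sum_comm, hC]
  refine Finset.sum_le_sum fun p _ => ?_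
  by_cases hp : IsPlace p
  swap
  · simp [locHeight_of_not_place hp]
  refine le_trans ?_ (le_max_left _ _)
  let F : IntermediateField ℚ Qb := IntermediateField.adjoin ℚ (⋃ k, Set.range (x k))
  haveI : Algebra.IsAlgebraic ℚ Qb := AlgebraicClosure.isAlgebraic ℚ
  haveI : FiniteDimensional ℚ F :=
    IntermediateField.finiteDimensional_adjoin fun b _ => Algebra.IsIntegral.isIntegral b
  have hle : ∀ k, fieldOf (x k) ≤ F := fun k =>
    IntermediateField.adjoin.mono ℚ _ _ (Set.subset_iUnion (fun k => Set.range (x k)) k)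
  rw [Finset.sum_congr rfl fun k _ => by rw [locHeight_eq p (x k) (hle k)], ← avg_sum]
  refine (avg_mono fun σ => ?_).trans (avg_const (C p)).le
  simp only [locTerm_eq hp]
  exact h p _ (conjPlc_isOver p hp σ)

/-- The place part of a rational coordinate of a vector with a coordinate one. -/
theorem ratLoc_le_locHeight {x : ι → ℚ} {i₀ : ι} (h₀ : x i₀ = 1) (i : ι) (p : ℕ) :
    (if p = 0 then max 0 (Real.log |(x i : ℝ)|) else -ratLoc p ((x i).den : ℚ)) ≤
      locHeight p fun j => (x j : Qb) := by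
  have hone : ∀ w : AbsoluteValue Qb ℝ, 0 ≤ Real.log (nrm w fun j => (x j : Qb)) := fun w =>
    Real.log_nonneg (by simpa [h₀] using le_nrm w (fun j => (x j : Qb)) i₀)
  by_cases hp : IsPlace p
  swap
  · have h0 : p ≠ 0 := fun h => hp (Or.inl h)
    rw [if_neg h0, ratLoc_of_not_place hp, neg_zero, locHeight_of_not_place hp]
  refine (avg_const _).ge.trans (avg_mono fun σ => ?_)
  rw [locTerm_eq hp]
  have hw := conjPlc_isOver p hp σ
  generalize conjPlc p hp σ = w at hw
  split_ifs with h0
  · refine max_le (hone w) ?_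
    rcases eq_or_ne (x i) 0 with h | h
    · rw [h, Rat.cast_zero, abs_zero, Real.log_zero]; exact hone w
    refine Real.log_le_log (abs_pos.2 (Rat.cast_ne_zero.2 h)) ?_
    refine le_trans ?_ (le_nrm w _ i)
    rw [hw.2, if_pos h0]
  · have hpp : p.Prime := hp.resolve_left h0
    haveI : Fact p.Prime := ⟨hpp⟩
    by_cases hd : p ∣ (x i).den
    swap
    · rw [ratLoc, if_neg h0, if_pos hpp, (padicNorm.nat_eq_one_iff _).2 hd, Rat.cast_one,
        Real.log_one, neg_zero]
      exact hone w
    have hnum : ¬ (p : ℤ) ∣ (x i).num := fun hn =>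
      hpp.ne_one (Nat.dvd_one.1 ((x i).reduced ▸ Nat.dvd_gcd (Int.natCast_dvd.1 hn) hd))
    have hval : w (x i : Qb) = ((padicNorm p ((x i).den : ℚ) : ℚ) : ℝ)⁻¹ := by
      rw [hw.2, if_neg h0]
      conv_lhs => rw [← Rat.num_div_den (x i)]
      rw [padicNorm.div, (padicNorm.int_eq_one_iff _).2 hnum, Rat.cast_div, Rat.cast_one, one_div]
    rw [ratLoc, if_neg h0, if_pos hpp, ← Real.log_inv]
    refine Real.log_le_log ?_ (hval ▸ le_nrm w (fun j => (x j : Qb)) i)
    rw [inv_pos, Rat.cast_pos]
    exact lt_of_le_of_ne (padicNorm.nonneg _)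
      (padicNorm.nonzero (Nat.cast_ne_zero.2 (x i).den_nz)).symm

/-- **Northcott over the rationals.** -/
theorem absHeight_northcott (i₀ : ι) (B : ℝ) :
    {x : ι → ℚ | x i₀ = 1 ∧ absHeight (fun i => (x i : Qb)) ≤ B}.Finite := by
  classical
  have hbound : ∀ x : ι → ℚ, x i₀ = 1 → absHeight (fun i => (x i : Qb)) ≤ B → ∀ i,
      Real.log (x i).den + max 0 (Real.log |(x i : ℝ)|) ≤ B := fun x h₀ hB i => by
    let g : ℕ → ℝ := fun p =>
      if p = 0 then max 0 (Real.log |(x i : ℝ)|) else -ratLoc p ((x i).den : ℚ)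
    have hgfin : (Function.support g).Finite :=
      ((Set.finite_singleton 0).union (ratLoc_support_finite ((x i).den : ℚ))).subset
        fun p hp => by
        by_cases h : p = 0
        · exact Or.inl h
        · refine Or.inr fun h' => hp ?_
          simp only at h'
          show (if p = 0 then _ else _) = 0
          rw [if_neg h, h', neg_zero]
    have heq : ∑ᶠ p, g p = Real.log (x i).den + max 0 (Real.log |(x i : ℝ)|) := by
      let d : ℕ → ℝ := fun p =>
        if p = 0 then Real.log (x i).den + max 0 (Real.log |(x i : ℝ)|) else 0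
      have hsplit : ∀ p, g p = d p - ratLoc p ((x i).den : ℚ) := fun p => by
        simp only [g, d]
        split_ifs with h
        · subst h; simp [ratLoc]
        · simp
      have hd : (Function.support d).Finite :=
        (Set.finite_singleton 0).subset fun p hp => by_contra fun h => hp (if_neg h)
      rw [finsum_congr hsplit, finsum_sub_distrib hd (ratLoc_support_finite _),
        finsum_ratLoc_natCast (x i).den_nz, sub_zero,
        finsum_eq_single d 0 fun p hp => if_neg hp]
      exact if_pos rfl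
    rw [← heq]
    exact (finsum_le_finsum' hgfin (locHeight_support_finite _)
      fun p => ratLoc_le_locHeight h₀ i p).trans hB
  let K : ℕ := ⌈Real.exp B⌉₊
  let T : Set ℚ := (fun q : ℤ × ℕ => (q.1 : ℚ) / (q.2 : ℚ)) ''
    ((Set.Icc (-((K : ℤ) * K)) ((K : ℤ) * K)) ×ˢ (Set.Iic K))
  have hT : T.Finite := ((Set.finite_Icc _ _).prod (Set.finite_Iic K)).image _
  refine (Set.Finite.pi fun _ => hT).subset fun x hx i _ => ?_
  have h := hbound x hx.1 hx.2 i
  refine ⟨((x i).num, (x i).den), ⟨?_, ?_⟩, Rat.num_div_den _⟩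
  · have hd : (0 : ℝ) < (x i).den := Nat.cast_pos.2 (x i).den_pos
    have h1 : |(x i : ℝ)| ≤ Real.exp B := by
      rcases eq_or_ne (x i) 0 with h0 | h0
      · rw [h0, Rat.cast_zero, abs_zero]; exact (Real.exp_pos B).le
      rw [← Real.log_le_iff_le_exp (abs_pos.2 (Rat.cast_ne_zero.2 h0))]
      linarith [le_max_right (0 : ℝ) (Real.log |(x i : ℝ)|),
        Real.log_nonneg (Nat.one_le_cast.2 (x i).den_pos : (1 : ℝ) ≤ (x i).den)]
    have h2 : ((x i).den : ℝ) ≤ Real.exp B := by
      rw [← Real.log_le_iff_le_exp hd]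
      linarith [le_max_left (0 : ℝ) (Real.log |(x i : ℝ)|)]
    have hK : Real.exp B ≤ (K : ℝ) := Nat.le_ceil _
    have h3 : |((x i).num : ℝ)| ≤ (K : ℝ) * K := by
      have he : ((x i).num : ℝ) = (x i : ℝ) * (x i).den := by
        rw [Rat.cast_def, div_mul_cancel₀ _ hd.ne']
      rw [he, abs_mul, abs_of_pos hd]
      exact mul_le_mul (h1.trans hK) (h2.trans hK) hd.le (Nat.cast_nonneg _)
    rw [abs_le] at h3
    exact ⟨by exact_mod_cast h3.1, by exact_mod_cast h3.2⟩
  · show (x i).den ≤ K
    have hd : (0 : ℝ) < (x i).den := Nat.cast_pos.2 (x i).den_pos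
    have h2 : ((x i).den : ℝ) ≤ Real.exp B := by
      rw [← Real.log_le_iff_le_exp hd]
      linarith [le_max_left (0 : ℝ) (Real.log |(x i : ℝ)|)]
    exact_mod_cast h2.trans (Nat.le_ceil _)

/-- **The absolute height.** -/
theorem heightFn_exists : Nonempty HeightFn :=
  ⟨{ h := fun {ι} _ x => absHeight x
     nonneg := fun x => absHeight_nonneg x
     subsingleton := fun x => absHeight_subsingleton x
     sum_le := fun a x _ C hC => absHeight_sum_le a x C hC
     northcott := fun i₀ B => absHeight_northcott i₀ B }⟩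

end FA.MW

end
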