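import Fermat.Agent.MW.Places
import Mathlib.Order.Filter.FilterProduct

/-!
# Bounds uniform in the place and the configuration

A family unbounded over the places gives a tame sequence of rescaled absolute values, and along an
ultrafilter the bounded elements of such a sequence form a valuation ring of the ultrapower of the
algebraic numbers.
-/

set_option autoImplicit false
set_option linter.style.haveILetI false

noncomputable section

open Filter

namespace FA.MW

local notation "Qb" => AlgebraicClosure ℚ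

/-! ### The compactness principle -/

theorem isTame_bounded {p : ℕ} (w : ℕ → AbsoluteValue Qb ℝ) (hw : ∀ n, IsOver (w n) p) :
    IsTame w fun _ => 1 where
  pos _ := one_pos
  const a ha := by
    obtain ⟨B, hB⟩ := exists_abs_log_le ha p
    exact ⟨B, Eventually.of_forall fun n => by rw [one_mul]; exact hB _ (hw n)⟩
  add := by
    refine ⟨2, Eventually.of_forall fun n x y => ?_⟩
    simp only [Real.rpow_one]
    refine ((w n).add_le x y).trans ?_
    rw [two_mul]
    exact add_le_add (le_max_left _ _) (le_max_right _ _)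

theorem isTame_moving {p : ℕ → ℕ} (hp : ∀ n, (p n).Prime) (hlim : Tendsto p atTop atTop)
    (w : ℕ → AbsoluteValue Qb ℝ) (hw : ∀ n, IsOver (w n) (p n)) {s : ℕ → ℝ} (hs : ∀ n, 0 < s n) :
    IsTame w s where
  pos := hs
  const a ha := by
    obtain ⟨P, hP⟩ := exists_forall_eq_one ha
    refine ⟨0, (tendsto_atTop.1 hlim P).mono fun n hn => ?_⟩
    rw [hP _ hn (hp n) _ (hw n), Real.log_one, mul_zero, abs_zero]
  add := by
    refine ⟨1, Eventually.of_forall fun n x y => ?_⟩
    rw [one_mul]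
    have h := (hw n).add_le_max (hp n) x y
    rcases le_max_iff.1 h with h | h
    · exact (Real.rpow_le_rpow (apply_nonneg _ _) h (hs n).le).trans (le_max_left _ _)
    · exact (Real.rpow_le_rpow (apply_nonneg _ _) h (hs n).le).trans (le_max_right _ _)

/-- A sequence which is at least `n` at stage `n` is not bounded along an ultrafilter at infinity. -/
theorem false_of_natCast_le {f : ℕ → ℝ} (hf : ∀ n : ℕ, (n : ℝ) ≤ f n)
    (h : ∀ U : Ultrafilter ℕ, (U : Filter ℕ) ≤ atTop → ∃ C : ℝ, ∀ᶠ n in (U : Filter ℕ), f n ≤ C) :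
    False := by
  obtain ⟨C, hC⟩ := h (Ultrafilter.of atTop) (Ultrafilter.of_le atTop)
  have h1 : ∀ᶠ n : ℕ in (Ultrafilter.of (atTop : Filter ℕ) : Filter ℕ), C < f n :=
    ((tendsto_natCast_atTop_atTop.eventually_gt_atTop C).filter_mono
      (Ultrafilter.of_le atTop)).mono fun n hn => hn.trans_le (hf n)
  obtain ⟨n, h2, h3⟩ := (hC.and h1).exists
  exact absurd h2 (not_le.2 h3)

/-- **Uniform bounds over the places.** -/
theorem uniformBound : UniformBound := by
  classical
  intro E L h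
  have hbdd : ∀ p : ℕ, ∃ C : ℝ, ∀ w, IsOver w p → ∀ e : E, L w e ≤ C := by
    intro p
    by_contra hc
    push Not at hc
    choose w hw e he using fun n : ℕ => hc (n : ℝ)
    refine false_of_natCast_le (f := fun n => L (w n) (e n)) (fun n => (he n).le) fun U hU => ?_
    obtain ⟨C, hC⟩ := h w (fun _ => 1) e (isTame_bounded w hw) U hU
    exact ⟨C, hC.mono fun n hn => by rwa [one_mul] at hn⟩
  choose B hB using hbdd
  let P : Set ℕ := {p | p.Prime ∧ ∃ w, IsOver w p ∧ ∃ e, 0 < L w e}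
  have hP : P.Finite := by
    by_contra hinf
    have hsp : ∀ n, Nat.nth (· ∈ P) n ∈ P := fun n => Nat.nth_mem_of_infinite hinf n
    choose hpr w hw e he using hsp
    let s : ℕ → ℝ := fun n => ((n : ℝ) + 1) / L (w n) (e n)
    have hlim : Tendsto (Nat.nth (· ∈ P)) atTop atTop :=
      (Nat.nth_strictMono hinf).tendsto_atTop
    refine false_of_natCast_le (f := fun n => s n * L (w n) (e n)) (fun n => ?_) fun U hU =>
      h w s e (isTame_moving hpr hlim w hw fun n => div_pos (by positivity) (he n)) U hU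
    show (n : ℝ) ≤ _ / _ * _
    rw [div_mul_cancel₀ _ (he n).ne']
    exact le_add_of_nonneg_right zero_le_one
  refine ⟨Finsupp.onFinset (insert 0 hP.toFinset)
    (fun p => if p ∈ insert 0 hP.toFinset then B p else 0) (fun p hp => ?_), fun p w hw e => ?_⟩
  · by_contra hmem
    exact hp (if_neg hmem)
  rw [Finsupp.onFinset_apply]
  split_ifs with hmem
  · exact hB p w hw e
  · simp only [Finset.mem_insert, Set.Finite.mem_toFinset, not_or] at hmem
    refine not_lt.1 fun hpos => hmem.2 ⟨?_, w, hw, e, hpos⟩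
    exact hw.1.resolve_left hmem.1

/-! ### The ultrapower and its valuation ring -/

/-- The ultrapower of the algebraic numbers. -/
def UPow (U : Ultrafilter ℕ) : Type := (U : Filter ℕ).Germ Qb

namespace UPow

variable {U : Ultrafilter ℕ}

instance : Field (UPow U) := inferInstanceAs (Field ((U : Filter ℕ).Germ Qb))

/-- The class of a sequence. -/
def mk (U : Ultrafilter ℕ) : (ℕ → Qb) →+* UPow U := Filter.Germ.coeRingHom _

instance : Algebra Qb (UPow U) :=
  ((mk U).comp (Pi.constRingHom ℕ Qb)).toAlgebra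

theorem algebraMap_eq (c : Qb) : algebraMap Qb (UPow U) c = mk U fun _ => c := rfl

theorem mk_surjective : Function.Surjective (mk U) := fun x =>
  Filter.Germ.inductionOn x fun f => ⟨f, rfl⟩

theorem mk_eq_mk {f g : ℕ → Qb} : mk U f = mk U g ↔ ∀ᶠ n in (U : Filter ℕ), f n = g n :=
  Filter.Germ.coe_eq

theorem mk_eq_zero {f : ℕ → Qb} : mk U f = 0 ↔ ∀ᶠ n in (U : Filter ℕ), f n = 0 := by
  rw [← map_zero (mk U)]
  exact mk_eq_mk

theorem mk_inv (f : ℕ → Qb) : (mk U f)⁻¹ = mk U fun n => (f n)⁻¹ := rfl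

theorem mk_ne_zero {f : ℕ → Qb} : mk U f ≠ 0 ↔ ∀ᶠ n in (U : Filter ℕ), f n ≠ 0 := by
  rw [Ne, mk_eq_zero]
  exact Ultrafilter.eventually_not.symm

end UPow

variable {w : ℕ → AbsoluteValue Qb ℝ} {s : ℕ → ℝ}

/-- A sequence is bounded for the rescaled absolute values. -/
def IsBdd (w : ℕ → AbsoluteValue Qb ℝ) (s : ℕ → ℝ) (U : Ultrafilter ℕ) (f : ℕ → Qb) : Prop :=
  ∃ C : ℝ, ∀ᶠ n in (U : Filter ℕ), w n (f n) ^ s n ≤ C

/-- An element of the ultrapower is bounded. -/
def IsBddGerm (w : ℕ → AbsoluteValue Qb ℝ) (s : ℕ → ℝ) (U : Ultrafilter ℕ) (x : UPow U) : Prop :=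
  ∃ f, UPow.mk U f = x ∧ IsBdd w s U f

theorem isBddGerm_mk {U : Ultrafilter ℕ} {f : ℕ → Qb} :
    IsBddGerm w s U (UPow.mk U f) ↔ IsBdd w s U f := by
  refine ⟨fun ⟨g, hg, C, hC⟩ => ⟨C, ?_⟩, fun h => ⟨f, rfl, h⟩⟩
  filter_upwards [hC, UPow.mk_eq_mk.1 hg] with n hn he
  rwa [← he]

/-- **The valuation ring of the bounded elements.** -/
def valRing (hw : IsTame w s) (U : Ultrafilter ℕ) (hU : (U : Filter ℕ) ≤ atTop) :
    ValuationSubring (UPow U) where
  carrier := {x | IsBddGerm w s U x}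
  mul_mem' {x y} hx hy := by
    obtain ⟨f, rfl, C, hC⟩ := hx
    obtain ⟨g, rfl, C', hC'⟩ := hy
    refine ⟨f * g, map_mul _ f g, C * C', ?_⟩
    filter_upwards [hC, hC'] with n h1 h2
    rw [Pi.mul_apply, map_mul, Real.mul_rpow (apply_nonneg _ _) (apply_nonneg _ _)]
    exact mul_le_mul h1 h2 (Real.rpow_nonneg (apply_nonneg _ _) _)
      ((Real.rpow_nonneg (apply_nonneg _ _) _).trans h1)
  one_mem' := ⟨1, map_one _, 1, Eventually.of_forall fun n => by
    rw [Pi.one_apply, map_one, Real.one_rpow]⟩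
  add_mem' {x y} hx hy := by
    obtain ⟨f, rfl, C, hC⟩ := hx
    obtain ⟨g, rfl, C', hC'⟩ := hy
    obtain ⟨A, hA⟩ := hw.add
    refine ⟨f + g, map_add _ f g, max A 0 * max C C', ?_⟩
    filter_upwards [hC, hC', hA.filter_mono hU] with n h1 h2 h3
    refine (h3 (f n) (g n)).trans (mul_le_mul (le_max_left _ _) (max_le_max h1 h2)
      ((Real.rpow_nonneg (apply_nonneg _ _) _).trans (le_max_left _ _)) (le_max_right _ _))
  zero_mem' := ⟨0, map_zero _, 0, Eventually.of_forall fun n => by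
    rw [Pi.zero_apply, map_zero, Real.zero_rpow (hw.pos n).ne']⟩
  neg_mem' {x} hx := by
    obtain ⟨f, rfl, C, hC⟩ := hx
    exact ⟨-f, map_neg _ f, C, hC.mono fun n h => by rwa [Pi.neg_apply, map_neg_eq_map]⟩
  mem_or_inv_mem' x := by
    obtain ⟨f, rfl⟩ := UPow.mk_surjective x
    by_cases h : ∀ᶠ n in (U : Filter ℕ), w n (f n) ^ s n ≤ 1
    · exact Or.inl ⟨f, rfl, 1, h⟩
    · refine Or.inr ⟨fun n => (f n)⁻¹, (UPow.mk_inv f).symm, 1, ?_⟩
      filter_upwards [Ultrafilter.eventually_not.2 h] with n hn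
      rw [map_inv₀, Real.inv_rpow (apply_nonneg _ _)]
      exact inv_le_one_of_one_le₀ (le_of_lt (not_le.1 hn))

variable {hw : IsTame w s} {U : Ultrafilter ℕ} {hU : (U : Filter ℕ) ≤ atTop}

theorem mem_valRing_mk {f : ℕ → Qb} :
    UPow.mk U f ∈ valRing hw U hU ↔
      ∃ C : ℝ, ∀ᶠ n in (U : Filter ℕ), w n (f n) ^ s n ≤ C :=
  isBddGerm_mk

/-- The elements of valuation less than one tend to zero. -/
theorem valuation_mk_lt_one_iff {f : ℕ → Qb} :
    (valRing hw U hU).valuation (UPow.mk U f) < 1 ↔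
      ∀ ε : ℝ, 0 < ε → ∀ᶠ n in (U : Filter ℕ), w n (f n) ^ s n ≤ ε := by
  rw [← ValuationSubring.mem_nonunits_iff, ValuationSubring.mem_nonunits_iff_or]
  constructor
  · rintro (h0 | h1) ε hε
    · filter_upwards [UPow.mk_eq_zero.1 h0] with n hn
      rw [hn, map_zero, Real.zero_rpow (hw.pos n).ne']
      exact hε.le
    · rw [UPow.mk_inv, mem_valRing_mk] at h1
      push Not at h1
      filter_upwards [h1 ε⁻¹] with n hn
      rw [map_inv₀, Real.inv_rpow (apply_nonneg _ _)] at hn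
      rcases (Real.rpow_nonneg (apply_nonneg (w n) (f n)) (s n)).lt_or_eq with hpos | he
      · exact ((inv_lt_inv₀ hε hpos).1 hn).le
      · rw [← he]; exact hε.le
  · intro h
    by_cases h0 : UPow.mk U f = 0
    · exact Or.inl h0
    refine Or.inr fun h1 => ?_
    rw [UPow.mk_inv, mem_valRing_mk] at h1
    obtain ⟨C, hC⟩ := h1
    have hC1 : 0 < |C| + 1 := by positivity
    obtain ⟨n, h2, h3, h4⟩ := ((h _ (inv_pos.2 hC1)).and (hC.and (UPow.mk_ne_zero.1 h0))).exists
    have hpos : 0 < w n (f n) ^ s n := Real.rpow_pos_of_pos ((w n).pos h4) _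
    rw [map_inv₀, Real.inv_rpow (apply_nonneg _ _)] at h3
    have h5 := (le_inv_comm₀ hpos hC1).1 h2
    have := le_abs_self C
    linarith

theorem mem_maximalIdeal_valRing {f : ℕ → Qb} (hf : UPow.mk U f ∈ valRing hw U hU) :
    (⟨UPow.mk U f, hf⟩ : valRing hw U hU) ∈ IsLocalRing.maximalIdeal (valRing hw U hU) ↔
      ∀ ε : ℝ, 0 < ε → ∀ᶠ n in (U : Filter ℕ), w n (f n) ^ s n ≤ ε :=
  ((valRing hw U hU).valuation_lt_one_iff _).trans valuation_mk_lt_one_iff

/-- The constants are bounded. -/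
theorem algebraMap_mem_valRing (c : Qb) : algebraMap Qb (UPow U) c ∈ valRing hw U hU := by
  rw [UPow.algebraMap_eq, mem_valRing_mk]
  rcases eq_or_ne c 0 with rfl | hc
  · exact ⟨0, Eventually.of_forall fun n => by rw [map_zero, Real.zero_rpow (hw.pos n).ne']⟩
  obtain ⟨C, hC⟩ := hw.const c hc
  refine ⟨Real.exp C, (hC.filter_mono hU).mono fun n hn => ?_⟩
  rw [Real.rpow_def_of_pos ((w n).pos hc), Real.exp_le_exp, mul_comm]
  exact (le_abs_self _).trans hn

/-- Nonzero constants are units. -/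
theorem valuation_algebraMap {c : Qb} (hc : c ≠ 0) :
    (valRing hw U hU).valuation (algebraMap Qb (UPow U) c) = 1 := by
  refine le_antisymm (((valRing hw U hU).valuation_le_one_iff _).2 (algebraMap_mem_valRing c)) ?_
  have h := ((valRing hw U hU).valuation_le_one_iff _).2
    (algebraMap_mem_valRing (hw := hw) (U := U) (hU := hU) c⁻¹)
  rw [map_inv₀, map_inv₀] at h
  refine (inv_le_one₀ ?_).1 h
  exact zero_lt_iff.2 ((Valuation.ne_zero_iff _).2 ((_root_.map_ne_zero _).2 hc))

/-- An inequality of valuations is one of rescaled logarithms up to a constant. -/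
theorem exists_log_le_of_valuation_le {f g : ℕ → Qb} (hf : ∀ᶠ n in (U : Filter ℕ), f n ≠ 0)
    (hg : ∀ᶠ n in (U : Filter ℕ), g n ≠ 0)
    (h : (valRing hw U hU).valuation (UPow.mk U f) ≤ (valRing hw U hU).valuation (UPow.mk U g)) :
    ∃ C : ℝ, ∀ᶠ n in (U : Filter ℕ),
      s n * (Real.log (w n (f n)) - Real.log (w n (g n))) ≤ C := by
  obtain ⟨⟨a, ha⟩, hag⟩ := ((valRing hw U hU).valuation_le_iff _ _).1 h
  obtain ⟨c, rfl⟩ := UPow.mk_surjective a
  obtain ⟨C, hC⟩ := mem_valRing_mk.1 ha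
  have he : ∀ᶠ n in (U : Filter ℕ), c n * g n = f n :=
    UPow.mk_eq_mk.1 ((map_mul (UPow.mk U) c g).trans hag)
  refine ⟨Real.log (|C| + 1), ?_⟩
  filter_upwards [hf, hg, he, hC] with n h1 h2 h3 h4
  have hc0 : c n ≠ 0 := fun h => h1 (by rw [← h3, h, zero_mul])
  rw [← h3, map_mul, Real.log_mul ((w n).pos hc0).ne' ((w n).pos h2).ne', add_sub_cancel_right,
    ← Real.log_rpow ((w n).pos hc0)]
  exact Real.log_le_log (Real.rpow_pos_of_pos ((w n).pos hc0) _)
    (h4.trans (by linarith [le_abs_self C]))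

/-- Equal valuations give rescaled logarithms with bounded difference. -/
theorem exists_abs_log_sub_le_of_valuation_eq {f g : ℕ → Qb}
    (hf : ∀ᶠ n in (U : Filter ℕ), f n ≠ 0) (hg : ∀ᶠ n in (U : Filter ℕ), g n ≠ 0)
    (h : (valRing hw U hU).valuation (UPow.mk U f) = (valRing hw U hU).valuation (UPow.mk U g)) :
    ∃ C : ℝ, ∀ᶠ n in (U : Filter ℕ),
      |s n * (Real.log (w n (f n)) - Real.log (w n (g n)))| ≤ C := by
  obtain ⟨C, hC⟩ := exists_log_le_of_valuation_le hf hg h.le
  obtain ⟨C', hC'⟩ := exists_log_le_of_valuation_le hg hf h.ge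
  refine ⟨max C C', ?_⟩
  filter_upwards [hC, hC'] with n h1 h2
  rw [abs_le]
  constructor <;> nlinarith [le_max_left C C', le_max_right C C']

end FA.MW

end
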