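import Fermat.Agent.MW.Defs
import Fermat.Agent.GalCoh.GlobalDuality
import Fermat.Agent.JTorsion.GaloisTors
import Fermat.Agent.JTorsion.Divisible.Descent
import Fermat.Agent.JTorsion.GoodRedAll

/-!
# Weak Mordell-Weil for modular Jacobians

Division by three sends the rational points to classes of degree one with values in the three
torsion which are unramified outside `3N`; there are finitely many such classes.
-/

set_option autoImplicit false
set_option linter.style.haveILetI false
set_option linter.unusedSectionVars false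

noncomputable section

namespace FA.MW

open ModularCurve FA.GalCoh

local notation "Qb" => AlgebraicClosure ℚ

/-- A level fixing finitely many points of `J₀(N)`. -/
theorem exists_level_fix (N : ℕ) [NeZero N] (X : Set (JZero N)) (hX : X.Finite) :
    ∃ M ∈ LQ.carrier, ∀ s ∈ M, ∀ x ∈ X, (s : GQ) • x = x := by
  letI : Algebra Qb ℂ := (IsAlgClosed.lift (R := ℚ) (M := ℂ) (S := Qb)).toRingHom.toAlgebra
  obtain ⟨L, hL, h⟩ := FA.JTorsion.exists_field_fix N X hX
  exact ⟨L.fixingSubgroup, fixingSubgroup_mem_fieldLevels L, fun s hs =>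
    h s fun a ha => (IntermediateField.mem_fixingSubgroup_iff _ _).1 hs a ha⟩

/-- The three torsion of `J₀(N)`. -/
def threeTors (N : ℕ) [NeZero N] : AddSubgroup (JZero N) :=
  (nsmulAddMonoidHom (α := JZero N) 3).ker

variable {N : ℕ} [NeZero N]

theorem mem_threeTors {x : JZero N} : x ∈ threeTors N ↔ 3 • x = 0 := Iff.rfl

theorem finite_threeTors : Finite (threeTors N) := by
  letI : Algebra Qb ℂ := (IsAlgClosed.lift (R := ℚ) (M := ℂ) (S := Qb)).toRingHom.toAlgebra
  haveI := FA.JTorsion.tors_finite (V := FA.Level.lvlGamma0 N) (L := Qb) 3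
  refine Finite.of_injective (β := FA.JTorsion.tors (FA.Level.lvlGamma0 N) Qb 3)
    (fun x => ⟨x.1, AlgebraicCurve.Pic0.mem_torsion.2 ?_⟩) fun a b h => Subtype.ext ?_
  · rw [natCast_zsmul]
    exact x.2
  · exact congrArg (fun z : FA.JTorsion.tors (FA.Level.lvlGamma0 N) Qb 3 => z.1) h

instance threeTorsModule : Module (ZMod 3) (threeTors N) :=
  AddCommGroup.zmodModule fun x => Subtype.ext x.2

/-- The Galois action on the three torsion. -/
def threeHom (g : GQ) : threeTors N →+ threeTors N where
  toFun x := ⟨g • x.1, by rw [mem_threeTors, FA.ModField.nsmul_gal, mem_threeTors.1 x.2, FA.ModField.gal_zero]⟩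
  map_zero' := Subtype.ext (smul_zero g)
  map_add' a b := Subtype.ext (smul_add g a.1 b.1)

variable (N) in
/-- The mod three representation on the torsion. -/
def threeRep : Representation (ZMod 3) GQ (threeTors N) where
  toFun g := (threeHom g).toZModLinearMap 3
  map_one' := by
    refine LinearMap.ext fun x => Subtype.ext ?_
    show (1 : GQ) • x.1 = x.1
    rw [one_smul]
  map_mul' g h := by
    refine LinearMap.ext fun x => Subtype.ext ?_
    show (g * h) • x.1 = g • h • x.1
    rw [mul_smul]

theorem threeRep_apply (g : GQ) (x : threeTors N) : (threeRep N g x).1 = g • x.1 := rfl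

variable (N) in
theorem smooth_threeRep : Smooth LQ (threeRep N) := by
  haveI := finite_threeTors (N := N)
  obtain ⟨M, hM, h⟩ := exists_level_fix N (Set.range (Subtype.val : threeTors N → JZero N))
    (Set.finite_range _)
  exact ⟨M, hM, fun s hs => LinearMap.ext fun x => Subtype.ext (h s hs _ ⟨x, rfl⟩)⟩

/-- A level on which the mod three cyclotomic character is trivial. -/
theorem exists_level_cyclo : ∃ M ∈ LQ.carrier, ∀ s ∈ M, (cycQ 3).χ s = 1 := by
  haveI := IntermediateField.adjoin.finiteDimensional (K := ℚ) (x := (cycQ 3).ζ)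
    (Algebra.IsAlgebraic.isAlgebraic _).isIntegral
  refine ⟨(IntermediateField.adjoin ℚ {(cycQ 3).ζ}).fixingSubgroup,
    fixingSubgroup_mem_fieldLevels _, fun s hs => ?_⟩
  have hfix : (s : Qb → Qb) (cycQ 3).ζ = (cycQ 3).ζ :=
    (IntermediateField.mem_fixingSubgroup_iff _ _).1 hs _
      (IntermediateField.mem_adjoin_simple_self ℚ _)
  have h := (cycQ 3).act s
  rw [show s • (cycQ 3).ζ = (cycQ 3).ζ from hfix] at h
  conv_lhs at h => rw [← pow_one (cycQ 3).ζ]
  refine Units.ext (ZMod.val_injective 3 ?_)
  rw [Units.val_one, ZMod.val_one]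
  exact ((cycQ 3).prim.pow_inj (by norm_num) (ZMod.val_lt _) h).symm

variable (N) in
/-- The twisted dual. -/
def threeDual : Representation (ZMod 3) GQ (Module.Dual (ZMod 3) (threeTors N)) where
  toFun g := ((cycQ 3).χ g : ZMod 3) • (threeRep N).dual g
  map_one' := by rw [map_one, map_one, Units.val_one, one_smul]
  map_mul' g h := by
    rw [map_mul, map_mul, Units.val_mul]
    refine LinearMap.ext fun f => ?_
    simp only [LinearMap.smul_apply, Module.End.mul_apply, map_smul, smul_smul]
    rw [mul_comm]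

variable (N) in
/-- The dual pair of the three torsion. -/
def threePair : DPair LQ (cycQ 3).χ (threeRep N) (threeDual N) where
  β := Module.Dual.eval (ZMod 3) (threeTors N)
  bil g v f := by
    show ((cycQ 3).χ g : ZMod 3) * f (threeRep N g⁻¹ (threeRep N g v)) = _
    rw [← Module.End.mul_apply, ← map_mul, inv_mul_cancel, map_one]
    rfl
  inj_left := Module.eval_apply_injective (ZMod 3)
  inj_right := fun a b h => LinearMap.ext fun v => LinearMap.congr_fun h v
  fin_left :=
    haveI := finite_threeTors (N := N)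
    Module.Finite.of_finite
  fin_right :=
    haveI := finite_threeTors (N := N)
    haveI : Module.Finite (ZMod 3) (threeTors N) := Module.Finite.of_finite
    inferInstance
  smooth_left := smooth_threeRep N
  smooth_right := by
    obtain ⟨M, hM, hρ⟩ := smooth_threeRep N
    obtain ⟨M', hM', hχ⟩ := exists_level_cyclo
    refine ⟨M ⊓ M', LQ.inf_mem hM hM', fun s hs => LinearMap.ext fun f => LinearMap.ext fun v => ?_⟩
    show ((cycQ 3).χ s : ZMod 3) * f (threeRep N s⁻¹ v) = f v
    rw [hχ s hs.2, Units.val_one, one_mul, hρ s⁻¹ (inv_mem hs.1)]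
    rfl

/-- The primes dividing `3N`. -/
def badPrimes (N : ℕ) : Finset Nat.Primes := (insert 3 N.primeFactors).subtype Nat.Prime

/-- The rational points. -/
abbrev weakFixed (N : ℕ) [NeZero N] : AddSubgroup (JZero N) :=
  FixedPoints.addSubgroup (Qb ≃ₐ[ℚ] Qb) (JZero N)

/-- A third of a point. -/
def third (x : JZero N) : JZero N :=
  (FA.JTorsion.jZero_exists_nsmul_eq N Nat.prime_three x).choose

theorem three_nsmul_third (x : JZero N) : 3 • third x = x :=
  (FA.JTorsion.jZero_exists_nsmul_eq N Nat.prime_three x).choose_spec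

theorem three_nsmul_sub (a : ↥(weakFixed N)) (g : GQ) : 3 • (g • third a.1 - third a.1) = 0 := by
  rw [nsmul_sub, FA.ModField.nsmul_gal, three_nsmul_third, a.2 g, sub_self]

/-- The Kummer cocycle of a rational point. -/
def kummerFun (a : ↥(weakFixed N)) (g : GQ) : threeTors N := ⟨g • third a.1 - third a.1, three_nsmul_sub a g⟩

theorem kummerFun_mem (a : ↥(weakFixed N)) : kummerFun a ∈ Z1 LQ (threeRep N) := by
  obtain ⟨M, hM, h⟩ := exists_level_fix N {third a.1} (Set.finite_singleton _)
  refine ⟨⟨M, hM, fun g s hs => Subtype.ext ?_⟩, fun g h => Subtype.ext ?_⟩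
  · show (g * s) • third a.1 - third a.1 = g • third a.1 - third a.1
    rw [mul_smul, h s hs _ rfl]
  · show (g * h) • third a.1 - third a.1 =
      g • (h • third a.1 - third a.1) + (g • third a.1 - third a.1)
    rw [smul_sub, mul_smul, sub_add_sub_cancel]

/-- The Kummer cocycle, bundled. -/
def kummerCocycle (a : ↥(weakFixed N)) : ↥(Z1 LQ (threeRep N)) := ⟨kummerFun a, kummerFun_mem a⟩

/-- The Kummer class of a rational point. -/
def kummerClass (a : ↥(weakFixed N)) : H1 LQ (threeRep N) := mk1 LQ (threeRep N) (kummerCocycle a)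

theorem kummerClass_mem (a : ↥(weakFixed N)) : kummerClass a ∈ unrOutside (badPrimes N) (threeRep N) := by
  refine mem_unrOutside.2 fun q hq =>
    ⟨mapZ1 compat_loc (Equi.res (loc (q : ℕ)) (threeRep N)) (kummerCocycle a),
      fun t ht => ?_, (map1_mk1 compat_loc _ _).symm⟩
  haveI : Fact (q : ℕ).Prime := ⟨q.2⟩
  have hbad : ∀ {r : ℕ}, r = (q : ℕ) → r ∈ insert 3 N.primeFactors → False := fun {r} hr hmem =>
    hq (Finset.mem_subtype.2 (hr ▸ hmem))
  have hq3 : ¬ (q : ℕ) ∣ 3 := fun h => hbad rfl
    (Finset.mem_insert.2 (Or.inl ((Nat.prime_dvd_prime_iff_eq q.2 Nat.prime_three).1 h)))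
  have hqN : ¬ (q : ℕ) ∣ N := fun h => hbad rfl
    (Finset.mem_insert.2 (Or.inr (Nat.mem_primeFactors.2 ⟨q.2, h, NeZero.ne N⟩)))
  have hA := liesOverPrime_padicPlace (q : ℕ)
  have hin := FA.CurveRed.Modular.reductionInputsModL N q.2 hqN _ hA
  refine Subtype.ext ?_
  show loc (q : ℕ) t • third a.1 - third a.1 = 0
  refine FA.ModField.eq_zero_of_reductionModL N hqN hA hin hq3
    (three_nsmul_sub a (loc (q : ℕ) t)) ?_
  rw [map_sub, FA.ModField.reductionModL_inertia N hqN hA hin ht, sub_self]

theorem sub_mem_range_of_kummerClass_eq {a b : ↥(weakFixed N)} (h : kummerClass a = kummerClass b) :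
    a - b ∈ (nsmulAddMonoidHom (α := ↥(weakFixed N)) 3).range := by
  obtain ⟨v, hv⟩ := (mk1_eq_mk1 LQ (threeRep N) (kummerCocycle a) (kummerCocycle b)).1 h
  have hy : third a.1 - third b.1 - v.1 ∈ FixedPoints.addSubgroup (Qb ≃ₐ[ℚ] Qb) (JZero N) := by
    intro g
    have e : g • v.1 - v.1 = (g • third a.1 - third a.1) - (g • third b.1 - third b.1) :=
      congrArg Subtype.val (congrFun hv g)
    rw [smul_sub, smul_sub, ← sub_eq_zero]
    linear_combination (norm := abel) (-1 : ℤ) • e
  refine ⟨⟨_, hy⟩, Subtype.ext ?_⟩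
  show 3 • (third a.1 - third b.1 - v.1) = a.1 - b.1
  rw [nsmul_sub, nsmul_sub, three_nsmul_third, three_nsmul_third, mem_threeTors.1 v.2, sub_zero]

/-- **Weak Mordell-Weil for `J₀(N)` at three.** -/
theorem weakMordellWeil : WeakMordellWeil := by
  intro N _ _
  haveI : Finite (unrOutside (badPrimes N) (threeRep N)) :=
    finite_unrOutside_of (threePair N) (by norm_num) _
  set H := (nsmulAddMonoidHom (α := ↥(weakFixed N)) 3).range
  haveI : Finite (↥(weakFixed N) ⧸ H) := Finite.of_injective
    (fun a => (⟨kummerClass a.out, kummerClass_mem a.out⟩ : unrOutside (badPrimes N) (threeRep N)))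
    fun a b h => by
      have h1 := sub_mem_range_of_kummerClass_eq (a := a.out) (b := b.out)
        (congrArg Subtype.val h)
      rw [← a.out_eq', ← b.out_eq', QuotientAddGroup.eq, neg_add_eq_sub]
      exact (neg_sub a.out b.out) ▸ neg_mem h1
  exact AddSubgroup.finiteIndex_of_finite_quotient

end FA.MW

end
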