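import Fermat.Agent.MW.Curve.Setup
import Fermat.Agent.ModField.Semistable.Mono.GenusLevel
import Fermat.Agent.CurveRed.FullField
import Fermat.Agent.FlatModel.Modular
import Fermat.Agent.Level.Series

/-!
# The field of `X₀(N)` over the algebraic numbers as a curve with a Galois action
-/

set_option autoImplicit false
set_option linter.style.haveILetI false
set_option linter.unusedSectionVars false
set_option synthInstance.maxHeartbeats 200000
set_option maxHeartbeats 1600000

noncomputable section

namespace FA.MW

open AlgebraicCurve ModularCurve IntermediateField FA.Curve FA.ModField KaehlerDifferential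

local notation "Qb" => AlgebraicClosure ℚ

/-- The derivation `d/dj` and the divisor of `dj`. -/
theorem exists_ddj (N : ℕ) [NeZero N] (E : IntermediateField Qb (LaurentSeries Qb))
    (hE : E = modularFunctionFieldFullC Qb N) :
    IsFunctionField Qb E ∧ ∃ (δ : Derivation Qb E E) (W : Divisor Qb E),
      (∀ (v : Place Qb E) (f : E), v.ord f ≠ 0 → δ f ≠ 0 ∧ v.ord (δ f) = v.ord f - 1 - W v) ∧
      2 * (FA.Curve.genus Qb E : ℤ) - 2 ≤ Divisor.degree W := by
  classical
  subst hE
  haveI : Algebra.IsAlgebraic ℚ Qb := AlgebraicClosure.isAlgebraic ℚ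
  letI : Algebra Qb ℂ := (IsAlgClosed.lift : Qb →ₐ[ℚ] ℂ).toRingHom.toAlgebra
  set x := jElem Qb N
  have hF := FA.CurveRed.isFunctionField_fullC Qb N
  refine ⟨hF, ?_⟩
  have hx : Transcendental Qb x := AllValues.x_transcendental (fam Qb N)
  haveI := hF.finiteDimensional hx
  haveI : CharZero Qb⟮x⟯ := charZero_of_injective_algebraMap (algebraMap Qb Qb⟮x⟯).injective
  haveI : Algebra.IsAlgebraic Qb⟮x⟯ (modularFunctionFieldFullC Qb N) :=
    Algebra.IsAlgebraic.of_finite _ _
  haveI : Algebra.IsSeparable Qb⟮x⟯ (modularFunctionFieldFullC Qb N) :=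
    Algebra.IsAlgebraic.isSeparable_of_perfectField
  have hB : ∀ a ∉ ({0, 1728} : Finset Qb),
      ((fam Qb N a).places.card : ℤ) = Fintype.card (FA.Dim.Cos N) := by
    intro a ha
    simp only [Finset.mem_insert, Finset.mem_singleton, not_or] at ha
    rw [card_fam_general ha.1 ha.2, ← Nat.card_eq_fintype_card, FA.Dim.card_cos]
  haveI := (cuspFam Qb N).nontrivial_differentials
  have hω : D Qb (modularFunctionFieldFullC Qb N) x ≠ 0 := by
    intro h0
    obtain ⟨v, hv⟩ : ∃ v : Place Qb (modularFunctionFieldFullC Qb N), v.ord x < 0 := exists_ord_neg hF hx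
    haveI := (cuspFam Qb N).dCoordGenerates v
    have h := v.differentialCoeff_smul_dCoord (D Qb (modularFunctionFieldFullC Qb N) x)
    have hg := (AllValues.ordDifferential_dx (fam Qb N) (cuspFam Qb N) v).1
    exact smul_ne_zero hg v.dCoord_ne_zero (h.trans h0)
  obtain ⟨W, hW, -⟩ := AllValues.differential_divisor (fam Qb N) (cuspFam Qb N) {0, 1728} hB hω
  obtain ⟨hdeg, -⟩ := FA.Curve.degree_diffDiv hF hx (W := W)
    (fun P c hc => by
      have hne : x - algebraMap Qb _ c ≠ 0 := fun h0 =>
        hx (by rw [sub_eq_zero.1 h0]; exact isAlgebraic_algebraMap c)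
      rw [hW, (AllValues.ordDifferential_dx (fam Qb N) (cuspFam Qb N) P).2.1 c
        ((fam Qb N c).mem_places.2
          (show 0 < P.ord (x - algebraMap Qb _ c) by have := (atLeast_iff hne).1 hc; omega))])
    (fun P hP => by
      rw [hW, (AllValues.ordDifferential_dx (fam Qb N) (cuspFam Qb N) P).2.2
        ((cuspFam Qb N).mem_places.2
          (show 0 < P.ord x⁻¹ by rw [P.ord_inv]; omega)), P.ord_inv, neg_neg])
  have hbij : Function.Bijective (LinearMap.toSpanSingleton (modularFunctionFieldFullC Qb N) Ω[(modularFunctionFieldFullC Qb N)⁄Qb] (D Qb (modularFunctionFieldFullC Qb N) x)) := by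
    refine ⟨fun a b h => smul_left_injective (modularFunctionFieldFullC Qb N) hω h, fun ω => ?_⟩
    have : ω ∈ Submodule.span (modularFunctionFieldFullC Qb N) {D Qb (modularFunctionFieldFullC Qb N) x} := by
      rw [(cuspFam Qb N).span_D hx]; trivial
    exact Submodule.mem_span_singleton.1 this
  let e := LinearEquiv.ofBijective _ hbij
  let δ : Derivation Qb (modularFunctionFieldFullC Qb N) (modularFunctionFieldFullC Qb N) := (e.symm.toLinearMap).compDer (D Qb (modularFunctionFieldFullC Qb N))
  have hδ : ∀ f, δ f • D Qb (modularFunctionFieldFullC Qb N) x = D Qb (modularFunctionFieldFullC Qb N) f := fun f => e.apply_symm_apply (D Qb (modularFunctionFieldFullC Qb N) f)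
  refine ⟨δ, W, fun v f hf => ?_, hdeg⟩
  haveI := (cuspFam Qb N).dCoordGenerates v
  obtain ⟨h1, h2⟩ : v.differentialCoeff (D Qb (modularFunctionFieldFullC Qb N) f) ≠ 0 ∧
      v.ordDifferential (D Qb (modularFunctionFieldFullC Qb N) f) = v.ord f - 1 := by
    rcases AllValues.place_eq_pl (fam Qb N) (cuspFam Qb N) v with ⟨i, rfl⟩ | ⟨a, i, rfl⟩
    · exact (cuspFam Qb N).differential_at i hf
    · exact (fam Qb N a).differential_at i hf
  have hδ0 : δ f ≠ 0 := fun h => h1 (by rw [← hδ, h, zero_smul, v.differentialCoeff_zero])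
  refine ⟨hδ0, ?_⟩
  rw [← hδ, v.ordDifferential_smul hδ0 (AllValues.ordDifferential_dx (fam Qb N) (cuspFam Qb N) v).1,
    ← hW] at h2
  omega

variable (N : ℕ) [NeZero N]

/-- The cusp at infinity. -/
theorem exists_infty : ∃ v : Place Qb (modularFunctionFieldBar N),
    ∀ (f : modularFunctionFieldBar N), (f : LaurentSeries Qb).order = v.ord f := by
  have hj : jqModC Qb ∈ modularFunctionFieldBar N := by
    rw [modularFunctionFieldBar_eq N]; exact jqModC_mem_full Qb N
  set j : modularFunctionFieldBar N := ⟨_, hj⟩
  have ho : (j : LaurentSeries Qb).order = -1 := FA.FlatModel.order_jq Qb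
  rcases FA.Level.exists_place_of_embedding (modularFunctionFieldBar N).val with h | ⟨v, k, hk, h⟩
  · have := h j
    rw [show ((modularFunctionFieldBar N).val j).order = (j : LaurentSeries Qb).order from rfl, ho]
      at this
    omega
  refine ⟨v, fun f => ?_⟩
  have h1 := h j
  rw [show ((modularFunctionFieldBar N).val j).order = (j : LaurentSeries Qb).order from rfl, ho] at h1
  have hk1 : k = 1 := by
    have h2 : k * (-v.ord j) = 1 := by linarith
    exact Int.eq_one_of_mul_eq_one_right hk.le h2
  simpa [hk1] using h f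

/-- The coefficients of the expansions. -/
def coefBar : modularFunctionFieldBar N →ₗ[Qb] (ℤ → Qb) where
  toFun f i := (f : LaurentSeries Qb).coeff i
  map_add' f g := funext fun i => by simp
  map_smul' a f := funext fun i => by
    rw [Algebra.smul_def, MulMemClass.coe_mul, IntermediateField.coe_algebraMap_apply,
      algebraMap_laurentSeries_eq_single, HahnSeries.coeff_single_zero_mul]
    rfl

/-- The curve `X₀(N)`. -/
def galCurveX0 : GalCurve (modularFunctionFieldBar N) where
  hF := (exists_ddj N _ (modularFunctionFieldBar_eq N)).1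
  gal := arithmeticGalois (modularFunctionFieldFull N)
  baseAut_gal _ _ := rfl
  inf := (exists_infty N).choose
  coef := coefBar N
  coef_gal σ f i := by
    show (ModularCurve.coeffMap (σ : Qb →+* Qb) (f : LaurentSeries Qb)).coeff i = _
    rw [coeffMap_coeff]
    rfl
  atLeast_inf f k := by
    rcases eq_or_ne f 0 with rfl | hf
    · exact iff_of_true atLeast_zero fun i _ => by rw [map_zero]; rfl
    have hf' : (f : LaurentSeries Qb) ≠ 0 := fun h => hf (Subtype.ext h)
    rw [atLeast_iff hf, ← (exists_infty N).choose_spec f]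
    refine ⟨fun h i hi => HahnSeries.coeff_eq_zero_of_lt_order (by omega), fun h => ?_⟩
    by_contra hlt
    exact hf' (HahnSeries.coeff_order_eq_zero.1 (h _ (not_le.1 hlt)))
  δ := (exists_ddj N _ (modularFunctionFieldBar_eq N)).2.choose
  W := (exists_ddj N _ (modularFunctionFieldBar_eq N)).2.choose_spec.choose
  ord_δ := (exists_ddj N _ (modularFunctionFieldBar_eq N)).2.choose_spec.choose_spec.1
  degree_W := (exists_ddj N _ (modularFunctionFieldBar_eq N)).2.choose_spec.choose_spec.2

end FA.MW

end
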